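import Fermat.Agent.Root.SummaryAbelianZeta
import Fermat.Agent.Regular.MinusFormula

/-!
# The relative class number of `ℚ(ζ_n)` from below, any `n`

The residues of the zeta functions of `K = ℚ(ζ_n)` and of its real subfield differ by the product of the
primitive `L(1, χ)` over the `φ(n)/2` odd characters modulo `n`; with `|d⁺|² ≤ |d|` this gives
`h⁺ · |d|^(1/4) · ∏ ‖L(1, χ)‖ ≤ (2π)^(φ(n)/2) · h`.
-/

set_option autoImplicit false

noncomputable section

open NumberField
open scoped Classical Real

namespace FA.CycloGrowth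

variable (n : ℕ) [NeZero n]

/-- The odd characters modulo `n`. -/
def oddChars : Finset (DirichletCharacter ℂ n) := Finset.univ.filter fun χ => χ.Odd

omit [NeZero n] in
theorem ne_one_of_mem_oddChars {χ : DirichletCharacter ℂ n} (h : χ ∈ oddChars n) : χ ≠ 1 := fun e => by
  have h' : χ (-1) = -1 := (Finset.mem_filter.mp h).2
  rw [e, MulChar.one_apply isUnit_one.neg] at h'
  norm_num at h'

/-- There are `φ(n)/2` odd characters. -/
theorem two_mul_card_oddChars (hn : 2 < n) : 2 * (oddChars n).card = n.totient := by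
  have hall : (Finset.univ : Finset (DirichletCharacter ℂ n)).card = n.totient := by
    rw [Finset.card_univ, ← Nat.card_eq_fintype_card,
      DirichletCharacter.card_eq_totient_of_hasEnoughRootsOfUnity ℂ n]
  obtain ⟨χ₀, hχ₀⟩ : ∃ χ₀ : DirichletCharacter ℂ n, χ₀.Odd := by
    by_contra hno
    push Not at hno
    have hne : (-1 : ZMod n) ≠ 1 := by
      intro e
      have h2 : ((2 : ℕ) : ZMod n) = 0 := by push_cast; linear_combination -e
      rw [ZMod.natCast_eq_zero_iff] at h2
      exact absurd (Nat.le_of_dvd two_pos h2) (by omega)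
    obtain ⟨χ, hχ⟩ := MulChar.exists_apply_ne_one_of_hasEnoughRootsOfUnity (ZMod n) ℂ hne
    rcases DirichletCharacter.even_or_odd χ with he | ho
    · exact hχ he
    · exact hno χ ho
  have h3 : χ₀ (-1) = -1 := hχ₀
  have hbij : (oddChars n).card =
      ((Finset.univ : Finset (DirichletCharacter ℂ n)).filter fun χ => ¬ χ.Odd).card := by
    refine Finset.card_nbij' (fun χ => χ * χ₀) (fun χ => χ * χ₀⁻¹) ?_ ?_
      (fun χ _ => mul_inv_cancel_right χ χ₀) (fun χ _ => inv_mul_cancel_right χ χ₀)
    · intro χ hχ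
      refine Finset.mem_filter.mpr ⟨Finset.mem_univ _, fun h => ?_⟩
      have h1 : (χ * χ₀) (-1) = -1 := h
      have h2 : χ (-1) = -1 := (Finset.mem_filter.mp hχ).2
      rw [MulChar.mul_apply, h2, h3] at h1
      norm_num at h1
    · intro χ hχ
      refine Finset.mem_filter.mpr ⟨Finset.mem_univ _, ?_⟩
      have h2 : χ (-1) = 1 := (DirichletCharacter.even_or_odd χ).resolve_right (Finset.mem_filter.mp hχ).2
      show (χ * χ₀⁻¹) (-1) = -1
      have h4 : χ₀⁻¹ (-1) * χ₀ (-1) = 1 := by
        rw [← MulChar.mul_apply, inv_mul_cancel, MulChar.one_apply isUnit_one.neg]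
      rw [MulChar.mul_apply, h2, one_mul]
      rw [h3] at h4
      linear_combination -h4
  have := Finset.card_filter_add_card_filter_not
    (s := (Finset.univ : Finset (DirichletCharacter ℂ n))) (fun χ => χ.Odd)
  change (oddChars n).card + _ = _ at this
  rw [← hbij, hall] at this
  omega

variable (K : Type*) [Field K] [NumberField K] [IsCyclotomicExtension {n} ℚ K] [IsCMField K]

/-- The maximal real subfield as an intermediate field. -/
def plusField : IntermediateField ℚ K :=
  (maximalRealSubfield K).toIntermediateField fun q => by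
    intro φ
    rw [eq_ratCast, map_ratCast, Complex.star_def, map_ratCast]

/-- Conjugation is `-1`. -/
theorem galEquivZMod_complexConj :
    IsCyclotomicExtension.Rat.galEquivZMod n K ((IsCMField.complexConj K).restrictScalars ℚ) = -1 := by
  have hζ := IsCyclotomicExtension.zeta_spec n ℚ K
  set ζ := IsCyclotomicExtension.zeta n ℚ K
  set u := IsCyclotomicExtension.Rat.galEquivZMod n K ((IsCMField.complexConj K).restrictScalars ℚ)
  have h1 : ((IsCMField.complexConj K).restrictScalars ℚ) ζ = ζ ^ (u : ZMod n).val :=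
    IsCyclotomicExtension.Rat.galEquivZMod_apply_of_pow_eq n K _ hζ.pow_eq_one
  have h2 : ζ ^ ((u : ZMod n).val + 1) = 1 := by
    let φ : K →+* ℂ := Classical.choice (inferInstance : Nonempty _)
    refine φ.injective ?_
    rw [pow_succ, ← h1, map_mul, map_one]
    show φ (IsCMField.complexConj K ζ) * φ ζ = 1
    rw [IsCMField.complexEmbedding_complexConj, ← Complex.normSq_eq_conj_mul_self, Complex.normSq_eq_norm_sq,
      Complex.norm_eq_one_of_pow_eq_one (show φ ζ ^ n = 1 by rw [← map_pow, hζ.pow_eq_one, map_one]) (NeZero.ne n)]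
    norm_num
  rw [hζ.pow_eq_one_iff_dvd, ← ZMod.natCast_eq_zero_iff, Nat.cast_add, ZMod.natCast_zmod_val, Nat.cast_one] at h2
  exact Units.ext (by rw [Units.val_neg, Units.val_one]; exact eq_neg_of_add_eq_zero_left h2)

/-- The group of the real subfield. -/
theorem mem_fixingSubgroup_plusField (σ : K ≃ₐ[ℚ] K) :
    σ ∈ (plusField K).fixingSubgroup ↔
      IsCyclotomicExtension.Rat.galEquivZMod n K σ = 1 ∨ IsCyclotomicExtension.Rat.galEquivZMod n K σ = -1 := by
  have hc := galEquivZMod_complexConj n K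
  rw [IntermediateField.mem_fixingSubgroup_iff]
  constructor
  · intro h
    let τ : K ≃ₐ[maximalRealSubfield K] K :=
      { σ.toRingEquiv with commutes' := fun r => h r.1 r.2 }
    have hτ : τ ∈ Subgroup.zpowers (IsCMField.complexConj K) := by
      rw [IsCMField.zpowers_complexConj_eq_top]; exact Subgroup.mem_top _
    rw [← mem_powers_iff_mem_zpowers] at hτ
    obtain ⟨k, hk⟩ := hτ
    simp only at hk
    rw [pow_eq_pow_mod k (show IsCMField.complexConj K ^ 2 = 1 by
      rw [← IsCMField.orderOf_complexConj K]; exact pow_orderOf_eq_one _)] at hk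
    rcases Nat.mod_two_eq_zero_or_one k with hm | hm <;> rw [hm] at hk
    · left
      rw [show σ = 1 from AlgEquiv.ext fun x => (DFunLike.congr_fun hk x).symm, map_one]
    · right
      rw [show σ = (IsCMField.complexConj K).restrictScalars ℚ from AlgEquiv.ext fun x =>
        ((DFunLike.congr_fun hk x).symm).trans (by rw [pow_one]; rfl), hc]
  · rintro (h | h) x hx
    · rw [(map_eq_one_iff _ (MulEquiv.injective _)).mp h]
      rfl
    · rw [(IsCyclotomicExtension.Rat.galEquivZMod n K).injective (h.trans hc.symm)]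
      exact IsCMField.complexConj_apply_eq_self K ⟨x, hx⟩

/-- Its characters are the even ones. -/
theorem mem_fieldChars_plusField [IsAbelianGalois ℚ K] (χ : DirichletCharacter ℂ n) :
    χ ∈ FA.AbelianZeta.fieldChars n K (plusField K) ↔ χ.Even := by
  rw [FA.AbelianZeta.mem_fieldChars_iff]
  refine ⟨fun h => ?_, fun h σ hσ => ?_⟩
  · have := h _ ((mem_fixingSubgroup_plusField n K _).mpr (Or.inr (galEquivZMod_complexConj n K)))
    rw [galEquivZMod_complexConj n K] at this
    simpa [DirichletCharacter.Even] using this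
  · rcases (mem_fixingSubgroup_plusField n K σ).mp hσ with e | e <;> rw [e]
    · simp
    · simpa [DirichletCharacter.Even] using h

/-- The residue of the real subfield. -/
theorem residue_plus_eq_prod :
    (dedekindZeta_residue (maximalRealSubfield K) : ℂ) =
      ∏ χ ∈ ((Finset.univ : Finset (DirichletCharacter ℂ n)).filter fun χ => χ.Even).erase 1,
        DirichletCharacter.LFunction χ.primitiveCharacter 1 := by
  have : IsAbelianGalois ℚ K := IsCyclotomicExtension.isAbelianGalois {n} ℚ K
  refine FA.AbelianZeta.residue_eq_prod (Finset.mem_filter.mpr ⟨Finset.mem_univ _, by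
    show (1 : DirichletCharacter ℂ n) (-1) = 1
    rw [MulChar.one_apply isUnit_one.neg]⟩) ?_
  intro s hs
  let e : maximalRealSubfield K ≃+* plusField K :=
    { toFun := fun x => ⟨x.1, x.2⟩
      invFun := fun x => ⟨x.1, x.2⟩
      left_inv := fun _ => rfl
      right_inv := fun _ => rfl
      map_mul' := fun _ _ => rfl
      map_add' := fun _ _ => rfl }
  rw [FA.AbelianZeta.dedekindZeta_congr e, FA.AbelianZeta.dedekindZeta_eq_prod n K (plusField K) hs]
  refine Finset.prod_bij (fun χ _ => χ.1)
    (fun χ _ => Finset.mem_filter.mpr ⟨Finset.mem_univ _, (mem_fieldChars_plusField n K χ.1).mp χ.2⟩)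
    (fun _ _ _ _ h => Subtype.ext h)
    (fun χ hχ => ⟨⟨χ, (mem_fieldChars_plusField n K χ).mpr (Finset.mem_filter.mp hχ).2⟩,
      Finset.mem_univ _, rfl⟩) fun _ _ => rfl

/-- **The residues differ by the odd `L`-values.** -/
theorem prod_oddChars_mul_residue :
    (∏ χ ∈ oddChars n, DirichletCharacter.LFunction χ.primitiveCharacter 1) *
      (dedekindZeta_residue (maximalRealSubfield K) : ℂ) = (dedekindZeta_residue K : ℂ) := by
  rw [residue_plus_eq_prod n K, ← FA.Summary.classNumberFormula_cyclotomic n K,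
    ← Finset.prod_filter_mul_prod_filter_not
      ((Finset.univ : Finset (DirichletCharacter ℂ n)).erase 1) (fun χ => χ.Odd)]
  congr 1
  · refine Finset.prod_congr ?_ fun χ _ => rfl
    ext χ
    simp only [oddChars, Finset.mem_filter, Finset.mem_univ, true_and, Finset.mem_erase, and_true]
    exact ⟨fun h => ⟨ne_one_of_mem_oddChars n (Finset.mem_filter.mpr ⟨Finset.mem_univ _, h⟩), h⟩, fun h => h.2⟩
  · refine Finset.prod_congr ?_ fun χ _ => rfl
    ext χ
    simp only [Finset.mem_filter, Finset.mem_univ, true_and, Finset.mem_erase, and_true]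
    refine and_congr_right fun _ => ⟨fun he ho => ?_, fun h => (DirichletCharacter.even_or_odd χ).resolve_right h⟩
    have h1 : χ (-1) = 1 := he
    have h2 : χ (-1) = -1 := ho
    rw [h1] at h2
    norm_num at h2

omit [IsCyclotomicExtension {n} ℚ K] in
/-- `|d⁺|² ≤ |d|`. -/
theorem natAbs_discr_plus_sq_le : (discr (maximalRealSubfield K)).natAbs ^ 2 ≤ (discr K).natAbs := by
  have h := natAbs_discr_eq_absNorm_differentIdeal_mul_natAbs_discr_pow (maximalRealSubfield K)
    (𝓞 (maximalRealSubfield K)) K (𝓞 K)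
  rw [Algebra.IsQuadraticExtension.finrank_eq_two (maximalRealSubfield K) K] at h
  exact Nat.le_of_dvd (Int.natAbs_pos.mpr (discr_ne_zero K)) ⟨_, h.trans (mul_comm _ _)⟩

/-- **The formula for `h/h⁺`.** -/
theorem classNumber_real_mul_eq {k : ℕ} (hn : 2 < n) (hk : n.totient = 2 * k) :
    (∏ χ ∈ oddChars n, ‖DirichletCharacter.LFunction χ.primitiveCharacter 1‖) *
      classNumber (maximalRealSubfield K) * Real.sqrt ((discr K).natAbs : ℝ) *
      (Units.torsionOrder K * IsCMField.indexRealUnits K) =
      (2 * π) ^ k * classNumber K * Real.sqrt ((discr (maximalRealSubfield K)).natAbs : ℝ) := by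
  obtain ⟨j, rfl⟩ : ∃ j, k = j + 1 := ⟨k - 1, by have := Nat.totient_pos.mpr (NeZero.pos n); omega⟩
  have hcplx : InfinitePlace.nrComplexPlaces K = j + 1 := by
    rw [IsCyclotomicExtension.Rat.nrComplexPlaces_eq_totient_div_two (n := n) K, hk]
    omega
  have hreal : InfinitePlace.nrRealPlaces K = 0 := IsCyclotomicExtension.Rat.nrRealPlaces_eq_zero (n := n) K hn
  have hrank : Units.rank K = j := by
    rw [Units.rank, InfinitePlace.card_eq_nrRealPlaces_add_nrComplexPlaces, hreal, hcplx]
    omega
  have hplus : InfinitePlace.nrRealPlaces (maximalRealSubfield K) = j + 1 ∧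
      InfinitePlace.nrComplexPlaces (maximalRealSubfield K) = 0 ∧
      Units.torsionOrder (maximalRealSubfield K) = 2 := by
    have h0 : InfinitePlace.nrComplexPlaces (maximalRealSubfield K) = 0 :=
      IsTotallyReal.nrComplexPlaces_eq_zero _
    have h1 := IsCMField.units_rank_eq_units_rank K
    rw [hrank, Units.rank, InfinitePlace.card_eq_nrRealPlaces_add_nrComplexPlaces, h0] at h1
    have hpos : 0 < InfinitePlace.nrRealPlaces (maximalRealSubfield K) := by
      have := Fintype.card_pos (α := InfinitePlace (maximalRealSubfield K))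
      rw [InfinitePlace.card_eq_nrRealPlaces_add_nrComplexPlaces, h0] at this
      omega
    exact ⟨by omega, h0, FA.Regular.torsionOrder_eq_two_of_real hpos⟩
  have hreg := IsCMField.regulator_div_regulator_eq_two_pow_mul_indexRealUnits_inv K
  rw [div_eq_iff (Units.regulator_ne_zero _), hrank] at hreg
  have hL : (∏ χ ∈ oddChars n, ‖DirichletCharacter.LFunction χ.primitiveCharacter 1‖) *
      |dedekindZeta_residue (maximalRealSubfield K)| = |dedekindZeta_residue K| := by
    have h := congrArg (fun z : ℂ => ‖z‖) (prod_oddChars_mul_residue n K)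
    simpa only [norm_mul, norm_prod, Complex.norm_real, Real.norm_eq_abs] using h
  rw [dedekindZeta_residue_def, dedekindZeta_residue_def, hreal, hcplx, hplus.1, hplus.2.1, hplus.2.2, hreg] at hL
  set P := ∏ χ ∈ oddChars n, ‖DirichletCharacter.LFunction χ.primitiveCharacter 1‖
  have hP : 0 ≤ P := Finset.prod_nonneg fun _ _ => norm_nonneg _
  have hw : (1 : ℝ) ≤ Units.torsionOrder K := by exact_mod_cast Units.torsionOrder_pos K
  have hQ : (1 : ℝ) ≤ IsCMField.indexRealUnits K := by
    rcases IsCMField.indexRealUnits_eq_one_or_two K with e | e <;> rw [e] <;> norm_num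
  have hd : (0 : ℝ) < ((discr K).natAbs : ℝ) := by exact_mod_cast Int.natAbs_pos.mpr (discr_ne_zero K)
  have hd' : (0 : ℝ) < ((discr (maximalRealSubfield K)).natAbs : ℝ) := by
    exact_mod_cast Int.natAbs_pos.mpr (discr_ne_zero _)
  have hR : 0 < Units.regulator (maximalRealSubfield K) := Units.regulator_pos _
  have hh : (0 : ℝ) < classNumber (maximalRealSubfield K) := by exact_mod_cast classNumber_pos _
  have hh' : (0 : ℝ) < classNumber K := by exact_mod_cast classNumber_pos _
  simp only [pow_zero, one_mul, mul_one, Nat.cast_ofNat] at hL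
  rw [show |((discr K : ℤ) : ℝ)| = ((discr K).natAbs : ℝ) by rw [Nat.cast_natAbs, Int.cast_abs],
    show |((discr (maximalRealSubfield K) : ℤ) : ℝ)| = ((discr (maximalRealSubfield K)).natAbs : ℝ) by
      rw [Nat.cast_natAbs, Int.cast_abs]] at hL
  set d : ℝ := ((discr K).natAbs : ℝ) with hd_def
  set d' : ℝ := ((discr (maximalRealSubfield K)).natAbs : ℝ) with hd'_def
  set w : ℝ := (Units.torsionOrder K : ℝ)
  set Q : ℝ := (IsCMField.indexRealUnits K : ℝ)
  set R : ℝ := Units.regulator (maximalRealSubfield K)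
  set H : ℝ := (classNumber (maximalRealSubfield K) : ℝ)
  have hsd : 0 < Real.sqrt d := Real.sqrt_pos.mpr hd
  have hsd' : 0 < Real.sqrt d' := Real.sqrt_pos.mpr hd'
  have hw0 : 0 < w := lt_of_lt_of_le one_pos hw
  have hQ0 : 0 < Q := lt_of_lt_of_le one_pos hQ
  rw [abs_of_pos (a := 2 ^ (j + 1) * R * H / (2 * Real.sqrt d')) (by positivity),
    abs_of_pos (a := (2 * π) ^ (j + 1) * (2 ^ j * Q⁻¹ * R) * classNumber K / (w * Real.sqrt d)) (by positivity)] at hL
  show P * H * Real.sqrt d * (w * Q) = (2 * π) ^ (j + 1) * classNumber K * Real.sqrt d'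
  field_simp at hL
  rw [mul_pow, pow_succ 2 j] at hL ⊢
  refine mul_left_cancel₀ (mul_ne_zero (pow_ne_zero j (two_ne_zero (α := ℝ))) (two_ne_zero (α := ℝ))) ?_
  linear_combination hL

/-- **The lower bound for `h/h⁺`.** -/
theorem classNumber_real_mul_le {k : ℕ} (hn : 2 < n) (hk : n.totient = 2 * k) :
    (classNumber (maximalRealSubfield K) : ℝ) * ((discr K).natAbs : ℝ) ^ (1 / 4 : ℝ) *
      ∏ χ ∈ oddChars n, ‖DirichletCharacter.LFunction χ.primitiveCharacter 1‖ ≤
      (2 * π) ^ k * classNumber K := by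
  have hkey := classNumber_real_mul_eq n K hn hk
  have hd : (0 : ℝ) < ((discr K).natAbs : ℝ) := by exact_mod_cast Int.natAbs_pos.mpr (discr_ne_zero K)
  have hd' : (0 : ℝ) < ((discr (maximalRealSubfield K)).natAbs : ℝ) := by
    exact_mod_cast Int.natAbs_pos.mpr (discr_ne_zero _)
  have hw : (1 : ℝ) ≤ Units.torsionOrder K := by exact_mod_cast Units.torsionOrder_pos K
  have hQ : (1 : ℝ) ≤ IsCMField.indexRealUnits K := by
    rcases IsCMField.indexRealUnits_eq_one_or_two K with e | e <;> rw [e] <;> norm_num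
  have hh : (0 : ℝ) < classNumber (maximalRealSubfield K) := by exact_mod_cast classNumber_pos _
  set P := ∏ χ ∈ oddChars n, ‖DirichletCharacter.LFunction χ.primitiveCharacter 1‖
  have hP : 0 ≤ P := Finset.prod_nonneg fun _ _ => norm_nonneg _
  set d : ℝ := ((discr K).natAbs : ℝ) with hd_def
  set d' : ℝ := ((discr (maximalRealSubfield K)).natAbs : ℝ) with hd'_def
  have hroot : d ^ (1 / 4 : ℝ) * Real.sqrt d' ≤ Real.sqrt d := by
    have h1 : Real.sqrt d' ≤ d ^ (1 / 4 : ℝ) := by
      rw [Real.sqrt_eq_rpow, show (1 / 2 : ℝ) = (2 : ℕ) * (1 / 4) by norm_num, Real.rpow_mul hd'.le,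
        Real.rpow_natCast]
      refine Real.rpow_le_rpow (by positivity) ?_ (by norm_num)
      rw [hd_def, hd'_def]
      exact_mod_cast natAbs_discr_plus_sq_le K
    calc d ^ (1 / 4 : ℝ) * Real.sqrt d' ≤ d ^ (1 / 4 : ℝ) * d ^ (1 / 4 : ℝ) :=
          mul_le_mul_of_nonneg_left h1 (Real.rpow_nonneg hd.le _)
      _ = Real.sqrt d := by rw [Real.sqrt_eq_rpow, ← Real.rpow_add hd]; norm_num
  set w : ℝ := (Units.torsionOrder K : ℝ)
  set Q : ℝ := (IsCMField.indexRealUnits K : ℝ)
  set H : ℝ := (classNumber (maximalRealSubfield K) : ℝ)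
  have hsd : 0 < Real.sqrt d := Real.sqrt_pos.mpr hd
  have hsd' : 0 < Real.sqrt d' := Real.sqrt_pos.mpr hd'
  have hwQ : (1 : ℝ) ≤ w * Q := one_le_mul_of_one_le_of_one_le hw hQ
  refine le_of_mul_le_mul_right ?_ hsd'
  calc H * d ^ (1 / 4 : ℝ) * P * Real.sqrt d' = H * P * (d ^ (1 / 4 : ℝ) * Real.sqrt d') := by ring
    _ ≤ H * P * Real.sqrt d := mul_le_mul_of_nonneg_left hroot (mul_nonneg hh.le hP)
    _ ≤ P * H * Real.sqrt d * (w * Q) := by
        rw [mul_comm H P]
        exact le_mul_of_one_le_right (mul_nonneg (mul_nonneg hP hh.le) hsd.le) hwQ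
    _ = _ := hkey

end FA.CycloGrowth
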