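import Fermat.Agent.CycloGrowth.LValue
import Fermat.Agent.Root.SummarySiegel
import Fermat.Agent.Root.SummaryAbelianZeta

/-!
# `log ‖L(1, χ)‖` is `o(log q)`

The `3-4-1` inequality at `1 + q^(-6ε/5)` gives `‖L(1, χ)‖ ≥ q^(-ε)` for complex `χ` of large modulus, Siegel
the same up to a constant for real ones, and partial summation `‖L(1, χ)‖ ≤ 1 + log q`.
-/

set_option autoImplicit false

noncomputable section

open Filter Topology DirichletCharacter Metric

namespace FA.CycloGrowth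

/-- **Complex characters**: any exponent. -/
theorem exists_norm_LFunction_one_ge_rpow {ε : ℝ} (hε : 0 < ε) (hε1 : ε ≤ 1) :
    ∃ q₀ : ℕ, ∀ (q : ℕ) [NeZero q] (χ : DirichletCharacter ℂ q), q₀ ≤ q → χ ^ 2 ≠ 1 →
      (q : ℝ) ^ (-ε) ≤ ‖LFunction χ 1‖ := by
  set e : ℝ := ε / 20 with he
  have he0 : 0 < e := by positivity
  have he2 : e ≤ 1 / 2 := by linarith
  set A : ℝ := 4 * (1 / e + 2) / e + 1 with hA
  set B : ℝ := 2 * (1 / e + 2) with hB
  have hA0 : 0 < A := by positivity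
  have hB0 : 0 < B := by positivity
  set C : ℝ := 8 * A ^ 4 * B with hC
  have ev1 : ∀ᶠ q : ℕ in atTop, C < (q : ℝ) ^ (7 * ε / 20) :=
    ((tendsto_rpow_atTop (y := 7 * ε / 20) (by positivity)).comp tendsto_natCast_atTop_atTop).eventually_gt_atTop C
  have ev2 : ∀ᶠ q : ℕ in atTop, (q : ℝ) ^ (-(6 * ε / 5)) < min (e / 2) (1 / 2) :=
    ((tendsto_rpow_neg_atTop (y := 6 * ε / 5) (by positivity)).comp tendsto_natCast_atTop_atTop).eventually
      (eventually_lt_nhds (lt_min (half_pos he0) one_half_pos))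
  obtain ⟨q₀, hq₀⟩ := eventually_atTop.mp (ev1.and ev2)
  refine ⟨q₀, fun q _ χ hq hχ2 => ?_⟩
  by_contra! hlt
  obtain ⟨hCq, hδsmall⟩ := hq₀ q hq
  have hχ : χ ≠ 1 := fun h => hχ2 (by rw [h, one_pow])
  have hq1 : (1 : ℝ) ≤ q := by exact_mod_cast NeZero.one_le
  have hq0 : (0 : ℝ) < q := by linarith
  set δ : ℝ := (q : ℝ) ^ (-(6 * ε / 5)) with hδ
  have hδ0 : 0 < δ := Real.rpow_pos_of_pos hq0 _
  have hδe : δ ≤ e / 2 := hδsmall.le.trans (min_le_left _ _)
  have hδ1 : δ ≤ 1 / 2 := hδsmall.le.trans (min_le_right _ _)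
  set s : ℂ := ((1 + δ : ℝ) : ℂ) with hs
  have hnorm : ‖s - 1‖ = δ := by
    rw [hs, Complex.ofReal_add, Complex.ofReal_one, add_sub_cancel_left, Complex.norm_real, Real.norm_of_nonneg hδ0.le]
  have hball : s ∈ closedBall (1 : ℂ) (e / 2) := by rw [mem_closedBall, dist_eq_norm, hnorm]; exact hδe
  have hmv := (convex_closedBall (1 : ℂ) (e / 2)).norm_image_sub_le_of_norm_deriv_le
    (f := LFunction χ) (fun z _ => (differentiable_LFunction hχ) z)
    (fun z hz => FA.Siegel.norm_deriv_LFunction_le hχ (ε := e) he0 he2 hz)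
    (mem_closedBall_self (by positivity)) hball
  rw [hnorm] at hmv
  have hexp : (q : ℝ) ^ e * δ ≤ (q : ℝ) ^ (-ε) := by
    rw [hδ, ← Real.rpow_add hq0]
    exact Real.rpow_le_rpow_of_exponent_le hq1 (by linarith)
  have hD : 0 ≤ 4 * (1 / e + 2) / e := by positivity
  have hLs : ‖LFunction χ s‖ ≤ A * (q : ℝ) ^ (-ε) := by
    have h1 := norm_le_norm_add_norm_sub' (LFunction χ s) (LFunction χ 1)
    rw [mul_assoc] at hmv
    have h2 := mul_le_mul_of_nonneg_left hexp hD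
    rw [hA, add_mul, one_mul]
    linarith
  have hsre : 1 < s.re := by rw [hs, Complex.ofReal_re]; linarith
  have h0 : ‖LFunctionTrivChar q s‖ ≤ 2 / δ := by
    refine (norm_LFunction_ofReal_le (1 : DirichletCharacter ℂ q) (by linarith)).trans ?_
    rw [add_sub_cancel_left, le_div_iff₀ hδ0, add_mul, div_mul_cancel₀ _ hδ0.ne']
    linarith
  have h2 : ‖LFunction (χ ^ 2) s‖ ≤ B * (q : ℝ) ^ e := by
    refine (FA.Siegel.norm_LFunction_near_one hχ2 (ε := e) he0 he2 (by linarith)).trans ?_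
    rw [hB, ← mul_assoc]
    refine mul_le_mul_of_nonneg_right (mul_le_mul_of_nonneg_right ?_ (by positivity))
      (Real.rpow_nonneg hq0.le _)
    rw [hs, Complex.norm_real, Real.norm_of_nonneg (by linarith)]
    linarith
  have h341 := DirichletCharacter.norm_LFunction_product_ge_one χ hδ0 0
  rw [show (1 : ℂ) + δ = s by rw [hs]; push_cast; ring, Complex.ofReal_zero, mul_zero, add_zero, mul_zero, add_zero,
    norm_mul, norm_mul, norm_pow, norm_pow] at h341
  have hbound : (1 : ℝ) ≤ (2 / δ) ^ 3 * (A * (q : ℝ) ^ (-ε)) ^ 4 * (B * (q : ℝ) ^ e) := by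
    refine le_trans h341 (mul_le_mul (mul_le_mul ?_ ?_ (by positivity) (by positivity)) h2 (norm_nonneg _)
      (by positivity))
    · exact pow_le_pow_left₀ (norm_nonneg _) h0 3
    · exact pow_le_pow_left₀ (norm_nonneg _) hLs 4
  have hval : (2 / δ) ^ 3 * (A * (q : ℝ) ^ (-ε)) ^ 4 * (B * (q : ℝ) ^ e) = C / (q : ℝ) ^ (7 * ε / 20) := by
    have h : (q : ℝ) ^ (7 * ε / 20) * (((q : ℝ) ^ (-ε)) ^ 4 * (q : ℝ) ^ e) = δ ^ 3 := by
      rw [hδ, he, ← Real.rpow_natCast ((q : ℝ) ^ (-ε)) 4, ← Real.rpow_natCast ((q : ℝ) ^ (-(6 * ε / 5))) 3,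
        ← Real.rpow_mul hq0.le, ← Real.rpow_mul hq0.le, ← Real.rpow_add hq0, ← Real.rpow_add hq0]
      congr 1
      push_cast
      ring
    have hne := (Real.rpow_pos_of_pos hq0 (7 * ε / 20)).ne'
    have hδne : δ ^ 3 ≠ 0 := pow_ne_zero _ hδ0.ne'
    rw [eq_div_iff hne, div_pow, div_mul_eq_mul_div, div_mul_eq_mul_div, div_mul_eq_mul_div, div_eq_iff hδne, hC]
    linear_combination (8 * A ^ 4 * B) * h
  rw [hval, le_div_iff₀ (Real.rpow_pos_of_pos hq0 _), one_mul] at hbound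
  linarith

open scoped Classical in
/-- **All characters**: `c(ε) q^(-ε) ≤ ‖L(1, χ)‖`. -/
theorem exists_norm_LFunction_one_ge_eps {ε : ℝ} (hε : 0 < ε) : ∃ c : ℝ, 0 < c ∧
    ∀ (q : ℕ) [NeZero q] (χ : DirichletCharacter ℂ q), χ ≠ 1 → c * (q : ℝ) ^ (-ε) ≤ ‖LFunction χ 1‖ := by
  obtain ⟨C, hC, hsiegel⟩ := FA.Siegel.siegel_theorem ε hε
  obtain ⟨q₀, hq₀⟩ := exists_norm_LFunction_one_ge_rpow (lt_min hε one_pos) (min_le_right ε 1)
  have hloc : ∀ q : ℕ, ∃ d : ℝ, 0 < d ∧ d ≤ 1 ∧ ∀ [NeZero q] (χ : DirichletCharacter ℂ q), χ ≠ 1 →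
      d ≤ ‖LFunction χ 1‖ := fun q => by
    by_cases hq : q = 0
    · subst hq
      exact ⟨1, one_pos, le_rfl, fun {h} => absurd rfl h.ne⟩
    have : NeZero q := ⟨hq⟩
    set f : DirichletCharacter ℂ q → ℝ := fun χ => if χ = 1 then 1 else min 1 ‖LFunction χ 1‖
    have hf : ∀ χ, 0 < f χ ∧ f χ ≤ 1 := fun χ => by
      simp only [f]
      split_ifs with h
      · exact ⟨one_pos, le_rfl⟩
      · exact ⟨lt_min one_pos (norm_pos_iff.mpr (LFunction_ne_zero_of_one_le_re χ (.inl h) (by simp))),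
          min_le_left _ _⟩
    refine ⟨∏ χ, f χ, Finset.prod_pos fun χ _ => (hf χ).1,
      Finset.prod_le_one (fun χ _ => (hf χ).1.le) fun χ _ => (hf χ).2, fun {_} χ hχ => ?_⟩
    rw [← Finset.mul_prod_erase Finset.univ f (Finset.mem_univ χ)]
    refine (mul_le_of_le_one_right (hf χ).1.le
      (Finset.prod_le_one (fun ψ _ => (hf ψ).1.le) fun ψ _ => (hf ψ).2)).trans ?_
    simp only [f, if_neg hχ]
    exact min_le_right _ _
  choose d hd hd1 hdle using hloc
  set D := ∏ q ∈ Finset.range q₀, d q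
  have hD : 0 < D := Finset.prod_pos fun q _ => hd q
  refine ⟨min (min C 1) D, lt_min (lt_min hC one_pos) hD, fun q _ χ hχ => ?_⟩
  have hq1 : (1 : ℝ) ≤ q := by exact_mod_cast NeZero.one_le
  have hpow0 : (0 : ℝ) ≤ (q : ℝ) ^ (-ε) := Real.rpow_nonneg (by linarith) _
  by_cases h2 : χ ^ 2 = 1
  · refine (mul_le_mul_of_nonneg_right ((min_le_left _ _).trans (min_le_left _ _)) hpow0).trans ?_
    exact (hsiegel q χ hχ h2).trans (Complex.re_le_norm _)
  rcases Nat.lt_or_ge q q₀ with hlt | hge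
  · refine (mul_le_mul_of_nonneg_right (min_le_right _ _) hpow0).trans ?_
    refine (mul_le_of_le_one_right hD.le (Real.rpow_le_one_of_one_le_of_nonpos hq1 (by linarith))).trans ?_
    refine le_trans ?_ (hdle q χ hχ)
    rw [show D = d q * ∏ r ∈ (Finset.range q₀).erase q, d r from
      (Finset.mul_prod_erase _ _ (Finset.mem_range.mpr hlt)).symm]
    exact mul_le_of_le_one_right (hd q).le (Finset.prod_le_one (fun r _ => (hd r).le) fun r _ => hd1 r)
  · refine (mul_le_mul_of_nonneg_right ((min_le_left _ _).trans (min_le_right _ _)) hpow0).trans ?_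
    rw [one_mul]
    exact (Real.rpow_le_rpow_of_exponent_le hq1 (neg_le_neg (min_le_left ε 1))).trans (hq₀ q χ hge h2)

/-- **The logarithm**, for the primitive character of any character, in its conductor. -/
theorem exists_abs_log_norm_primitive_le_conductor {ε : ℝ} (hε : 0 < ε) : ∃ C : ℝ, 0 ≤ C ∧
    ∀ (n : ℕ) [NeZero n] (χ : DirichletCharacter ℂ n), χ ≠ 1 →
      |Real.log ‖LFunction χ.primitiveCharacter 1‖| ≤ C + ε * Real.log χ.conductor := by
  obtain ⟨c, hc, hlow⟩ := exists_norm_LFunction_one_ge_eps hε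
  refine ⟨|Real.log c| + Real.log (1 + 1 / ε), add_nonneg (abs_nonneg _) (Real.log_nonneg (by
    have : 0 < 1 / ε := by positivity
    linarith)), fun n _ χ hχ => ?_⟩
  have : NeZero χ.conductor := ⟨fun e => NeZero.ne n (Nat.eq_zero_of_zero_dvd (e ▸ χ.conductor_dvd_level))⟩
  have hne := FA.AbelianZeta.primitive_ne_one hχ
  set q : ℝ := (χ.conductor : ℝ)
  have hq1 : 1 ≤ q := by simp only [q]; exact_mod_cast NeZero.one_le
  have hn0 : 0 < q := by linarith
  set x := ‖LFunction χ.primitiveCharacter 1‖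
  have hε0 : 0 < 1 / ε := by positivity
  have hlo : c * q ^ (-ε) ≤ x := hlow χ.conductor χ.primitiveCharacter hne
  have hx0 : 0 < x := lt_of_lt_of_le (mul_pos hc (Real.rpow_pos_of_pos hn0 _)) hlo
  have hhi : x ≤ (1 + 1 / ε) * q ^ ε := by
    refine (FA.Siegel.norm_LFunction_one_le hne).trans ?_
    have h1 : Real.log q ≤ q ^ ε / ε := Real.log_le_rpow_div hn0.le hε
    have h2 : 1 ≤ q ^ ε := Real.one_le_rpow (by linarith) hε.le
    rw [add_mul, one_mul, div_mul_eq_mul_div, one_mul]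
    linarith
  have h1 := Real.log_le_log (mul_pos hc (Real.rpow_pos_of_pos hn0 _)) hlo
  have h2 := Real.log_le_log hx0 hhi
  rw [Real.log_mul hc.ne' (Real.rpow_pos_of_pos hn0 _).ne', Real.log_rpow hn0] at h1
  rw [Real.log_mul (by linarith) (Real.rpow_pos_of_pos hn0 _).ne', Real.log_rpow hn0] at h2
  have h3 : 0 ≤ Real.log (1 + 1 / ε) := Real.log_nonneg (by linarith)
  have h4 := abs_le.mp (le_refl |Real.log c|)
  rw [abs_le]
  constructor <;> linarith

/-- **The logarithm**, for the primitive character of any character. -/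
theorem exists_abs_log_norm_primitive_le {ε : ℝ} (hε : 0 < ε) : ∃ C : ℝ, 0 ≤ C ∧
    ∀ (n : ℕ) [NeZero n] (χ : DirichletCharacter ℂ n), χ ≠ 1 →
      |Real.log ‖LFunction χ.primitiveCharacter 1‖| ≤ C + ε * Real.log n := by
  obtain ⟨C, hC, h⟩ := exists_abs_log_norm_primitive_le_conductor hε
  refine ⟨C, hC, fun n _ χ hχ => (h n χ hχ).trans (add_le_add le_rfl ?_)⟩
  exact mul_le_mul_of_nonneg_left (Real.log_le_log (Nat.cast_pos.mpr (Nat.pos_of_ne_zero χ.conductor_ne_zero))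
    (Nat.cast_le.mpr (Nat.le_of_dvd (NeZero.pos n) χ.conductor_dvd_level))) hε.le

end FA.CycloGrowth
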