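import Fermat.Agent.Tau.SiegelZeroFree
import Mathlib.NumberTheory.Harmonic.ZetaAsymp

/-!
# A lower bound for `L(1, χ)` of a complex character

By the `3-4-1` inequality at `1 + q^(-2/5)` and the bound on `L'` near `1`: `‖L(1, χ)‖ ≥ q^(-1/3)` for all
large moduli `q`, with no exception as `χ²` is nontrivial.
-/

set_option autoImplicit false

noncomputable section

namespace FA.CycloGrowth

open Filter Topology DirichletCharacter Metric

/-- `ζ(σ) ≤ 1 + 1/(σ - 1)`. -/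
theorem tsum_one_div_le {σ : ℝ} (hσ : 1 < σ) : ∑' n : ℕ, 1 / (n + 1 : ℝ) ^ σ ≤ 1 + 1 / (σ - 1) := by
  have h := ZetaAsymptotics.zeta_limit_aux1 hσ
  have h2 : 0 ≤ σ * ZetaAsymptotics.termTSum σ :=
    mul_nonneg (by linarith) (tsum_nonneg fun n => ZetaAsymptotics.term_nonneg _ _)
  linarith

/-- The trivial bound in `re s > 1`. -/
theorem norm_LFunction_ofReal_le {q : ℕ} [NeZero q] (χ : DirichletCharacter ℂ q) {σ : ℝ} (hσ : 1 < σ) :
    ‖LFunction χ σ‖ ≤ 1 + 1 / (σ - 1) := by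
  have hre : 1 < (σ : ℂ).re := by simpa using hσ
  have hsum := (LSeriesSummable_of_one_lt_re χ hre).norm
  rw [LFunction_eq_LSeries χ hre]
  refine (norm_tsum_le_tsum_norm hsum).trans ?_
  rw [hsum.tsum_eq_zero_add, LSeries.term_zero, norm_zero, zero_add]
  refine (Summable.tsum_le_tsum (fun n => ?_) ((summable_nat_add_iff 1).mpr hsum) ?_).trans (tsum_one_div_le hσ)
  · rw [LSeries.term_of_ne_zero n.succ_ne_zero, norm_div, Complex.norm_natCast_cpow_of_pos n.succ_pos,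
      Complex.ofReal_re]
    simp only [Nat.succ_eq_add_one, Nat.cast_add, Nat.cast_one]
    exact div_le_div_of_nonneg_right (χ.norm_le_one _) (Real.rpow_nonneg (by positivity) _)
  · exact_mod_cast (summable_nat_add_iff 1).mpr (Real.summable_one_div_nat_rpow.mpr hσ)

/-- **The lower bound**: `‖L(1, χ)‖ ≥ q^(-1/3)` for complex `χ` and large `q`. -/
theorem exists_norm_LFunction_one_ge : ∃ q₀ : ℕ, ∀ (q : ℕ) [NeZero q] (χ : DirichletCharacter ℂ q),
    q₀ ≤ q → χ ^ 2 ≠ 1 → (q : ℝ) ^ (-(1 / 3) : ℝ) ≤ ‖LFunction χ 1‖ := by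
  set C : ℝ := 8 * 40801 ^ 4 * 408
  obtain ⟨q₀, hq₀⟩ := eventually_atTop.mp
    (((tendsto_rpow_atTop (y := 37 / 300) (by norm_num)).comp tendsto_natCast_atTop_atTop).eventually_gt_atTop C)
  refine ⟨max q₀ (200 ^ 5), fun q _ χ hq hχ2 => ?_⟩
  by_contra! hlt
  have hχ : χ ≠ 1 := fun h => hχ2 (by rw [h, one_pow])
  have hC : C < (q : ℝ) ^ (37 / 300 : ℝ) := hq₀ q ((le_max_left _ _).trans hq)
  have hq200 : (200 : ℝ) ^ (5 : ℕ) ≤ q := by exact_mod_cast (le_max_right _ _).trans hq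
  have hq1 : (1 : ℝ) ≤ q := le_trans (one_le_pow₀ (by norm_num)) hq200
  have hq0 : (0 : ℝ) < q := by linarith
  set δ : ℝ := (q : ℝ) ^ (-(2 / 5) : ℝ) with hδ
  have hδ0 : 0 < δ := Real.rpow_pos_of_pos hq0 _
  have hδs : δ ≤ 1 / 40000 := by
    calc δ ≤ ((200 : ℝ) ^ (5 : ℕ)) ^ (-(2 / 5) : ℝ) :=
          Real.rpow_le_rpow_of_nonpos (by positivity) hq200 (by norm_num)
      _ = 1 / 40000 := by
          rw [← Real.rpow_natCast, ← Real.rpow_mul (by norm_num), show (((5 : ℕ) : ℝ) * -(2 / 5)) = ((-2 : ℤ) : ℝ) by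
            norm_num, Real.rpow_intCast]
          norm_num
  set ε : ℝ := 1 / 100 with hε
  set s : ℂ := ((1 + δ : ℝ) : ℂ) with hs
  -- the derivative
  have hnorm : ‖s - 1‖ = δ := by
    rw [hs, Complex.ofReal_add, Complex.ofReal_one, add_sub_cancel_left, Complex.norm_real, Real.norm_of_nonneg hδ0.le]
  have hball : s ∈ closedBall (1 : ℂ) (ε / 2) := by rw [mem_closedBall, dist_eq_norm, hnorm, hε]; linarith
  have hmv := (convex_closedBall (1 : ℂ) (ε / 2)).norm_image_sub_le_of_norm_deriv_le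
    (f := LFunction χ) (fun z _ => (differentiable_LFunction hχ) z)
    (fun z hz => FA.Siegel.norm_deriv_LFunction_le hχ (ε := ε) (by norm_num) (by norm_num) hz)
    (mem_closedBall_self (by norm_num)) hball
  rw [hnorm] at hmv
  have hexp : (q : ℝ) ^ ε * δ ≤ (q : ℝ) ^ (-(1 / 3) : ℝ) := by
    rw [hδ, ← Real.rpow_add hq0]
    exact Real.rpow_le_rpow_of_exponent_le hq1 (by norm_num)
  have hLs : ‖LFunction χ s‖ ≤ 40801 * (q : ℝ) ^ (-(1 / 3) : ℝ) := by
    have h1 := norm_le_norm_add_norm_sub' (LFunction χ s) (LFunction χ 1)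
    rw [show 4 * (1 / ε + 2) / ε * (q : ℝ) ^ ε * δ = 40800 * ((q : ℝ) ^ ε * δ) by rw [hε]; norm_num; ring] at hmv
    linarith
  -- the two other factors
  have hsre : 1 < s.re := by rw [hs, Complex.ofReal_re]; linarith
  have h0 : ‖LFunctionTrivChar q s‖ ≤ 2 / δ := by
    refine (norm_LFunction_ofReal_le (1 : DirichletCharacter ℂ q) (by linarith)).trans ?_
    rw [add_sub_cancel_left, le_div_iff₀ hδ0, add_mul, div_mul_cancel₀ _ hδ0.ne']
    linarith
  have h2 : ‖LFunction (χ ^ 2) s‖ ≤ 408 * (q : ℝ) ^ ε := by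
    refine (FA.Siegel.norm_LFunction_near_one hχ2 (ε := ε) (by norm_num) (by norm_num)
      (by rw [hε]; linarith)).trans ?_
    rw [hs, Complex.norm_real, Real.norm_of_nonneg (by linarith), show (1 / ε + 2) = 102 by rw [hε]; norm_num]
    nlinarith [Real.rpow_pos_of_pos hq0 ε]
  have h341 := DirichletCharacter.norm_LFunction_product_ge_one χ hδ0 0
  rw [show (1 : ℂ) + δ = s by rw [hs]; push_cast; ring, Complex.ofReal_zero, mul_zero, add_zero, mul_zero, add_zero,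
    norm_mul, norm_mul, norm_pow, norm_pow] at h341
  have hbound : (1 : ℝ) ≤ (2 / δ) ^ 3 * (40801 * (q : ℝ) ^ (-(1 / 3) : ℝ)) ^ 4 * (408 * (q : ℝ) ^ ε) := by
    refine le_trans h341 (mul_le_mul (mul_le_mul ?_ ?_ (by positivity) (by positivity)) h2 (norm_nonneg _)
      (by positivity))
    · exact pow_le_pow_left₀ (norm_nonneg _) h0 3
    · exact pow_le_pow_left₀ (norm_nonneg _) hLs 4
  have hval : (2 / δ) ^ 3 * (40801 * (q : ℝ) ^ (-(1 / 3) : ℝ)) ^ 4 * (408 * (q : ℝ) ^ ε) =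
      C / (q : ℝ) ^ (37 / 300 : ℝ) := by
    have e : (q : ℝ) ^ (37 / 300 : ℝ) * (((q : ℝ) ^ (-(1 / 3) : ℝ)) ^ 4 * (q : ℝ) ^ ε) = δ ^ 3 := by
      rw [hδ, hε, ← Real.rpow_natCast, ← Real.rpow_natCast, ← Real.rpow_mul hq0.le, ← Real.rpow_mul hq0.le,
        ← Real.rpow_add hq0, ← Real.rpow_add hq0]
      norm_num
    have hne := (Real.rpow_pos_of_pos hq0 (37 / 300 : ℝ)).ne'
    field_simp [C]
    linear_combination (8 * 40801 ^ 4 * 408 : ℝ) * e
  rw [hval, le_div_iff₀ (Real.rpow_pos_of_pos hq0 _), one_mul] at hbound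
  linarith

end FA.CycloGrowth
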