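import Fermat.Agent.CycloGrowth.LValue
import Fermat.Agent.CycloIndex.Maillet

/-!
# Maillet's determinant grows faster than `p^((p-3)/2)`

Each odd character with `χ² ≠ 1` gives a factor `‖∑ a χ(a)‖ ≥ 4 p` for large `p`, the possible quadratic one a
nonzero rational integer.
-/

set_option autoImplicit false

noncomputable section

open Finset NumberField
open scoped Classical Real

namespace FA.CycloGrowth

variable {p : ℕ} [Fact p.Prime]

/-- `∑ a χ(a)`, over the least residues. -/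
def residueSum (χ : DirichletCharacter ℂ p) : ℂ := ∑ a : ZMod p, χ a * (a.val : ℂ)

theorem inv_odd {χ : DirichletCharacter ℂ p} (h : χ.Odd) : (χ⁻¹).Odd := by
  show χ⁻¹ (-1) = -1
  rw [MulChar.inv_apply', inv_neg_one]
  exact h

theorem ne_one_of_odd {χ : DirichletCharacter ℂ p} (h : χ.Odd) : χ ≠ 1 := fun e => by
  have h' : χ (-1) = -1 := h
  rw [e, MulChar.one_apply isUnit_one.neg] at h'
  norm_num at h'

theorem norm_sq_residueSum {χ : DirichletCharacter ℂ p} (hχ : χ.Odd) :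
    π ^ 2 * ‖residueSum χ‖ ^ 2 = (p : ℝ) ^ 3 * ‖DirichletCharacter.LFunction χ⁻¹ 1‖ ^ 2 := by
  have h := FA.Regular.norm_sq_LFunction_one (inv_odd hχ)
  rw [inv_inv] at h
  have hp : (p : ℝ) ≠ 0 := by exact_mod_cast (Fact.out : p.Prime).ne_zero
  rw [h, residueSum]
  field_simp

/-- A real odd character has a nonzero integral sum. -/
theorem one_le_norm_residueSum {χ : DirichletCharacter ℂ p} (hχ : χ.Odd) (h2 : χ ^ 2 = 1) :
    1 ≤ ‖residueSum χ‖ := by
  have : NeZero p := ⟨(Fact.out : p.Prime).ne_zero⟩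
  have hint : ∀ a : ZMod p, ∃ e : ℤ, χ a = (e : ℂ) := fun a => by
    rcases MulChar.isQuadratic_iff_sq_eq_one.2 h2 a with h | h | h
    · exact ⟨0, by simp [h]⟩
    · exact ⟨1, by simp [h]⟩
    · exact ⟨-1, by simp [h]⟩
  choose e he using hint
  have hS : residueSum χ = ((∑ a : ZMod p, e a * (a.val : ℤ) : ℤ) : ℂ) := by
    rw [residueSum, Int.cast_sum]
    exact sum_congr rfl fun a _ => by rw [he, Int.cast_mul, Int.cast_natCast]
  have hne : residueSum χ ≠ 0 := fun h0 => by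
    have h := norm_sq_residueSum hχ
    rw [h0, norm_zero, zero_pow two_ne_zero, mul_zero] at h
    refine DirichletCharacter.LFunction_ne_zero_of_one_le_re χ⁻¹ (Or.inl (ne_one_of_odd (inv_odd hχ)))
      (le_of_eq Complex.one_re.symm) ?_
    simpa [(Fact.out : p.Prime).ne_zero] using h.symm
  rw [hS] at hne ⊢
  rw [Complex.norm_intCast]
  exact_mod_cast Int.one_le_abs (Int.cast_ne_zero.mp hne)

/-- There is at most one real character other than `1`. -/
theorem sq_eq_one_unique {χ ψ : DirichletCharacter ℂ p} (hχ : χ ^ 2 = 1) (hψ : ψ ^ 2 = 1) (h1 : χ ≠ 1) (h2 : ψ ≠ 1) :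
    χ = ψ := by
  obtain ⟨g, hg⟩ := IsCyclic.exists_generator (α := (ZMod p)ˣ)
  have hval : ∀ θ : DirichletCharacter ℂ p, θ ^ 2 = 1 → θ ≠ 1 → θ (g : ZMod p) = -1 := fun θ h2 hne => by
    rcases MulChar.isQuadratic_iff_sq_eq_one.2 h2 (g : ZMod p) with h | h | h
    · exact absurd h ((g.isUnit.map θ.toMonoidHom).ne_zero)
    · exact absurd ((MulChar.eq_iff hg θ 1).mpr (by rw [h, MulChar.one_apply g.isUnit])) hne
    · exact h
  exact (MulChar.eq_iff hg χ ψ).mpr (by rw [hval χ hχ h1, hval ψ hψ h2])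

/-- **Maillet's determinant is large**. -/
theorem exists_mailletDet_ge : ∃ P : ℕ, ∀ (p m : ℕ) [Fact p.Prime], P ≤ p → p = 2 * m + 1 →
    (2 * p) ^ (m - 1) ≤ ((FA.CycloIndex.mailletMatrix p m).det).natAbs := by
  obtain ⟨q₀, hq₀⟩ := exists_norm_LFunction_one_ge
  refine ⟨max q₀ (256 ^ 3), fun p m _ hP hm => ?_⟩
  have hp : p.Prime := Fact.out
  have : NeZero p := ⟨hp.ne_zero⟩
  have hq : q₀ ≤ p := (le_max_left _ _).trans hP
  have hbig : (256 : ℝ) ^ (3 : ℕ) ≤ p := by exact_mod_cast (le_max_right _ _).trans hP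
  have hp0 : (0 : ℝ) < p := Nat.cast_pos.mpr hp.pos
  have hm2 : 2 ≤ m := by
    have : (5 : ℝ) ≤ p := le_trans (by norm_num) hbig
    have : 5 ≤ p := by exact_mod_cast this
    omega
  have hB1 : (1 : ℝ) ≤ 4 * p := by
    have : (1 : ℝ) ≤ p := le_trans (by norm_num) hbig
    linarith
  have hcomplex : ∀ t : FA.CycloIndex.OddChar p, t.1 ^ 2 ≠ 1 → 4 * (p : ℝ) ≤ ‖residueSum t.1‖ := fun t ht => by
    have hL := hq₀ p t.1⁻¹ hq (by rw [inv_pow]; exact inv_ne_one.mpr ht)
    have h := norm_sq_residueSum t.2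
    have h3 : (256 : ℝ) ≤ (p : ℝ) ^ (1 / 3 : ℝ) := by
      calc (256 : ℝ) = ((256 : ℝ) ^ (3 : ℕ)) ^ (1 / 3 : ℝ) := by
            rw [← Real.rpow_natCast, ← Real.rpow_mul (by norm_num)]; norm_num
        _ ≤ _ := Real.rpow_le_rpow (by norm_num) hbig (by norm_num)
    have hL2 : ((p : ℝ) ^ (-(1 / 3) : ℝ)) ^ 2 ≤ ‖DirichletCharacter.LFunction t.1⁻¹ 1‖ ^ 2 :=
      pow_le_pow_left₀ (Real.rpow_nonneg hp0.le _) hL 2
    have he : (p : ℝ) ^ 3 * ((p : ℝ) ^ (-(1 / 3) : ℝ)) ^ 2 = (p : ℝ) ^ 2 * (p : ℝ) ^ (1 / 3 : ℝ) := by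
      rw [← Real.rpow_natCast, ← Real.rpow_natCast, ← Real.rpow_natCast, ← Real.rpow_mul hp0.le,
        ← Real.rpow_add hp0, ← Real.rpow_add hp0]
      norm_num
    have hlow : (p : ℝ) ^ 2 * 256 ≤ π ^ 2 * ‖residueSum t.1‖ ^ 2 := by
      rw [h]
      refine le_trans (le_trans ?_ he.ge) (mul_le_mul_of_nonneg_left hL2 (by positivity))
      exact mul_le_mul_of_nonneg_left h3 (by positivity)
    have hpi : π ^ 2 ≤ 16 := by nlinarith [Real.pi_pos, Real.pi_lt_four]
    nlinarith [norm_nonneg (residueSum t.1)]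
  set R := (univ : Finset (FA.CycloIndex.OddChar p)).filter fun t => t.1 ^ 2 = 1 with hR
  have hR1 : R.card ≤ 1 := card_le_one.mpr fun a ha b hb => Subtype.ext (sq_eq_one_unique (mem_filter.mp ha).2
    (mem_filter.mp hb).2 (ne_one_of_odd a.2) (ne_one_of_odd b.2))
  have hcard : Fintype.card (FA.CycloIndex.OddChar p) = m := by
    have := FA.CycloIndex.two_mul_card_oddChar p (show p ≠ 2 by omega)
    omega
  have hprod : (4 * (p : ℝ)) ^ (m - 1) ≤ ∏ t : FA.CycloIndex.OddChar p, ‖residueSum t.1‖ := by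
    have hsplit := card_filter_add_card_filter_not (s := (univ : Finset (FA.CycloIndex.OddChar p)))
      (fun t => t.1 ^ 2 = 1)
    rw [card_univ, hcard, ← hR] at hsplit
    calc (4 * (p : ℝ)) ^ (m - 1) ≤
        (4 * (p : ℝ)) ^ (univ.filter fun t : FA.CycloIndex.OddChar p => ¬ t.1 ^ 2 = 1).card :=
          pow_le_pow_right₀ hB1 (by omega)
      _ = ∏ t : FA.CycloIndex.OddChar p, (if t.1 ^ 2 = 1 then 1 else 4 * (p : ℝ)) := by
          rw [prod_ite, prod_const_one, one_mul, prod_const]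
      _ ≤ _ := Finset.prod_le_prod (fun t _ => by split_ifs <;> positivity) fun t _ => by
          split_ifs with h
          · exact one_le_norm_residueSum t.2 h
          · exact hcomplex t h
  have hdet := FA.CycloIndex.abs_det_oddMatrix (p := p) hm
  have hdet' := FA.CycloIndex.abs_det_mailletMatrix (p := p) hm hm2
  have hfin : ((2 * p : ℕ) : ℝ) ^ (m - 1) ≤ (((FA.CycloIndex.mailletMatrix p m).det).natAbs : ℝ) := by
    refine le_of_mul_le_mul_right ?_ (show (0 : ℝ) < 2 ^ (m - 1) by positivity)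
    have e : (((FA.CycloIndex.mailletMatrix p m).det).natAbs : ℝ) * 2 ^ (m - 1) =
        |(FA.CycloIndex.oddMatrix p m).det| * 2 ^ m := by
      rw [hdet', show m = (m - 1) + 1 by omega, pow_succ, Nat.add_sub_cancel]
      ring
    rw [e, hdet, ← mul_pow, show ((2 * p : ℕ) : ℝ) * 2 = 4 * (p : ℝ) by push_cast; ring]
    exact hprod
  exact_mod_cast hfin

/-- **The relative class number grows exponentially**. -/
theorem exists_classNumber_ge : ∃ P : ℕ, ∀ (p : ℕ) [Fact p.Prime] (K : Type*) [Field K] [NumberField K]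
    [IsCyclotomicExtension {p} ℚ K], P ≤ p →
      2 ^ ((p - 3) / 2) * classNumber (maximalRealSubfield K) ≤ classNumber K := by
  obtain ⟨P, hP⟩ := exists_mailletDet_ge
  refine ⟨max P 5, fun p _ K _ _ _ hp => ?_⟩
  have hpp : p.Prime := Fact.out
  have h5 : 5 ≤ p := (le_max_right _ _).trans hp
  have hodd := hpp.eq_two_or_odd
  obtain ⟨m, hm⟩ : ∃ m, p = 2 * m + 1 := ⟨(p - 1) / 2, by omega⟩
  have h := FA.CycloIndex.maillet_classNumber (p := p) K hm (by omega)
  have hd := hP p m ((le_max_left _ _).trans hp) hm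
  refine Nat.le_of_mul_le_mul_left ?_ (pow_pos hpp.pos (m - 1))
  rw [← h, show (p - 3) / 2 = m - 1 by omega, ← mul_assoc, ← mul_pow, mul_comm p 2]
  exact Nat.mul_le_mul_right _ hd

end FA.CycloGrowth
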