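import Fermat.Agent.CycloIndex.Main
import Fermat.Agent.CycloGrowth.Main
import Mathlib.RingTheory.RootsOfUnity.Lemmas

/-!
# `L(1, χ)` for even characters modulo `p`; a lower bound for the real ones

`√p ‖L(1, χ)‖ = ‖∑ χ⁻¹(d) log |1 - ζ^d|‖`.  For a real `χ` the two partial products have product `p²` and, squared
difference, a nonzero integer: so `|L(1, χ)| ≥ p^(-2)`.
-/

set_option autoImplicit false

noncomputable section

open Finset NumberField FA.Ext FA.CycloIndex
open scoped Classical Real ComplexConjugate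

namespace FA.CycloGrowth

variable {p : ℕ} [Fact p.Prime]

theorem norm_LFunction_even {χ : DirichletCharacter ℂ p} (hev : χ.Even) (hne : χ ≠ 1) :
    Real.sqrt p * ‖DirichletCharacter.LFunction χ 1‖ =
      ‖∑ d : (ZMod p)ˣ, χ⁻¹ (d : ZMod p) * (logDist p d : ℂ)‖ := by
  have hp : p.Prime := Fact.out
  have : NeZero p := ⟨hp.ne_zero⟩
  have hlog : ∑ a : ZMod p, χ⁻¹ a * Complex.log (1 - ZMod.stdAddChar (-a)) =
      ∑ d : (ZMod p)ˣ, χ⁻¹ (d : ZMod p) * (logDist p d : ℂ) := by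
    have hU : ∑ d : (ZMod p)ˣ, χ⁻¹ (d : ZMod p) * (logDist p d : ℂ) =
        ∑ a : ZMod p, χ⁻¹ a * ((Real.log 2 : ℂ) + (FA.OrderTheta.sineLog p a : ℂ)) := by
      rw [← sum_units_eq (fun a : ZMod p => χ⁻¹ a * ((Real.log 2 : ℂ) + (FA.OrderTheta.sineLog p a : ℂ)))
        (by rw [MulChar.map_zero, zero_mul])]
      exact Finset.sum_congr rfl fun d _ => by rw [logDist, Complex.ofReal_add]
    rw [hU, ← sub_eq_zero, ← Finset.sum_sub_distrib]
    refine Eq.trans (Finset.sum_congr rfl fun a _ => ?_)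
      (FA.OrderTheta.sum_odd_eq_zero (f := fun a => -((Real.pi : ℂ) * Complex.I) *
        (χ⁻¹ a * (FA.OrderTheta.sawTooth p a : ℂ))) fun a => by
          rw [FA.OrderTheta.sawTooth_neg, (even_inv hev).eval_neg]; push_cast; ring)
    by_cases ha : a = 0
    · rw [ha, MulChar.map_zero]; ring
    · rw [FA.OrderTheta.log_one_sub_stdAddChar (neg_ne_zero.mpr ha), FA.OrderTheta.sineLog_neg,
        FA.OrderTheta.sawTooth_neg]
      push_cast
      ring
  rw [FA.Summary.lFunction_one_closedForm hp.one_lt (FA.OrderTheta.isPrimitive_of_ne_one p hne), hlog]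
  simp only [norm_mul, norm_neg, norm_div, Complex.norm_natCast]
  have hs : ‖gaussSum χ ZMod.stdAddChar‖ = Real.sqrt p := by
    rw [← Real.sqrt_sq (norm_nonneg (gaussSum χ ZMod.stdAddChar)), FA.Regular.norm_sq_gaussSum hne]
  have hps : Real.sqrt p * Real.sqrt p = p := Real.mul_self_sqrt (Nat.cast_nonneg p)
  have hp0 : (p : ℝ) ≠ 0 := by exact_mod_cast hp.ne_zero
  rw [hs]
  field_simp
  linear_combination ‖∑ d : (ZMod p)ˣ, χ⁻¹ (d : ZMod p) * (logDist p d : ℂ)‖ * hps

variable (p) (K : Type*) [Field K] [NumberField K] [IsCyclotomicExtension {p} ℚ K]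

/-- `(ζ^d - 1)(ζ^(-d) - 1)`. -/
def sineElt (d : (ZMod p)ˣ) : 𝓞 K :=
  (zetaInt p K ^ (d : ZMod p).val - 1) * (zetaInt p K ^ ((-d : (ZMod p)ˣ) : ZMod p).val - 1)

theorem sigma_sineElt (c d : (ZMod p)ˣ) : sigma p K c (sineElt p K d) = sineElt p K (c * d) := by
  have : NeZero p := ⟨(Fact.out : p.Prime).ne_zero⟩
  have h : ∀ e : (ZMod p)ˣ, sigma p K c (zetaInt p K ^ (e : ZMod p).val) =
      zetaInt p K ^ ((c * e : (ZMod p)ˣ) : ZMod p).val := fun e => by
    rw [map_pow, sigma_zetaInt, ← pow_mul, Units.val_mul, ZMod.val_mul,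
      ← pow_eq_pow_mod _ (zetaInt_spec p K).pow_eq_one]
  rw [sineElt, sineElt, map_mul, map_sub, map_sub, map_one, h, h, mul_neg]

theorem stdEmb_sineElt (d : (ZMod p)ˣ) :
    stdEmb p K ((sineElt p K d : 𝓞 K) : K) = ((Real.exp (logDist p d) ^ 2 : ℝ) : ℂ) := by
  have : NeZero p := ⟨(Fact.out : p.Prime).ne_zero⟩
  set x : ℂ := stdEmb p K ((zetaInt p K ^ (d : ZMod p).val - 1 : 𝓞 K) : K) with hx
  have hval : ∀ e : (ZMod p)ˣ, stdEmb p K ((zetaInt p K ^ (e : ZMod p).val - 1 : 𝓞 K) : K) =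
      ZMod.stdAddChar (e : ZMod p) - 1 := fun e => by
    rw [RingOfIntegers.coe_eq_algebraMap, map_sub, map_one, map_sub, map_one, ← RingOfIntegers.coe_eq_algebraMap,
      stdEmb_zeta_pow, ZMod.natCast_zmod_val]
  have hconj : stdEmb p K ((zetaInt p K ^ ((-d : (ZMod p)ˣ) : ZMod p).val - 1 : 𝓞 K) : K) = conj x := by
    rw [hx, hval, hval, map_sub, map_one, Units.val_neg, AddChar.map_neg_eq_conj]
  have hx0 : x ≠ 0 := by
    rw [hx, hval, sub_ne_zero]
    intro e
    refine d.ne_zero (ZMod.injective_stdAddChar ?_)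
    rw [e, AddChar.map_zero_eq_one]
  rw [sineElt, RingOfIntegers.coe_eq_algebraMap, map_mul, map_mul, ← RingOfIntegers.coe_eq_algebraMap,
    ← RingOfIntegers.coe_eq_algebraMap, hconj, ← hx, Complex.mul_conj', ← log_norm_zeta_pow_sub_one (K := K)
      (ZMod.natCast_zmod_val (d : ZMod p)), ← hx, Real.exp_log (norm_pos_iff.mpr hx0)]
  push_cast
  rfl

/-- The sum of all `log |1 - ζ^d|` is `log p`. -/
theorem sum_logDist : ∑ d : (ZMod p)ˣ, logDist p d = Real.log p := by
  have hp : p.Prime := Fact.out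
  have : NeZero p := ⟨hp.ne_zero⟩
  obtain ⟨n, hn⟩ : ∃ n, p = n + 1 := ⟨p - 1, by have := hp.one_lt; omega⟩
  let L := CyclotomicField p ℚ
  have : IsCyclotomicExtension {p} ℚ L := CyclotomicField.isCyclotomicExtension p ℚ
  have hz : IsPrimitiveRoot (zetaInt p L) (n + 1) := hn ▸ zetaInt_spec p L
  have h := congrArg (fun t : 𝓞 L => ‖stdEmb p L (t : L)‖) hz.prod_one_sub_pow_eq_order
  simp only [map_prod, norm_prod, map_add, map_natCast, map_one] at h
  simp only [← RingOfIntegers.coe_eq_algebraMap] at h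
  have hr : ∏ k ∈ range n, ‖stdEmb p L ((1 - zetaInt p L ^ (k + 1) : 𝓞 L) : L)‖ =
      ∏ d : (ZMod p)ˣ, Real.exp (logDist p d) := by
    refine Finset.prod_bij' (fun k hk => Units.mk0 ((k + 1 : ℕ) : ZMod p) ?_)
      (fun d _ => (d : ZMod p).val - 1) (fun _ _ => mem_univ _) ?_ ?_ ?_ ?_
    · rw [Ne, ZMod.natCast_eq_zero_iff]
      exact fun hd => absurd (Nat.le_of_dvd k.succ_pos hd) (by rw [mem_range] at hk; omega)
    · intro d _
      have h1 := ZMod.val_lt (d : ZMod p)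
      have h2 : (d : ZMod p).val ≠ 0 := (ZMod.val_ne_zero _).mpr d.ne_zero
      rw [mem_range]
      omega
    · intro k hk
      rw [mem_range] at hk
      simp only [Units.val_mk0, ZMod.val_natCast_of_lt (show k + 1 < p by omega), Nat.add_sub_cancel]
    · intro d _
      refine Units.ext ?_
      have h2 : (d : ZMod p).val ≠ 0 := (ZMod.val_ne_zero _).mpr d.ne_zero
      rw [Units.val_mk0, show (d : ZMod p).val - 1 + 1 = (d : ZMod p).val by omega, ZMod.natCast_zmod_val]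
    · intro k hk
      have hne : ((k + 1 : ℕ) : ZMod p) ≠ 0 := by
        rw [mem_range] at hk
        rw [Ne, ZMod.natCast_eq_zero_iff]
        exact fun hd => absurd (Nat.le_of_dvd k.succ_pos hd) (by omega)
      rw [← log_norm_zeta_pow_sub_one (K := L) (j := k + 1) (d := Units.mk0 _ hne) rfl, Real.exp_log]
      · rw [← neg_sub, RingOfIntegers.coe_eq_algebraMap, map_neg, map_neg, norm_neg]
      · refine norm_pos_iff.mpr ((map_ne_zero _).mpr (RingOfIntegers.coe_ne_zero_iff.mpr (sub_ne_zero.mpr fun e => ?_)))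
        rw [mem_range] at hk
        exact absurd (Nat.le_of_dvd k.succ_pos ((hz.pow_eq_one_iff_dvd _).mp e)) (by omega)
  rw [hr, show ‖(n : ℂ) + 1‖ = p by rw [← Nat.cast_one, ← Nat.cast_add, Complex.norm_natCast, ← hn],
    ← Real.exp_sum] at h
  rw [← Real.log_exp (∑ d : (ZMod p)ˣ, logDist p d), h]

variable {p}

/-- The partial product over a fibre of `χ`. -/
def fibreElt (χ : DirichletCharacter ℂ p) (t : ℂ) : 𝓞 K :=
  ∏ d ∈ univ.filter fun d : (ZMod p)ˣ => χ (d : ZMod p) = t, sineElt p K d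

theorem sigma_fibreElt (χ : DirichletCharacter ℂ p) (c : (ZMod p)ˣ) (t : ℂ) :
    sigma p K c (fibreElt K χ t) = fibreElt K χ (χ (c : ZMod p) * t) := by
  rw [fibreElt, fibreElt, map_prod]
  refine Finset.prod_bij' (fun d _ => c * d) (fun d _ => c⁻¹ * d) (fun d hd => ?_) (fun d hd => ?_)
    (fun d _ => inv_mul_cancel_left c d) (fun d _ => mul_inv_cancel_left c d) fun d _ => sigma_sineElt p K c d
  · rw [mem_filter] at hd ⊢
    exact ⟨mem_univ _, by rw [Units.val_mul, map_mul, hd.2]⟩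
  · rw [mem_filter] at hd ⊢
    refine ⟨mem_univ _, mul_left_cancel₀ (c.isUnit.map χ.toMonoidHom).ne_zero ?_⟩
    show χ (c : ZMod p) * _ = χ (c : ZMod p) * t
    rw [← map_mul, ← Units.val_mul, mul_inv_cancel_left, hd.2]

variable (p) in
/-- **A real even character**: `‖L(1, χ)‖ ≥ p^(-2)`. -/
theorem inv_sq_le_norm_LFunction_even {χ : DirichletCharacter ℂ p} (hev : χ.Even) (hne : χ ≠ 1) (h2 : χ ^ 2 = 1)
    (h16 : 16 ≤ p) : 1 / (p : ℝ) ^ 2 ≤ ‖DirichletCharacter.LFunction χ 1‖ := by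
  have hp : p.Prime := Fact.out
  have : NeZero p := ⟨hp.ne_zero⟩
  let K := CyclotomicField p ℚ
  have : IsCyclotomicExtension {p} ℚ K := CyclotomicField.isCyclotomicExtension p ℚ
  have : IsGalois ℚ K := IsCyclotomicExtension.isGalois {p} ℚ K
  have hinv : χ⁻¹ = χ := inv_eq_of_mul_eq_one_right (by rw [← sq]; exact h2)
  have hpm : ∀ d : (ZMod p)ˣ, χ (d : ZMod p) = 1 ∨ χ (d : ZMod p) = -1 := fun d =>
    (MulChar.isQuadratic_iff_sq_eq_one.2 h2 (d : ZMod p)).resolve_left (d.isUnit.map χ.toMonoidHom).ne_zero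
  set A : ℂ → ℝ := fun t => ∑ d ∈ univ.filter fun d : (ZMod p)ˣ => χ (d : ZMod p) = t, logDist p d with hA
  have hφ : ∀ t, stdEmb p K ((fibreElt K χ t : 𝓞 K) : K) = ((Real.exp (2 * A t) : ℝ) : ℂ) := fun t => by
    simp only [fibreElt, hA, map_prod]
    simp only [← RingOfIntegers.coe_eq_algebraMap, stdEmb_sineElt]
    rw [← Complex.ofReal_prod, Finset.mul_sum, Real.exp_sum]
    exact congrArg _ (Finset.prod_congr rfl fun d _ => by rw [sq, two_mul, Real.exp_add])
  have hfilter : (univ.filter fun d : (ZMod p)ˣ => χ (d : ZMod p) = -1) =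
      univ.filter fun d : (ZMod p)ˣ => ¬ χ (d : ZMod p) = 1 := by
    refine Finset.filter_congr fun d _ => ⟨fun h h' => ?_, fun h => (hpm d).resolve_left h⟩
    rw [h] at h'
    norm_num at h'
  have hsum : A 1 + A (-1) = Real.log p := by
    rw [← sum_logDist p, hA]
    simp only [hfilter]
    exact Finset.sum_filter_add_sum_filter_not _ _ _
  have hS : Real.sqrt p * ‖DirichletCharacter.LFunction χ 1‖ = |A 1 - A (-1)| := by
    rw [norm_LFunction_even hev hne, hinv, ← Finset.sum_filter_add_sum_filter_not univ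
      (fun d : (ZMod p)ˣ => χ (d : ZMod p) = 1)]
    rw [← hfilter, Finset.sum_congr rfl (s₁ := univ.filter fun d : (ZMod p)ˣ => χ (d : ZMod p) = 1)
      (fun d hd => show χ (d : ZMod p) * (logDist p d : ℂ) = (logDist p d : ℂ) by
      rw [(mem_filter.mp hd).2, one_mul]),
      Finset.sum_congr rfl (s₁ := univ.filter fun d : (ZMod p)ˣ => χ (d : ZMod p) = -1)
      (fun d hd => show χ (d : ZMod p) * (logDist p d : ℂ) = -(logDist p d : ℂ) by
        rw [(mem_filter.mp hd).2, neg_one_mul]), Finset.sum_neg_distrib, ← sub_eq_add_neg, ← Complex.ofReal_sum,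
      ← Complex.ofReal_sum, ← Complex.ofReal_sub, Complex.norm_real, Real.norm_eq_abs]
  -- the squared difference is a nonzero integer
  set D : 𝓞 K := (fibreElt K χ 1 - fibreElt K χ (-1)) ^ 2 with hD
  have hfix : ∀ c : (ZMod p)ˣ, sigma p K c D = D := fun c => by
    rw [hD, map_pow, map_sub, sigma_fibreElt, sigma_fibreElt, mul_one, mul_neg_one]
    rcases hpm c with h | h <;> rw [h]
    rw [neg_neg, ← neg_sub, neg_sq]
  have hmem : (D : K) ∈ (⊥ : IntermediateField ℚ K) := by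
    rw [IsGalois.mem_bot_iff_fixed]
    intro f
    obtain ⟨c, rfl⟩ := (IsCyclotomicExtension.Rat.galEquivZMod p K).symm.surjective f
    show sigmaK p K c (D : K) = _
    rw [← sigma_coe, hfix]
  obtain ⟨r, hr⟩ := IntermediateField.mem_bot.mp hmem
  have hri : IsIntegral ℤ r := (isIntegral_algebraMap_iff (algebraMap ℚ K).injective).mp (hr ▸ D.isIntegral_coe)
  obtain ⟨N, hN⟩ := IsIntegrallyClosed.isIntegral_iff.mp hri
  have hval : (Real.exp (2 * A 1) - Real.exp (2 * A (-1))) ^ 2 = (N : ℝ) := by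
    have h := congrArg (stdEmb p K) hr
    rw [← hN, hD] at h
    simp only [map_pow, map_sub, eq_intCast, map_intCast] at h
    simp only [← RingOfIntegers.coe_eq_algebraMap, hφ] at h
    exact_mod_cast h.symm
  have hneS : A 1 ≠ A (-1) := fun e => by
    rw [e, sub_self, abs_zero, mul_eq_zero] at hS
    exact hS.elim (Real.sqrt_ne_zero'.mpr (by exact_mod_cast hp.pos))
      (norm_ne_zero_iff.mpr (DirichletCharacter.LFunction_apply_one_ne_zero hne))
  have hN1 : (1 : ℝ) ≤ (Real.exp (2 * A 1) - Real.exp (2 * A (-1))) ^ 2 := by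
    have hne0 : (Real.exp (2 * A 1) - Real.exp (2 * A (-1))) ^ 2 ≠ 0 := pow_ne_zero 2 (sub_ne_zero.mpr fun e =>
      hneS (by linarith [Real.exp_injective e]))
    have h0 : (0 : ℝ) ≤ (Real.exp (2 * A 1) - Real.exp (2 * A (-1))) ^ 2 := sq_nonneg _
    rw [hval] at hne0 h0 ⊢
    have h0' : (0 : ℤ) ≤ N := by exact_mod_cast h0
    have h1' : N ≠ 0 := fun e => hne0 (by rw [e, Int.cast_zero])
    exact_mod_cast (show (1 : ℤ) ≤ N by omega)
  -- the estimate
  have hkey : ∀ a b : ℝ, a + b = Real.log p → 1 ≤ |Real.exp (2 * a) - Real.exp (2 * b)| → b ≤ a →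
      1 / (4 * (p : ℝ)) ≤ a - b := fun a b hab h1 hle => by
    have hp1 : (16 : ℝ) ≤ p := by exact_mod_cast h16
    have hb : Real.exp (2 * b) ≤ p := by
      rw [← Real.exp_log (show (0 : ℝ) < p by linarith)]
      exact Real.exp_le_exp.mpr (by linarith)
    rw [abs_of_nonneg (sub_nonneg.mpr (Real.exp_le_exp.mpr (by linarith)))] at h1
    by_contra! hlt
    have h2 : Real.exp (2 * a) = Real.exp (2 * b) * Real.exp (2 * (a - b)) := by rw [← Real.exp_add]; ring_nf
    have h3 : 2 * (a - b) * (2 * (p : ℝ)) < 1 := by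
      rw [lt_div_iff₀ (by linarith)] at hlt
      linarith
    have h4 : Real.exp (2 * (a - b)) * (1 - 2 * (a - b)) ≤ 1 := by
      have h := Real.add_one_le_exp (-(2 * (a - b)))
      calc Real.exp (2 * (a - b)) * (1 - 2 * (a - b)) ≤ Real.exp (2 * (a - b)) * Real.exp (-(2 * (a - b))) :=
            mul_le_mul_of_nonneg_left (by linarith) (Real.exp_pos _).le
        _ = 1 := by rw [← Real.exp_add, add_neg_cancel, Real.exp_zero]
    have hu1 : 1 ≤ Real.exp (2 * (a - b)) := Real.one_le_exp (by linarith)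
    have hε : 2 * (a - b) ≤ 1 / 2 := by nlinarith
    have hu2 : Real.exp (2 * (a - b)) ≤ 2 := by nlinarith
    have h5 : Real.exp (2 * (a - b)) - 1 ≤ 2 * (2 * (a - b)) := by nlinarith
    have h6 : 1 ≤ (p : ℝ) * (Real.exp (2 * (a - b)) - 1) := by
      rw [h2] at h1
      nlinarith
    nlinarith
  have habs : 1 / (4 * (p : ℝ)) ≤ |A 1 - A (-1)| := by
    have h1 : 1 ≤ |Real.exp (2 * A 1) - Real.exp (2 * A (-1))| := (one_le_sq_iff_one_le_abs _).mp hN1
    rcases le_total (A (-1)) (A 1) with h | h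
    · rw [abs_of_nonneg (sub_nonneg.mpr h)]
      exact hkey _ _ hsum h1 h
    · rw [abs_of_nonpos (sub_nonpos.mpr h), neg_sub]
      exact hkey _ _ (by linarith) (by rwa [abs_sub_comm]) h
  rw [← hS] at habs
  have hsq : Real.sqrt p * 4 ≤ p := by
    have h4 : (4 : ℝ) ≤ Real.sqrt p := (Real.le_sqrt (by norm_num) (Nat.cast_nonneg p)).mpr (by
      have : (16 : ℝ) ≤ p := by exact_mod_cast h16
      linarith)
    calc Real.sqrt p * 4 ≤ Real.sqrt p * Real.sqrt p := mul_le_mul_of_nonneg_left h4 (Real.sqrt_nonneg _)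
      _ = p := Real.mul_self_sqrt (Nat.cast_nonneg p)
  have hp0 : (0 : ℝ) < p := by exact_mod_cast hp.pos
  rw [div_le_iff₀ (by positivity)] at habs ⊢
  have := mul_le_mul_of_nonneg_left hsq
    (mul_nonneg (norm_nonneg (DirichletCharacter.LFunction χ 1)) hp0.le)
  nlinarith

/-- **A real odd character**: `‖L(1, χ)‖ ≥ p^(-2)`. -/
theorem inv_sq_le_norm_LFunction_odd {χ : DirichletCharacter ℂ p} (hodd : χ.Odd) (h2 : χ ^ 2 = 1) :
    1 / (p : ℝ) ^ 2 ≤ ‖DirichletCharacter.LFunction χ 1‖ := by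
  have hinv : χ⁻¹ = χ := inv_eq_of_mul_eq_one_right (by rw [← sq]; exact h2)
  have h := norm_sq_residueSum hodd
  rw [hinv] at h
  have h1 : 1 ≤ ‖residueSum χ‖ ^ 2 := one_le_pow₀ (one_le_norm_residueSum hodd h2)
  have hp1 : (1 : ℝ) ≤ p := by exact_mod_cast (Fact.out : p.Prime).one_le
  rw [div_le_iff₀ (by positivity)]
  refine (pow_le_pow_iff_left₀ zero_le_one (by positivity) two_ne_zero).mp ?_
  calc (1 : ℝ) ^ 2 ≤ (π ^ 2 * ‖residueSum χ‖ ^ 2) * p := by
        rw [one_pow]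
        exact one_le_mul_of_one_le_of_one_le
          (one_le_mul_of_one_le_of_one_le (one_le_pow₀ (by linarith [Real.two_le_pi])) h1) hp1
    _ = (‖DirichletCharacter.LFunction χ 1‖ * (p : ℝ) ^ 2) ^ 2 := by rw [h]; ring

end FA.CycloGrowth
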