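import Fermat.Agent.CycloGrowth.ZetaStrip
import Fermat.Agent.CycloGrowth.EvenValue
import Fermat.Agent.Tau.SiegelTheorem
import Fermat.Agent.Root.SummaryAbelianZeta

/-!
# A lower bound for the residue of the zeta function of `ℚ(ζ_p)`

`(s - 1) ζ_K(s) = (s - 1) ζ(s) ∏ L(s, χ)` is real and nonnegative just left of `1`: complex characters come in
conjugate pairs and the real one is still positive at `1 - p^(-4)`.  So `∏ |L(1, χ)| ≥ 1/(18 p^4)`.
-/

set_option autoImplicit false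

noncomputable section

open Finset MeasureTheory DirichletCharacter NumberField
open scoped Classical ComplexConjugate ComplexOrder nonZeroDivisors

namespace FA.CycloGrowth

variable {p : ℕ} [Fact p.Prime]

omit [Fact p.Prime] in
/-- `L(x, χ⁻¹)` is the conjugate of `L(x, χ)` on the positive axis. -/
theorem LFunction_inv_ofReal [NeZero p] {χ : DirichletCharacter ℂ p} (hχ : χ ≠ 1) {x : ℝ} (hx : 0 < x) :
    LFunction χ⁻¹ x = conj (LFunction χ x) := by
  have hre : 0 < (x : ℂ).re := by simpa using hx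
  rw [FA.Siegel.lfunction_eq hχ hre, FA.Siegel.lfunction_eq (inv_ne_one.mpr hχ) hre, map_mul, Complex.conj_ofReal,
    FA.Siegel.tail, FA.Siegel.tail, ← integral_conj]
  congr 1
  refine setIntegral_congr_fun measurableSet_Ioi fun t ht => ?_
  rw [map_mul, show (-((x : ℂ) + 1)) = ((-(x + 1) : ℝ) : ℂ) by push_cast; ring,
    ← Complex.ofReal_cpow (zero_le_one.trans ht.out.le), Complex.conj_ofReal, FA.Siegel.charSum, FA.Siegel.charSum,
    map_sum]
  congr 1
  exact Finset.sum_congr rfl fun k _ => by rw [starRingEnd_apply, MulChar.star_apply']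

omit [Fact p.Prime] in
/-- A product over complex characters closed under inversion is real and nonnegative. -/
theorem prod_complex_nonneg [NeZero p] {x : ℝ} (hx : 0 < x) (s : Finset (DirichletCharacter ℂ p))
    (hinv : ∀ χ ∈ s, χ⁻¹ ∈ s) (hsq : ∀ χ ∈ s, χ ^ 2 ≠ 1) :
    ∃ r : ℝ, 0 ≤ r ∧ ∏ χ ∈ s, LFunction χ x = (r : ℂ) := by
  induction s using Finset.strongInduction with
  | H s ih =>
    rcases s.eq_empty_or_nonempty with rfl | ⟨χ, hχ⟩
    · exact ⟨1, zero_le_one, by simp⟩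
    have hne : χ ≠ 1 := fun h => hsq χ hχ (by rw [h, one_pow])
    have hne' : χ⁻¹ ≠ χ := fun h => hsq χ hχ (by rw [sq]; nth_rewrite 1 [← h]; exact inv_mul_cancel χ)
    have hmem : χ⁻¹ ∈ s.erase χ := mem_erase.mpr ⟨hne', hinv χ hχ⟩
    obtain ⟨r, hr, hprod⟩ := ih ((s.erase χ).erase χ⁻¹)
      ((erase_subset _ _).trans_ssubset (erase_ssubset hχ))
      (fun ψ hψ => by
        simp only [mem_erase] at hψ ⊢
        exact ⟨fun h => hψ.2.1 (inv_inj.mp h), fun h => hψ.1 (by rw [← h, inv_inv]), hinv ψ hψ.2.2⟩)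
      (fun ψ hψ => hsq ψ (mem_of_mem_erase (mem_of_mem_erase hψ)))
    refine ⟨‖LFunction χ x‖ ^ 2 * r, mul_nonneg (sq_nonneg _) hr, ?_⟩
    rw [← mul_prod_erase s _ hχ, ← mul_prod_erase (s.erase χ) _ hmem, hprod, LFunction_inv_ofReal hne hx,
      ← mul_assoc, Complex.mul_conj']
    push_cast
    rfl

/-- **The real character is positive near `1`**. -/
theorem real_character_nonneg [NeZero p] {χ : DirichletCharacter ℂ p} (hne : χ ≠ 1) (h2 : χ ^ 2 = 1) (h16 : 16 ≤ p) :
    ∃ r : ℝ, 0 ≤ r ∧ LFunction χ ((1 - 1 / (p : ℝ) ^ 4 : ℝ) : ℂ) = (r : ℂ) := by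
  have hp16 : (16 : ℝ) ≤ p := by exact_mod_cast h16
  set δ : ℝ := 1 / (p : ℝ) ^ 4 with hδ
  have hδ0 : 0 < δ := by positivity
  have hδ1 : δ ≤ 1 / 16 := by
    rw [hδ]
    refine one_div_le_one_div_of_le (by norm_num) (le_trans hp16 ?_)
    exact le_self_pow₀ (by linarith) (by norm_num)
  have hL : 1 / (p : ℝ) ^ 2 ≤ ‖LFunction χ 1‖ := by
    rcases DirichletCharacter.even_or_odd χ with h | h
    · exact inv_sq_le_norm_LFunction_even p h hne h2 h16
    · exact inv_sq_le_norm_LFunction_odd h h2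
  have hre : ‖LFunction χ 1‖ = (LFunction χ 1).re := by
    have h := FA.Siegel.lfunction_eq_ofReal hne h2 one_pos
    rw [Complex.ofReal_one] at h
    conv_lhs => rw [h, Complex.norm_real, Real.norm_of_nonneg (FA.Siegel.LFunction_one_re_pos hne h2).le]
  have hball : ((1 - δ : ℝ) : ℂ) ∈ Metric.closedBall (1 : ℂ) (1 / 2 / 2) := by
    rw [Metric.mem_closedBall, dist_eq_norm, ← Complex.ofReal_one, ← Complex.ofReal_sub, Complex.norm_real,
      Real.norm_eq_abs, show 1 - δ - 1 = -δ by ring, abs_neg, abs_of_pos hδ0]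
    linarith
  have hmv := (convex_closedBall (1 : ℂ) (1 / 2 / 2)).norm_image_sub_le_of_norm_deriv_le
    (f := LFunction χ) (fun z _ => (differentiable_LFunction hne) z)
    (fun z hz => FA.Siegel.norm_deriv_LFunction_le hne (ε := 1 / 2) (by norm_num) le_rfl hz)
    (Metric.mem_closedBall_self (by norm_num)) hball
  rw [show ‖((1 - δ : ℝ) : ℂ) - 1‖ = δ by
    rw [← Complex.ofReal_one, ← Complex.ofReal_sub, Complex.norm_real, Real.norm_eq_abs,
      show 1 - δ - 1 = -δ by ring, abs_neg, abs_of_pos hδ0]] at hmv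
  have hsqrt : (p : ℝ) ^ (1 / 2 : ℝ) * 4 ≤ p := by
    rw [← Real.sqrt_eq_rpow]
    have h4 : (4 : ℝ) ≤ Real.sqrt p := (Real.le_sqrt (by norm_num) (by linarith)).mpr (by linarith)
    calc Real.sqrt p * 4 ≤ Real.sqrt p * Real.sqrt p := mul_le_mul_of_nonneg_left h4 (Real.sqrt_nonneg _)
      _ = p := Real.mul_self_sqrt (by linarith)
  have hsmall : 4 * (1 / (1 / 2 : ℝ) + 2) / (1 / 2) * (p : ℝ) ^ (1 / 2 : ℝ) * δ ≤ 1 / (p : ℝ) ^ 2 := by
    rw [hδ, mul_one_div, div_le_div_iff₀ (by positivity) (by positivity)]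
    nlinarith [mul_le_mul_of_nonneg_left hsqrt (sq_nonneg (p : ℝ)),
      mul_le_mul_of_nonneg_left hp16 (pow_nonneg (by linarith : (0 : ℝ) ≤ p) 3)]
  refine ⟨(LFunction χ ((1 - δ : ℝ) : ℂ)).re, ?_, ?_⟩
  · have h := (Complex.abs_re_le_norm _).trans hmv
    rw [Complex.sub_re, abs_le] at h
    linarith [h.1]
  · exact FA.Siegel.lfunction_eq_ofReal hne h2 (by linarith)

theorem LFunction_primitive_eq [NeZero p] {χ : DirichletCharacter ℂ p} (hχ : χ ≠ 1) (s : ℂ) :
    LFunction χ.primitiveCharacter s = LFunction χ s := by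
  have hp : p.Prime := Fact.out
  have hc : χ.conductor = p := FA.OrderTheta.isPrimitive_of_ne_one p hχ
  have : NeZero χ.conductor := ⟨by rw [hc]; exact hp.ne_zero⟩
  conv_rhs => rw [← DirichletCharacter.changeLevel_primitiveCharacter χ]
  rw [DirichletCharacter.LFunction_changeLevel _ _ (Or.inl (FA.AbelianZeta.primitive_ne_one hχ)),
    Finset.prod_eq_one, mul_one]
  intro q hq
  rw [Nat.Prime.primeFactors hp, Finset.mem_singleton] at hq
  subst hq
  rw [show ((q : ℕ) : ZMod χ.conductor) = 0 by rw [ZMod.natCast_eq_zero_iff, hc],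
    MulChar.map_nonunit _ ?_, zero_mul, sub_zero]
  have : Nontrivial (ZMod χ.conductor) := by
    rw [hc]; exact inferInstance
  exact not_isUnit_zero

theorem lseriesSummable_ideal (K : Type*) [Field K] [NumberField K] {s : ℂ} (hs : 1 < s.re) :
    LSeriesSummable (fun n => (Nat.card {I : Ideal (𝓞 K) // Ideal.absNorm I = n} : ℂ)) s := by
  have hsum : Summable fun c => ‖FA.AbelianZeta.normPow s
      ((Equiv.sigmaFiberEquiv fun I : (Ideal (𝓞 K))⁰ => Ideal.absNorm I.1) c)‖ :=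
    (Equiv.sigmaFiberEquiv _).summable_iff.mpr (FA.AbelianZeta.summable_norm_normPow hs)
  refine Summable.of_norm (hsum.sigma.congr fun n => ?_)
  rcases eq_or_ne n 0 with rfl | hn
  · have : IsEmpty {I : (Ideal (𝓞 K))⁰ // Ideal.absNorm I.1 = 0} :=
      ⟨fun I => Ideal.absNorm_ne_zero_of_nonZeroDivisors I.1 I.2⟩
    simp
  have hcard : Nat.card {I : (Ideal (𝓞 K))⁰ // Ideal.absNorm I.1 = n} =
      Nat.card {I : Ideal (𝓞 K) // Ideal.absNorm I = n} := by
    refine Nat.card_congr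
      { toFun := fun I => ⟨I.1.1, I.2⟩
        invFun := fun I => ⟨⟨I.1, mem_nonZeroDivisors_iff_ne_zero.mpr fun h => hn ?_⟩, I.2⟩
        left_inv := fun I => rfl
        right_inv := fun I => rfl }
    rw [← I.2, h]; simp
  rw [show (∑' c : {I : (Ideal (𝓞 K))⁰ // Ideal.absNorm I.1 = n},
      ‖FA.AbelianZeta.normPow s ((Equiv.sigmaFiberEquiv fun I : (Ideal (𝓞 K))⁰ => Ideal.absNorm I.1) ⟨n, c⟩)‖) =
      ∑' _c : {I : (Ideal (𝓞 K))⁰ // Ideal.absNorm I.1 = n}, ‖(n : ℂ) ^ (-s)‖ from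
    tsum_congr fun c => by simp [FA.AbelianZeta.normPow, c.2],
    tsum_const, nsmul_eq_mul, hcard, LSeries.term_of_ne_zero hn, norm_div, Complex.norm_natCast, Complex.cpow_neg,
    norm_inv, div_eq_mul_inv]

variable (p) in
/-- **The residue is not too small**. -/
theorem inv_le_prod_LFunction_one [NeZero p] (h16 : 16 ≤ p) :
    1 / (18 * (p : ℝ) ^ 4) ≤ ∏ χ ∈ (univ : Finset (DirichletCharacter ℂ p)).erase 1, ‖LFunction χ 1‖ := by
  have hp : p.Prime := Fact.out
  let K := CyclotomicField p ℚ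
  have : IsCyclotomicExtension {p} ℚ K := CyclotomicField.isCyclotomicExtension p ℚ
  set T := (univ : Finset (DirichletCharacter ℂ p)).erase 1 with hT
  set a : ℕ → ℂ := fun n => (Nat.card {I : Ideal (𝓞 K) // Ideal.absNorm I = n} : ℂ) with ha
  set G : ℂ → ℂ := fun s => riemannZeta₁ s * ∏ χ ∈ T, LFunction χ s with hG
  have hTne : ∀ χ ∈ T, χ ≠ 1 := fun χ hχ => (mem_erase.mp hχ).1
  have hp16 : (16 : ℝ) ≤ p := by exact_mod_cast h16
  have hTcard : T.card ≤ p := by
    rw [hT, card_erase_of_mem (mem_univ _), card_univ, ← Nat.card_eq_fintype_card,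
      DirichletCharacter.card_eq_totient_of_hasEnoughRootsOfUnity ℂ p, Nat.totient_prime hp]
    omega
  have hone : ∀ χ ∈ T, ‖LFunction χ 1‖ ≤ 7 * p := fun χ hχ => by
    refine (FA.Siegel.norm_LFunction_le (hTne χ hχ) (by simp)).trans ?_
    simp only [norm_one, Complex.one_re, div_one, one_mul]
    linarith
  have hres : ∏ χ ∈ T, LFunction χ 1 = (dedekindZeta_residue K : ℂ) := by
    rw [← FA.Summary.classNumberFormula_cyclotomic p K]
    exact prod_congr rfl fun χ hχ => (LFunction_primitive_eq (hTne χ hχ) 1).symm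
  have hG1 : G 1 = (dedekindZeta_residue K : ℂ) := by simp only [hG, riemannZeta₁_one, one_mul, hres]
  have hF : ∀ s : ℂ, 1 < s.re → LSeries a s = G s * (s - 1)⁻¹ := fun s hs => by
    have hne : s ≠ 1 := fun h => by simp [h] at hs
    show dedekindZeta K s = _
    rw [FA.Summary.dedekindZeta_cyclotomic p K hs, ← mul_prod_erase univ _ (mem_univ 1),
      FA.AbelianZeta.LFunction_eq_riemannZeta _ conductor_one, riemannZeta_eq_inv_sub_mul hne, hG,
      prod_congr rfl fun χ hχ => LFunction_primitive_eq (hTne χ hχ) s]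
    ring
  set M : ℝ := 22 * (7 * p) ^ p with hM
  have hM1 : 1 ≤ M := by
    rw [hM]
    exact one_le_mul_of_one_le_of_one_le (by norm_num) (one_le_pow₀ (by linarith))
  have hprodle : ∀ z : ℂ, (∀ χ ∈ T, ‖LFunction χ z‖ ≤ 7 * p) → ‖∏ χ ∈ T, LFunction χ z‖ ≤ (7 * (p : ℝ)) ^ p :=
    fun z hz => by
      rw [norm_prod]
      refine (Finset.prod_le_prod (fun χ _ => norm_nonneg _) hz).trans ?_
      rw [prod_const]
      exact pow_le_pow_right₀ (by linarith) hTcard
  set δ : ℝ := 1 / (p : ℝ) ^ 4 with hδ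
  have hδ0 : 0 < δ := by positivity
  have hδ1 : δ ≤ 1 / 16 := by
    rw [hδ]
    exact one_div_le_one_div_of_le (by norm_num) (le_trans hp16 (le_self_pow₀ (by linarith) (by norm_num)))
  have hGβ : 0 ≤ (G ((1 - δ : ℝ) : ℂ)).re := by
    obtain ⟨r₀, hr₀, hz⟩ := riemannZeta₁_ofReal (x := 1 - δ) (by linarith) (by linarith)
    obtain ⟨r₁, hr₁, hc⟩ := prod_complex_nonneg (p := p) (x := 1 - δ) (by linarith) (T.filter fun χ => ¬ χ ^ 2 = 1)
      (fun χ hχ => by
        simp only [hT, mem_filter, mem_erase, mem_univ, and_true] at hχ ⊢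
        exact ⟨inv_ne_one.mpr hχ.1, fun h => hχ.2 (inv_eq_one.mp (by rw [← inv_pow]; exact h))⟩)
      (fun χ hχ => (mem_filter.mp hχ).2)
    obtain ⟨r₂, hr₂, hreal⟩ : ∃ r : ℝ, 0 ≤ r ∧
        ∏ χ ∈ T.filter (fun χ => χ ^ 2 = 1), LFunction χ ((1 - δ : ℝ) : ℂ) = (r : ℂ) := by
      have h : ∀ χ ∈ T.filter (fun χ : DirichletCharacter ℂ p => χ ^ 2 = 1),
          LFunction χ ((1 - δ : ℝ) : ℂ) = (((LFunction χ ((1 - δ : ℝ) : ℂ)).re : ℝ) : ℂ) ∧
            0 ≤ (LFunction χ ((1 - δ : ℝ) : ℂ)).re := fun χ hχ => by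
        obtain ⟨r, hr, e⟩ := real_character_nonneg (hTne χ (mem_filter.mp hχ).1) (mem_filter.mp hχ).2 h16
        rw [e, Complex.ofReal_re]
        exact ⟨rfl, hr⟩
      refine ⟨∏ χ ∈ T.filter (fun χ => χ ^ 2 = 1), (LFunction χ ((1 - δ : ℝ) : ℂ)).re,
        prod_nonneg fun χ hχ => (h χ hχ).2, ?_⟩
      rw [Complex.ofReal_prod]
      exact prod_congr rfl fun χ hχ => (h χ hχ).1
    simp only [hG]
    rw [hz, ← Finset.prod_filter_mul_prod_filter_not T (fun χ => χ ^ 2 = 1), hc, hreal, ← Complex.ofReal_mul,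
      ← Complex.ofReal_mul, Complex.ofReal_re]
    positivity
  have h := FA.Siegel.residue_lower_bound (a := a) (G := G) (fun n => by simp [ha])
    (by
      have : Unique {I : Ideal (𝓞 K) // Ideal.absNorm I = 1} :=
        ⟨⟨⟨⊤, Ideal.absNorm_top⟩⟩, fun I => Subtype.ext (Ideal.absNorm_eq_one_iff.mp I.2)⟩
      simp [ha])
    (fun s hs => lseriesSummable_ideal K hs)
    (differentiable_riemannZeta₁.mul (Differentiable.fun_finsetProd fun χ hχ => differentiable_LFunction (hTne χ hχ)))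
    hF hM1
    (fun z hz => by
      simp only [hG]
      rw [norm_mul, hM]
      exact mul_le_mul (norm_riemannZeta₁_sphere hz) (hprodle z fun χ hχ =>
        FA.Siegel.norm_LFunction_sphere (hTne χ hχ) hz)
        (norm_nonneg _) (by norm_num))
    (by
      simp only [hG]
      rw [riemannZeta₁_one, one_mul, hM]
      exact (hprodle 1 hone).trans (le_mul_of_one_le_left (by positivity) (by norm_num)))
    (β := 1 - δ) (by linarith) (by linarith) hGβ
  rw [hG1, Complex.ofReal_re, sub_sub_cancel] at h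
  have hnorm : ∏ χ ∈ T, ‖LFunction χ 1‖ = dedekindZeta_residue K := by
    rw [← norm_prod, hres, Complex.norm_real, Real.norm_of_nonneg (dedekindZeta_residue_pos K).le]
  rw [hnorm]
  refine le_trans ?_ h
  have hlog : Real.log (48 * M) ≤ 12 * (p : ℝ) ^ 2 := by
    have e : 48 * M = 1056 * (7 * (p : ℝ)) ^ p := by rw [hM]; ring
    rw [e, Real.log_mul (by norm_num) (by positivity), Real.log_pow]
    have h1 : Real.log 1056 ≤ 1055 := (Real.log_le_sub_one_of_pos (by norm_num)).trans (by norm_num)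
    have h2 : Real.log (7 * (p : ℝ)) ≤ 7 * p - 1 := Real.log_le_sub_one_of_pos (by positivity)
    have h3 : (p : ℝ) * Real.log (7 * p) ≤ p * (7 * p - 1) := mul_le_mul_of_nonneg_left h2 (by linarith)
    nlinarith
  have hexp : (1 : ℝ) / 3 ≤ (48 * M) ^ (-(6 * δ)) := by
    rw [Real.rpow_def_of_pos (by linarith)]
    have h1 : Real.log (48 * M) * (6 * δ) ≤ 1 / 2 := by
      have h2 : Real.log (48 * M) * (6 * δ) ≤ 12 * (p : ℝ) ^ 2 * (6 * δ) :=
        mul_le_mul_of_nonneg_right hlog (by linarith)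
      refine h2.trans ?_
      rw [hδ, mul_one_div, mul_div_assoc', div_le_iff₀ (by positivity)]
      have : (256 : ℝ) ≤ (p : ℝ) ^ 2 := by nlinarith
      nlinarith [mul_le_mul_of_nonneg_left this (sq_nonneg (p : ℝ))]
    have := Real.add_one_le_exp (Real.log (48 * M) * -(6 * δ))
    linarith
  calc 1 / (18 * (p : ℝ) ^ 4) = δ / 6 * (1 / 3) := by rw [hδ]; field_simp; norm_num
    _ ≤ _ := mul_le_mul_of_nonneg_left hexp (by positivity)

end FA.CycloGrowth
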