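import Mathlib.NumberTheory.NumberField.Cyclotomic.Basic

/-!
# The discriminant of `ℚ(ζ_n)` is close to `n^φ(n)`

In `|d| = n^φ(n) / ∏ p^(φ(n)/(p-1))` the twelfth power of the denominator is at most `(n · 2310^12)^φ(n)`.
-/

set_option autoImplicit false

noncomputable section

open NumberField

namespace FA.CycloGrowth

/-- The twelfth power of the denominator. -/
theorem prod_primeFactors_pow_le (n : ℕ) (hn : n ≠ 0) :
    (∏ p ∈ n.primeFactors, p ^ (n.totient / (p - 1))) ^ 12 ≤ n ^ n.totient * 2310 ^ (12 * n.totient) := by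
  rw [← Finset.prod_pow]
  calc ∏ p ∈ n.primeFactors, (p ^ (n.totient / (p - 1))) ^ 12
      ≤ ∏ p ∈ n.primeFactors, p ^ n.totient * (if p < 13 then p else 1) ^ (12 * n.totient) := by
        refine Finset.prod_le_prod' fun p hp => ?_
        have hp' := Nat.prime_of_mem_primeFactors hp
        rw [← pow_mul]
        split_ifs with h13
        · refine le_trans ?_ (Nat.le_mul_of_pos_left _ (pow_pos hp'.pos _))
          refine Nat.pow_le_pow_right hp'.pos ?_
          have := Nat.div_le_self n.totient (p - 1)
          omega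
        · rw [one_pow, mul_one]
          refine Nat.pow_le_pow_right hp'.pos ?_
          calc n.totient / (p - 1) * 12 ≤ n.totient / (p - 1) * (p - 1) := Nat.mul_le_mul_left _ (by omega)
            _ ≤ n.totient := Nat.div_mul_le_self _ _
    _ = (∏ p ∈ n.primeFactors, p) ^ n.totient * (∏ p ∈ n.primeFactors with p < 13, p) ^ (12 * n.totient) := by
        rw [Finset.prod_mul_distrib, Finset.prod_pow, Finset.prod_pow, Finset.prod_filter]
    _ ≤ n ^ n.totient * 2310 ^ (12 * n.totient) := by
        refine Nat.mul_le_mul (Nat.pow_le_pow_left (Nat.le_of_dvd (Nat.pos_of_ne_zero hn)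
          (Nat.prod_primeFactors_dvd n)) _) (Nat.pow_le_pow_left ?_ _)
        refine Nat.le_of_dvd (by norm_num) ?_
        refine dvd_trans (Finset.prod_dvd_prod_of_subset _ ((Finset.range 13).filter Nat.Prime) _ fun p hp => ?_) ?_
        · obtain ⟨hp1, hp2⟩ := Finset.mem_filter.mp hp
          exact Finset.mem_filter.mpr ⟨Finset.mem_range.mpr hp2, Nat.prime_of_mem_primeFactors hp1⟩
        · decide

/-- **The lower bound for the discriminant.** -/
theorem pow_le_natAbs_discr (n : ℕ) [NeZero n] (K : Type*) [Field K] [NumberField K]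
    [IsCyclotomicExtension {n} ℚ K] :
    n ^ (11 * n.totient) ≤ (discr K).natAbs ^ 12 * 2310 ^ (12 * n.totient) := by
  have hdvd := Nat.prod_primeFactors_pow_totient_ediv_dvd (NeZero.pos n)
  have hd := IsCyclotomicExtension.Rat.natAbs_discr n K
  set N := ∏ p ∈ n.primeFactors, p ^ (n.totient / (p - 1))
  have hN : 0 < N := Finset.prod_pos fun p hp => pow_pos (Nat.prime_of_mem_primeFactors hp).pos _
  have h1 : (discr K).natAbs * N = n ^ n.totient := by rw [hd]; exact Nat.div_mul_cancel hdvd
  have h2 := prod_primeFactors_pow_le n (NeZero.ne n)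
  refine Nat.le_of_mul_le_mul_right ?_ (pow_pos (NeZero.pos n) n.totient)
  calc n ^ (11 * n.totient) * n ^ n.totient = ((discr K).natAbs * N) ^ 12 := by
        rw [h1, ← pow_add, ← pow_mul]; congr 1; ring
    _ ≤ (discr K).natAbs ^ 12 * (n ^ n.totient * 2310 ^ (12 * n.totient)) := by
        rw [mul_pow]; exact Nat.mul_le_mul_left _ h2
    _ = _ := by ring

end FA.CycloGrowth
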