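import Fermat.Agent.CycloGrowth.LValue
import Fermat.Agent.Root.SummarySiegel
import Fermat.Agent.Root.SummaryAbelianZeta

/-!
# `‖L(1, χ)‖ ≥ c q^(-1/3)` for every nontrivial character

Complex characters of large modulus by the `3-4-1` inequality, real ones by Siegel's theorem (so `c` is
ineffective), the finitely many others by nonvanishing; hence the same for the primitive character of any character.
-/

set_option autoImplicit false

noncomputable section

open DirichletCharacter

namespace FA.CycloGrowth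

open scoped Classical in
/-- **The uniform lower bound.** -/
theorem exists_norm_LFunction_one_ge_all : ∃ c : ℝ, 0 < c ∧ ∀ (q : ℕ) [NeZero q] (χ : DirichletCharacter ℂ q),
    χ ≠ 1 → c * (q : ℝ) ^ (-(1 / 3) : ℝ) ≤ ‖LFunction χ 1‖ := by
  obtain ⟨C, hC, hsiegel⟩ := FA.Siegel.siegel_theorem (1 / 3) (by norm_num)
  obtain ⟨q₀, hq₀⟩ := exists_norm_LFunction_one_ge
  have hloc : ∀ q : ℕ, ∃ d : ℝ, 0 < d ∧ d ≤ 1 ∧ ∀ [NeZero q] (χ : DirichletCharacter ℂ q), χ ≠ 1 →
      d ≤ ‖LFunction χ 1‖ := fun q => by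
    by_cases hq : q = 0
    · subst hq
      exact ⟨1, one_pos, le_rfl, fun {h} => absurd rfl h.ne⟩
    have : NeZero q := ⟨hq⟩
    set f : DirichletCharacter ℂ q → ℝ := fun χ => if χ = 1 then 1 else min 1 ‖LFunction χ 1‖
    have hf : ∀ χ, 0 < f χ := fun χ => by
      simp only [f]
      split_ifs with h
      · exact one_pos
      · exact lt_min one_pos (norm_pos_iff.mpr (LFunction_ne_zero_of_one_le_re χ (.inl h) (by simp)))
    have hf1 : ∀ χ, f χ ≤ 1 := fun χ => by
      simp only [f]
      split_ifs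
      · exact le_rfl
      · exact min_le_left _ _
    refine ⟨∏ χ, f χ, Finset.prod_pos fun χ _ => hf χ, Finset.prod_le_one (fun χ _ => (hf χ).le) fun χ _ => hf1 χ,
      fun {_} χ hχ => ?_⟩
    rw [← Finset.mul_prod_erase Finset.univ f (Finset.mem_univ χ)]
    refine (mul_le_of_le_one_right (hf χ).le (Finset.prod_le_one (fun ψ _ => (hf ψ).le) fun ψ _ => hf1 ψ)).trans ?_
    simp only [f, if_neg hχ]
    exact min_le_right _ _
  choose d hd hd1 hdle using hloc
  set D := ∏ q ∈ Finset.range q₀, d q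
  have hD : 0 < D := Finset.prod_pos fun q _ => hd q
  refine ⟨min (min C 1) D, lt_min (lt_min hC one_pos) hD, fun q _ χ hχ => ?_⟩
  have hq1 : (1 : ℝ) ≤ q := by exact_mod_cast NeZero.one_le
  have hpow0 : (0 : ℝ) ≤ (q : ℝ) ^ (-(1 / 3) : ℝ) := Real.rpow_nonneg (by linarith) _
  by_cases h2 : χ ^ 2 = 1
  · refine (mul_le_mul_of_nonneg_right ((min_le_left _ _).trans (min_le_left _ _)) hpow0).trans ?_
    exact (hsiegel q χ hχ h2).trans (Complex.re_le_norm _)
  rcases Nat.lt_or_ge q q₀ with hlt | hge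
  · refine (mul_le_mul_of_nonneg_right (min_le_right _ _) hpow0).trans ?_
    refine (mul_le_of_le_one_right hD.le (Real.rpow_le_one_of_one_le_of_nonpos hq1 (by norm_num))).trans ?_
    refine le_trans ?_ (hdle q χ hχ)
    rw [show D = d q * ∏ r ∈ (Finset.range q₀).erase q, d r from
      (Finset.mul_prod_erase _ _ (Finset.mem_range.mpr hlt)).symm]
    exact mul_le_of_le_one_right (hd q).le (Finset.prod_le_one (fun r _ => (hd r).le) fun r _ => hd1 r)
  · refine (mul_le_mul_of_nonneg_right ((min_le_left _ _).trans (min_le_right _ _)) hpow0).trans ?_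
    rw [one_mul]
    exact hq₀ q χ hge h2

/-- The same for primitive characters, by the level. -/
theorem exists_norm_LFunction_primitive_ge : ∃ c : ℝ, 0 < c ∧ ∀ (n : ℕ) [NeZero n] (χ : DirichletCharacter ℂ n),
    χ ≠ 1 → c * (n : ℝ) ^ (-(1 / 3) : ℝ) ≤ ‖LFunction χ.primitiveCharacter 1‖ := by
  obtain ⟨c, hc, h⟩ := exists_norm_LFunction_one_ge_all
  refine ⟨c, hc, fun n _ χ hχ => ?_⟩
  have hn : χ.conductor ≤ n := Nat.le_of_dvd (NeZero.pos n) χ.conductor_dvd_level
  have : NeZero χ.conductor := ⟨fun e => NeZero.ne n (Nat.eq_zero_of_zero_dvd (e ▸ χ.conductor_dvd_level))⟩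
  refine le_trans (mul_le_mul_of_nonneg_left ?_ hc.le) (h χ.conductor χ.primitiveCharacter
    (FA.AbelianZeta.primitive_ne_one hχ))
  exact Real.rpow_le_rpow_of_nonpos (by exact_mod_cast NeZero.pos χ.conductor) (by exact_mod_cast hn) (by norm_num)

end FA.CycloGrowth
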