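import Fermat.Agent.CycloParity.Certificate
import Mathlib.LinearAlgebra.Matrix.Adjugate

/-!
# A kernel vector modulo `q` shows `h/h⁺ ≠ 1`

A vector killed by Maillet's matrix modulo `q`, one coordinate `1`, makes `q` divide the determinant; for `q` prime
to `p` the determinant is then no divisor of a power of `p`.
-/

set_option autoImplicit false

noncomputable section

namespace FA.CycloGrowth

/-- The sum `f 0 + … + f (n-1)`. -/
def natSum (f : ℕ → ℕ) : ℕ → ℕ
  | 0 => 0
  | n + 1 => natSum f n + f n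

theorem natSum_eq (f : ℕ → ℕ) : ∀ n, natSum f n = ∑ j ∈ Finset.range n, f j
  | 0 => rfl
  | n + 1 => by rw [Finset.sum_range_succ, ← natSum_eq f n, natSum]

/-- The test, with inverse residues `v`, a vector `y` and a modulus `q`. -/
def kernelCheck (p m : ℕ) (v y : List ℕ) (q : ℕ) : Bool :=
  FA.CycloParity.inverseCheck p m v && (Nat.gcd q p == 1 && (decide (1 < q) &&
    ((List.range m).any (fun j => y.getD j 0 % q == 1) &&
      (List.range m).all fun i => natSum (fun j => (i + 1) * v.getD j 0 % p * y.getD j 0) m % q == 0)))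

variable {p : ℕ} [Fact p.Prime] {m : ℕ}

/-- The determinant divides no power of `p`. -/
theorem not_dvd_pow_of_check (hm : p = 2 * m + 1) {v y : List ℕ} {q : ℕ} (h : kernelCheck p m v y q = true) (e : ℕ) :
    ¬ (FA.CycloIndex.mailletMatrix p m).det.natAbs ∣ p ^ e := by
  have : NeZero p := ⟨(Fact.out : p.Prime).ne_zero⟩
  simp only [kernelCheck, FA.CycloParity.inverseCheck, Bool.and_eq_true, List.all_eq_true, List.any_eq_true,
    List.mem_range, beq_iff_eq, decide_eq_true_eq] at h
  obtain ⟨hv, hcop, hq, ⟨j₀, hj₀, hy⟩, hrow⟩ := h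
  intro hdvd
  have hentry : ∀ i j : Fin m, FA.CycloIndex.mailletMatrix p m i j = (((i.1 + 1) * v.getD j 0 % p : ℕ) : ℤ) := by
    intro i j
    have hinv : (((j.1 + 1 : ℕ) : ZMod p))⁻¹ = (v.getD j 0 : ZMod p) := by
      refine inv_eq_of_mul_eq_one_right ?_
      rw [← Nat.cast_mul, ← ZMod.natCast_mod, hv j j.2, Nat.cast_one]
    rw [FA.CycloIndex.mailletMatrix, Matrix.of_apply, FA.CycloIndex.mailletEntry, hinv, ← Nat.cast_mul,
      ZMod.val_natCast]
  set M : Matrix (Fin m) (Fin m) (ZMod q) := (Int.castRingHom (ZMod q)).mapMatrix (FA.CycloIndex.mailletMatrix p m)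
  set u : Fin m → ZMod q := fun j => (y.getD j 0 : ZMod q)
  have hker : Matrix.mulVec M u = 0 := funext fun i => by
    have hz : ((natSum (fun j => (i.1 + 1) * v.getD j 0 % p * y.getD j 0) m : ℕ) : ZMod q) = 0 :=
      (ZMod.natCast_eq_zero_iff _ q).mpr (Nat.dvd_of_mod_eq_zero (hrow i i.2))
    rw [natSum_eq, Finset.sum_range, Nat.cast_sum] at hz
    rw [Pi.zero_apply, Matrix.mulVec, dotProduct, ← hz]
    refine Finset.sum_congr rfl fun j _ => ?_
    simp only [M, u, RingHom.mapMatrix_apply, Matrix.map_apply, hentry, eq_intCast, Int.cast_natCast, Nat.cast_mul]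
  have hd : M.det • u = 0 := by
    rw [← Matrix.one_mulVec u, ← Matrix.smul_mulVec, ← Matrix.adjugate_mul, ← Matrix.mulVec_mulVec, hker,
      Matrix.mulVec_zero]
  have hj := congrFun hd ⟨j₀, hj₀⟩
  rw [Pi.smul_apply, Pi.zero_apply, smul_eq_mul] at hj
  have hu : u ⟨j₀, hj₀⟩ = 1 := by
    show ((y.getD j₀ 0 : ℕ) : ZMod q) = 1
    rw [← ZMod.natCast_mod, hy, Nat.cast_one]
  rw [hu, mul_one, ← RingHom.map_det, eq_intCast, ZMod.intCast_zmod_eq_zero_iff_dvd] at hj
  have h1 : q ∣ p ^ e := (Int.natCast_dvd.mp hj).trans hdvd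
  have := Nat.Coprime.eq_one_of_dvd (Nat.Coprime.pow_right e hcop) h1
  omega

end FA.CycloGrowth
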