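import Fermat.Agent.CycloGrowth.EvenValue
import Mathlib.NumberTheory.DirichletCharacter.Orthogonality
import Mathlib.Analysis.SpecialFunctions.Trigonometric.Bounds

/-!
# The mean square of `L(1, χ)` over the even characters

`∑ ‖L(1, χ)‖² ≤ ∑ (log |1 - ζ^d|)² ≤ 2.97 m + 5`, `m = (p-1)/2`, so the product over the `m - 1` characters is at
most `3.1^(m-1)` for `m ≥ 80`.
-/

set_option autoImplicit false

noncomputable section

open Finset FA.CycloIndex
open scoped Classical Real ComplexConjugate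

namespace FA.CycloGrowth

theorem log_succ_div (n a : ℕ) (hn : 0 < n) (ha : 0 < a) :
    Real.log (((n + 1 : ℕ) : ℝ) / a) = Real.log ((n : ℝ) / a) + Real.log (((n + 1 : ℕ) : ℝ) / n) := by
  have hn' : (0 : ℝ) < n := Nat.cast_pos.mpr hn
  have ha' : (0 : ℝ) < a := Nat.cast_pos.mpr ha
  rw [Real.log_div (by positivity) ha'.ne', Real.log_div hn'.ne' ha'.ne', Real.log_div (by positivity) hn'.ne']
  ring

/-- The two log sums. -/
theorem sum_log_div_le : ∀ n : ℕ, 0 < n →
    ∑ a ∈ Icc 1 n, Real.log ((n : ℝ) / a) ≤ n - 1 ∧ ∑ a ∈ Icc 1 n, Real.log ((n : ℝ) / a) ^ 2 ≤ 2 * n := by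
  intro n hn
  induction n with
  | zero => omega
  | succ n ih =>
    rcases Nat.eq_zero_or_pos n with rfl | hn'
    · norm_num
    obtain ⟨hS, hT⟩ := ih hn'
    set d : ℝ := Real.log (((n + 1 : ℕ) : ℝ) / n) with hd
    have hn0 : (0 : ℝ) < n := Nat.cast_pos.mpr hn'
    have hd0 : 0 ≤ d := Real.log_nonneg (by rw [le_div_iff₀ hn0]; push_cast; linarith)
    have hd1 : (n : ℝ) * d ≤ 1 := by
      have h := Real.log_le_sub_one_of_pos (show 0 < ((n + 1 : ℕ) : ℝ) / n by positivity)
      calc (n : ℝ) * d ≤ n * ((((n + 1 : ℕ) : ℝ) / n) - 1) := mul_le_mul_of_nonneg_left h hn0.le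
        _ = 1 := by push_cast; field_simp; ring
    have hstep : ∀ a ∈ Icc 1 n, Real.log (((n + 1 : ℕ) : ℝ) / a) = Real.log ((n : ℝ) / a) + d := fun a ha =>
      log_succ_div n a hn' (by rw [mem_Icc] at ha; omega)
    have hcard : (Icc 1 n).card = n := by simp
    refine ⟨?_, ?_⟩
    · rw [sum_Icc_succ_top (by omega), div_self (by positivity), Real.log_one, add_zero, sum_congr rfl hstep,
        sum_add_distrib, sum_const, hcard, nsmul_eq_mul]
      push_cast
      linarith
    · rw [sum_Icc_succ_top (by omega), div_self (by positivity), Real.log_one, zero_pow two_ne_zero, add_zero,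
        sum_congr rfl (fun a ha => by rw [hstep a ha, add_sq]), sum_add_distrib, sum_add_distrib, sum_const, hcard,
        nsmul_eq_mul, ← sum_mul, ← mul_sum]
      push_cast
      have hdle : d ≤ 1 := le_trans (le_mul_of_one_le_left hd0 (by exact_mod_cast hn')) hd1
      nlinarith [mul_le_mul_of_nonneg_right hS hd0, mul_le_mul_of_nonneg_right hd1 hd0]

theorem sum_log_sq_le {y : ℝ} {n : ℕ} (hy : (n : ℝ) ≤ y) (hy' : y ≤ n + 1) :
    ∑ a ∈ Icc 1 n, Real.log (y / a) ^ 2 ≤ 2 * n + 2 := by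
  rcases Nat.eq_zero_or_pos n with rfl | hn
  · simp
  have h := (sum_log_div_le (n + 1) n.succ_pos).2
  rw [sum_Icc_succ_top (by omega), div_self (by positivity), Real.log_one, zero_pow two_ne_zero, add_zero] at h
  refine le_trans (sum_le_sum fun a ha => ?_) (h.trans (le_of_eq (by push_cast; ring)))
  rw [mem_Icc] at ha
  have ha' : (0 : ℝ) < a := Nat.cast_pos.mpr (by omega)
  have ha2 : (a : ℝ) ≤ y := le_trans (by exact_mod_cast ha.2) hy
  exact pow_le_pow_left₀ (Real.log_nonneg ((le_div_iff₀ ha').mpr (by linarith)))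
    (Real.log_le_log (div_pos (by linarith) ha') (div_le_div_of_nonneg_right (by push_cast; exact hy') ha'.le)) 2

variable {p : ℕ} [Fact p.Prime] {m : ℕ}

theorem logDist_sq_le (hm : p = 2 * m + 1) (i : ℕ) (hi : i < m) (d : (ZMod p)ˣ)
    (hd : (d : ZMod p) = ((i + 1 : ℕ) : ZMod p)) :
    logDist p d ^ 2 ≤ 12 / 25 + 1 / 2000 + if 4 * (i + 1) ≤ p then Real.log ((p : ℝ) / 4 / (i + 1 : ℕ)) ^ 2 else 0 := by
  have hp : p.Prime := Fact.out
  have hp0 : (0 : ℝ) < p := Nat.cast_pos.mpr hp.pos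
  set x : ℝ := ((i + 1 : ℕ) : ℝ) / p with hx
  have hx0 : 0 < x := by positivity
  have hx2 : x ≤ 1 / 2 := by
    rw [hx, div_le_iff₀ hp0]
    have : ((2 * (i + 1) : ℕ) : ℝ) ≤ p := by exact_mod_cast (by omega : 2 * (i + 1) ≤ p)
    push_cast at this ⊢
    linarith
  have hsin : 2 * x ≤ Real.sin (π * x) := by
    have h := Real.mul_le_sin (x := π * x) (by positivity) (by nlinarith [Real.pi_pos])
    calc 2 * x = 2 / π * (π * x) := by field_simp
      _ ≤ _ := h
  have hl : logDist p d = Real.log (2 * Real.sin (π * x)) := by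
    rw [logDist, FA.OrderTheta.sineLog, hd, ZMod.val_natCast_of_lt (by omega),
      Real.log_mul two_ne_zero (by linarith : (0 : ℝ) < Real.sin (π * x)).ne']
  have hup : logDist p d ≤ Real.log 2 := by
    rw [hl]
    exact Real.log_le_log (by linarith) (by linarith [Real.sin_le_one (π * x)])
  have hlow : -Real.log ((p : ℝ) / 4 / (i + 1 : ℕ)) ≤ logDist p d := by
    rw [hl, ← Real.log_inv, show ((p : ℝ) / 4 / ((i + 1 : ℕ) : ℝ))⁻¹ = 4 * x by rw [hx]; field_simp]
    exact Real.log_le_log (by positivity) (by linarith)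
  have hlog2 : Real.log 2 ^ 2 ≤ 12 / 25 + 1 / 2000 := by
    nlinarith [Real.log_two_lt_d9, Real.log_nonneg (show (1 : ℝ) ≤ 2 by norm_num)]
  rcases le_total 0 (logDist p d) with h0 | h0
  · refine le_add_of_le_of_nonneg ((pow_le_pow_left₀ h0 hup 2).trans hlog2) ?_
    split_ifs <;> positivity
  · split_ifs with h4
    · have := pow_le_pow_left₀ (neg_nonneg.mpr h0) (show -logDist p d ≤ Real.log ((p : ℝ) / 4 / (i + 1 : ℕ)) by
        linarith) 2
      rw [neg_sq] at this
      linarith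
    · have : 0 ≤ logDist p d := by
        refine le_trans ?_ hlow
        rw [neg_nonneg]
        refine Real.log_nonpos (by positivity) ?_
        rw [div_div, div_le_one (by positivity)]
        exact_mod_cast (show p ≤ 4 * (i + 1) by omega)
      rw [le_antisymm h0 this]
      norm_num

/-- The sum of the squares. -/
theorem sum_logDist_sq_le (hm : p = 2 * m + 1) :
    ∑ d : (ZMod p)ˣ, logDist p d ^ 2 ≤ 2961 / 1000 * m + 5 := by
  have hp : p.Prime := Fact.out
  have : NeZero p := ⟨hp.ne_zero⟩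
  set F : ZMod p → ℂ := fun x => if h : x = 0 then 0 else ((logDist p (Units.mk0 x h) ^ 2 : ℝ) : ℂ) with hF
  have h := sum_eq_two_mul_half hm (F := F) (by simp [hF]) fun x => by
    simp only [hF]
    by_cases hx : x = 0
    · simp [hx]
    · rw [dif_neg hx, dif_neg (neg_ne_zero.mpr hx)]
      congr 2
      rw [← logDist_neg (Units.mk0 x hx)]
      exact congrArg _ (Units.ext rfl)
  rw [← sum_units_eq F (by simp [hF])] at h
  simp only [hF, dif_neg (Units.ne_zero _), Units.mk0_val, dif_neg (halfVal_ne_zero hm _)] at h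
  rw [← Complex.ofReal_sum, ← Complex.ofReal_sum, ← Complex.ofReal_ofNat, ← Complex.ofReal_mul,
    Complex.ofReal_inj] at h
  rw [h]
  set n := p / 4 with hn
  have hy : (n : ℝ) ≤ (p : ℝ) / 4 := by
    rw [le_div_iff₀ (by norm_num)]; exact_mod_cast (show n * 4 ≤ p by omega)
  have hy' : (p : ℝ) / 4 ≤ n + 1 := by
    rw [div_le_iff₀ (by norm_num)]; exact_mod_cast (show p ≤ (n + 1) * 4 by omega)
  have hb : ∑ i : Fin m, (if 4 * (i.1 + 1) ≤ p then Real.log ((p : ℝ) / 4 / (i.1 + 1 : ℕ)) ^ 2 else 0) ≤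
      2 * n + 2 := by
    rw [Fin.sum_univ_eq_sum_range (fun i => if 4 * (i + 1) ≤ p then Real.log ((p : ℝ) / 4 / (i + 1 : ℕ)) ^ 2 else 0) m,
      ← sum_filter]
    refine le_trans (le_of_eq ?_) (sum_log_sq_le hy hy')
    refine sum_nbij' (fun i => i + 1) (fun a => a - 1) ?_ ?_ ?_ ?_ (fun i _ => rfl) <;> intro i hi <;>
      simp only [mem_filter, mem_range, mem_Icc] at hi ⊢ <;> omega
  have hsum := sum_le_sum (s := (univ : Finset (Fin m))) fun i _ =>
    logDist_sq_le hm i.1 i.2 (Units.mk0 _ (halfVal_ne_zero hm i)) rfl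
  rw [sum_add_distrib, sum_const, card_univ, Fintype.card_fin, nsmul_eq_mul] at hsum
  have hpm : (p : ℝ) = 2 * m + 1 := by exact_mod_cast hm
  linarith

/-- Parseval. -/
theorem sum_norm_sq_charSum (f : (ZMod p)ˣ → ℝ) :
    ∑ χ : DirichletCharacter ℂ p, ‖∑ d : (ZMod p)ˣ, χ⁻¹ (d : ZMod p) * (f d : ℂ)‖ ^ 2 =
      (p - 1 : ℕ) * ∑ d : (ZMod p)ˣ, f d ^ 2 := by
  have : NeZero p := ⟨(Fact.out : p.Prime).ne_zero⟩
  have hterm : ∀ χ : DirichletCharacter ℂ p,
      ((‖∑ d : (ZMod p)ˣ, χ⁻¹ (d : ZMod p) * (f d : ℂ)‖ ^ 2 : ℝ) : ℂ) =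
      ∑ d : (ZMod p)ˣ, ∑ e : (ZMod p)ˣ, (f d : ℂ) * (f e : ℂ) * (χ ((d : ZMod p)⁻¹) * χ (e : ZMod p)) := fun χ => by
    rw [Complex.ofReal_pow, ← Complex.mul_conj', map_sum, sum_mul_sum]
    refine sum_congr rfl fun d _ => sum_congr rfl fun e _ => ?_
    rw [map_mul, Complex.conj_ofReal, starRingEnd_apply, MulChar.star_apply', inv_inv, MulChar.inv_apply']
    ring
  refine Complex.ofReal_injective ?_
  rw [Complex.ofReal_sum, sum_congr rfl fun χ _ => hterm χ, sum_comm, Complex.ofReal_mul, Complex.ofReal_natCast,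
    Complex.ofReal_sum, mul_sum]
  refine sum_congr rfl fun d _ => ?_
  rw [sum_comm, sum_congr rfl fun e _ => (mul_sum _ _ _).symm]
  simp only [DirichletCharacter.sum_char_inv_mul_char_eq ℂ d.isUnit, Units.val_inj, mul_ite, mul_zero,
    sum_ite_eq, mem_univ, if_true, Nat.totient_prime (Fact.out : p.Prime)]
  push_cast
  ring

variable (p) in
/-- The nontrivial even characters. -/
def evenSet : Finset (DirichletCharacter ℂ p) := univ.filter fun χ => χ.Even ∧ χ ≠ 1

/-- **The product over the even characters**. -/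
theorem prod_even_sq_le (hm : p = 2 * m + 1) (h80 : 80 ≤ m) :
    ∏ χ ∈ evenSet p, ‖DirichletCharacter.LFunction χ 1‖ ^ 2 ≤ (31 / 10 : ℝ) ^ (m - 1) := by
  have hp : p.Prime := Fact.out
  have hp0 : (0 : ℝ) < p := Nat.cast_pos.mpr hp.pos
  set S := evenSet p with hS
  have hcard : S.card = m - 1 := by
    have h1 := two_mul_card_evenChar p (show p ≠ 2 by omega)
    have h2 : S = (univ.filter fun χ : DirichletCharacter ℂ p => χ.Even).erase 1 := by
      ext χ; simp [hS, evenSet, and_comm]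
    have h3 : (univ.filter fun χ : DirichletCharacter ℂ p => χ.Even).card = m := by
      rw [← Fintype.card_subtype]
      rw [← Nat.card_eq_fintype_card] at h1 ⊢
      change 2 * Nat.card {χ : DirichletCharacter ℂ p // χ.Even} = p - 1 at h1
      omega
    rw [h2, card_erase_of_mem (mem_filter.mpr ⟨mem_univ _, even_one⟩), h3]
  have hsq : ∀ χ ∈ S, (p : ℝ) * ‖DirichletCharacter.LFunction χ 1‖ ^ 2 =
      ‖∑ d : (ZMod p)ˣ, χ⁻¹ (d : ZMod p) * (logDist p d : ℂ)‖ ^ 2 := fun χ hχ => by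
    simp only [hS, evenSet, mem_filter] at hχ
    rw [← norm_LFunction_even hχ.2.1 hχ.2.2, mul_pow, Real.sq_sqrt hp0.le]
  have hmean : ∑ χ ∈ S, ‖DirichletCharacter.LFunction χ 1‖ ^ 2 ≤ 2961 / 1000 * m + 5 := by
    refine le_of_mul_le_mul_left ?_ hp0
    rw [mul_sum, sum_congr rfl hsq]
    refine (sum_le_univ_sum_of_nonneg fun χ => sq_nonneg _).trans ?_
    rw [sum_norm_sq_charSum]
    exact mul_le_mul (by exact_mod_cast Nat.sub_le p 1) (sum_logDist_sq_le hm)
      (sum_nonneg fun d _ => sq_nonneg _) hp0.le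
  set c : ℝ := 31 / 10
  calc ∏ χ ∈ S, ‖DirichletCharacter.LFunction χ 1‖ ^ 2
      ≤ ∏ χ ∈ S, c * Real.exp (‖DirichletCharacter.LFunction χ 1‖ ^ 2 / c - 1) :=
        Finset.prod_le_prod (fun χ _ => sq_nonneg _) fun χ _ => by
          have h := Real.add_one_le_exp (‖DirichletCharacter.LFunction χ 1‖ ^ 2 / c - 1)
          rw [sub_add_cancel, div_le_iff₀ (by norm_num)] at h
          linarith
    _ = c ^ (m - 1) * Real.exp (∑ χ ∈ S, (‖DirichletCharacter.LFunction χ 1‖ ^ 2 / c - 1)) := by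
        rw [prod_mul_distrib, prod_const, hcard, Real.exp_sum]
    _ ≤ c ^ (m - 1) * 1 := by
        refine mul_le_mul_of_nonneg_left (Real.exp_le_one_iff.mpr ?_) (by positivity)
        rw [sum_sub_distrib, sum_const, hcard, nsmul_eq_mul, mul_one, ← sum_div, sub_nonpos,
          div_le_iff₀ (by norm_num), Nat.cast_sub (by omega)]
        have : (80 : ℝ) ≤ m := by exact_mod_cast h80
        push_cast
        simp only [c]
        linarith
    _ = c ^ (m - 1) := mul_one _

end FA.CycloGrowth
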