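import Mathlib.NumberTheory.NumberField.Cyclotomic.Basic
import Mathlib.NumberTheory.NumberField.CMField
import Mathlib.NumberTheory.NumberField.Discriminant.Different

/-!
# The discriminants of `ℚ(ζ_n)` and of its real subfield up to `exp(o(φ(n) log n))`

* `φ(n) ≤ N` forces `n ≤ (2N)!`, so `φ(n) → ∞`.
* `|log |d| - φ(n) log n| ≤ φ(n) (C(ε) + ε log n)`.
* `|d| ≤ 2^φ(n) |d⁺|²`: the different of `K/K⁺` contains `ζ - ζ⁻¹`, of absolute value at most `2` everywhere.
-/

set_option autoImplicit false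

noncomputable section

open NumberField IsCMField

namespace FA.CycloGrowth

/-- Small totient, small modulus. -/
theorem le_factorial_of_totient_le {n N : ℕ} (hn : n ≠ 0) (h : n.totient ≤ N) : n ≤ (2 * N).factorial := by
  refine Nat.le_of_dvd (Nat.factorial_pos _) ?_
  rw [Nat.dvd_iff_prime_pow_dvd_dvd]
  intro p k hp hk
  rcases Nat.eq_zero_or_pos k with rfl | hk0
  · simp
  refine Nat.dvd_factorial (pow_pos hp.pos k) ?_
  have h1 : (p ^ k).totient ≤ N :=
    (Nat.le_of_dvd (Nat.totient_pos.mpr (Nat.pos_of_ne_zero hn)) (Nat.totient_dvd_of_dvd hk)).trans h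
  rw [Nat.totient_prime_pow hp hk0] at h1
  have h2 : p ^ k = p ^ (k - 1) * p := by rw [← pow_succ, Nat.sub_add_cancel hk0]
  have h3 : p ^ (k - 1) * p ≤ 2 * (p ^ (k - 1) * (p - 1)) := by
    rw [mul_comm 2, mul_assoc]
    exact Nat.mul_le_mul_left _ (by have := hp.two_le; omega)
  omega

/-- A power of the denominator of the discriminant. -/
theorem prod_primeFactors_pow_le_pow (n j : ℕ) (hn : n ≠ 0) :
    (∏ p ∈ n.primeFactors, p ^ (n.totient / (p - 1))) ^ j ≤
      n ^ n.totient * (((j + 1) ^ (j + 1)) ^ n.totient) ^ j := by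
  rw [← Finset.prod_pow, ← pow_mul _ n.totient j]
  calc ∏ p ∈ n.primeFactors, (p ^ (n.totient / (p - 1))) ^ j
      ≤ ∏ p ∈ n.primeFactors, p ^ n.totient * (if p ≤ j then p else 1) ^ (n.totient * j) := by
        refine Finset.prod_le_prod' fun p hp => ?_
        have hp' := Nat.prime_of_mem_primeFactors hp
        rw [← pow_mul]
        split_ifs with hpj
        · refine le_trans ?_ (Nat.le_mul_of_pos_left _ (pow_pos hp'.pos _))
          exact Nat.pow_le_pow_right hp'.pos (Nat.mul_le_mul_right _ (Nat.div_le_self _ _))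
        · rw [one_pow, mul_one]
          refine Nat.pow_le_pow_right hp'.pos ?_
          calc n.totient / (p - 1) * j ≤ n.totient / (p - 1) * (p - 1) := Nat.mul_le_mul_left _ (by omega)
            _ ≤ n.totient := Nat.div_mul_le_self _ _
    _ = (∏ p ∈ n.primeFactors, p) ^ n.totient * (∏ p ∈ n.primeFactors with p ≤ j, p) ^ (n.totient * j) := by
        rw [Finset.prod_mul_distrib, Finset.prod_pow, Finset.prod_pow, Finset.prod_filter]
    _ ≤ n ^ n.totient * ((j + 1) ^ (j + 1)) ^ (n.totient * j) := by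
        refine Nat.mul_le_mul (Nat.pow_le_pow_left (Nat.le_of_dvd (Nat.pos_of_ne_zero hn)
          (Nat.prod_primeFactors_dvd n)) _) (Nat.pow_le_pow_left ?_ _)
        refine (Finset.prod_le_pow_card _ (fun p => p) (j + 1) fun p hp => ?_).trans
          (Nat.pow_le_pow_right j.succ_pos ?_)
        · exact ((Finset.mem_filter.mp hp).2).trans j.le_succ
        · refine (Finset.card_le_card (t := Finset.range (j + 1)) fun p hp => ?_).trans (Finset.card_range _).le
          exact Finset.mem_range.mpr (Nat.lt_succ_of_le (Finset.mem_filter.mp hp).2)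

/-- **The logarithm of the discriminant.** -/
theorem exists_abs_log_discr_le {ε : ℝ} (hε : 0 < ε) : ∃ C : ℝ, 0 ≤ C ∧
    ∀ (n : ℕ) [NeZero n] (K : Type*) [Field K] [NumberField K] [IsCyclotomicExtension {n} ℚ K],
      |Real.log ((discr K).natAbs : ℝ) - n.totient * Real.log n| ≤ n.totient * (C + ε * Real.log n) := by
  obtain ⟨j, hj⟩ := exists_nat_gt (1 / ε)
  have hj0 : (0 : ℝ) < j := lt_trans (by positivity) hj
  refine ⟨Real.log (((j + 1) ^ (j + 1) : ℕ) : ℝ), Real.log_nonneg (by exact_mod_cast Nat.one_le_pow _ _ j.succ_pos),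
    fun n _ K _ _ _ => ?_⟩
  have hdvd := Nat.prod_primeFactors_pow_totient_ediv_dvd (NeZero.pos n)
  have hd := IsCyclotomicExtension.Rat.natAbs_discr n K
  have h2 := prod_primeFactors_pow_le_pow n j (NeZero.ne n)
  set N := ∏ p ∈ n.primeFactors, p ^ (n.totient / (p - 1))
  set P := (j + 1) ^ (j + 1)
  have hN : 0 < N := Finset.prod_pos fun p hp => pow_pos (Nat.prime_of_mem_primeFactors hp).pos _
  have hd0 : 0 < (discr K).natAbs := Int.natAbs_pos.mpr (discr_ne_zero K)
  have h1 : (discr K).natAbs * N = n ^ n.totient := by rw [hd]; exact Nat.div_mul_cancel hdvd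
  have hn0 : (0 : ℝ) < n := by exact_mod_cast NeZero.pos n
  have hn1 : (1 : ℝ) ≤ n := by exact_mod_cast NeZero.one_le
  have hP : (0 : ℝ) < (P : ℝ) := by exact_mod_cast pow_pos j.succ_pos _
  have e1 := congrArg (fun t : ℕ => Real.log (t : ℝ)) h1
  simp only [Nat.cast_mul, Nat.cast_pow] at e1
  rw [Real.log_mul (by exact_mod_cast hd0.ne') (by exact_mod_cast hN.ne'), Real.log_pow] at e1
  have e2 : Real.log ((N ^ j : ℕ) : ℝ) ≤ Real.log ((n ^ n.totient * (P ^ n.totient) ^ j : ℕ) : ℝ) :=
    Real.log_le_log (by exact_mod_cast pow_pos hN j) (Nat.cast_le.mpr h2)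
  rw [Nat.cast_pow, Nat.cast_mul, Nat.cast_pow, Nat.cast_pow, Nat.cast_pow, Real.log_pow,
    Real.log_mul (pow_pos hn0 _).ne' (pow_pos (pow_pos hP _) _).ne', Real.log_pow, Real.log_pow, Real.log_pow] at e2
  have e3 : 0 ≤ Real.log (N : ℝ) := Real.log_nonneg (by exact_mod_cast hN)
  have hlogn : 0 ≤ Real.log (n : ℝ) := Real.log_nonneg hn1
  have hphi : (0 : ℝ) ≤ n.totient := Nat.cast_nonneg _
  have e4 : Real.log (N : ℝ) ≤ n.totient * (Real.log (P : ℝ) + ε * Real.log n) := by
    refine le_of_mul_le_mul_left (e2.trans ?_) hj0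
    have : 1 ≤ (j : ℝ) * ε := by
      rw [div_lt_iff₀ hε] at hj
      linarith
    nlinarith [mul_nonneg hphi hlogn]
  rw [abs_le]
  constructor
  · linarith
  · nlinarith [mul_nonneg hphi (Real.log_nonneg (show (1 : ℝ) ≤ P by exact_mod_cast Nat.one_le_pow _ _ j.succ_pos)),
      mul_nonneg (mul_nonneg hphi hlogn) hε.le]

variable (n : ℕ) [NeZero n] (K : Type*) [Field K] [NumberField K] [IsCyclotomicExtension {n} ℚ K] [IsCMField K]

open Polynomial in
/-- **`|d| ≤ 2^φ |d⁺|²`.** -/
theorem natAbs_discr_le_two_pow_mul (hn : 2 < n) :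
    (discr K).natAbs ≤ 2 ^ n.totient * (discr (maximalRealSubfield K)).natAbs ^ 2 := by
  have hζ := IsCyclotomicExtension.zeta_spec n ℚ K
  set x : 𝓞 K := hζ.toInteger
  set cK := RingOfIntegers.mapRingEquiv (complexConj K).toRingEquiv
  have hfix : complexConj K ((x + cK x : 𝓞 K) : K) = ((x + cK x : 𝓞 K) : K) := by
    show complexConj K ((x : K) + complexConj K (x : K)) = (x : K) + complexConj K (x : K)
    rw [map_add, complexConj_apply_apply, add_comm]
  obtain ⟨s, hs⟩ := (IsCMField.RingOfIntegers.complexConj_eq_self_iff K (x + cK x)).mp hfix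
  have hs' : algebraMap (𝓞 (maximalRealSubfield K)) (𝓞 K) s = x + cK x := RingOfIntegers.ext hs
  have hxx : x * cK x = 1 := by
    let φ : K →+* ℂ := Classical.choice (inferInstance : Nonempty _)
    refine RingOfIntegers.ext (φ.injective ?_)
    show φ ((x : K) * complexConj K (x : K)) = φ 1
    rw [map_mul, complexEmbedding_complexConj, map_one, Complex.mul_conj, Complex.normSq_eq_norm_sq,
      Complex.norm_eq_one_of_pow_eq_one (show φ (x : K) ^ n = 1 by
        rw [← map_pow]; exact (congrArg φ hζ.pow_eq_one).trans (map_one φ)) (NeZero.ne n)]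
    norm_num
  set f : (𝓞 (maximalRealSubfield K))[X] := X ^ 2 - C s * X + C 1 with hf
  have hfdeg : f.natDegree = 2 := by rw [hf]; compute_degree!
  have hfmonic : f.Monic := by rw [hf]; monicity!
  have hfx : aeval x f = 0 := by
    rw [hf]
    simp only [map_add, map_sub, map_mul, map_pow, aeval_X, aeval_C, map_one, hs']
    linear_combination -hxx
  have hint : IsIntegral (𝓞 (maximalRealSubfield K)) x := ⟨f, hfmonic, by rwa [← aeval_def]⟩
  have hmin : minpoly (𝓞 (maximalRealSubfield K)) x = f := by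
    refine (Polynomial.eq_of_monic_of_dvd_of_natDegree_le (minpoly.monic hint) hfmonic
      (minpoly.isIntegrallyClosed_dvd hint hfx) ?_).symm
    rw [hfdeg, minpoly.two_le_natDegree_iff hint]
    rintro ⟨r, hr⟩
    have hcx : complexConj K (x : K) = (x : K) := by
      rw [← hr]; exact (complexConj K).commutes (r : maximalRealSubfield K)
    have h2 : (x : K) ^ 2 = 1 := by
      have h := congrArg (fun t : 𝓞 K => (t : K)) hxx
      simp only [map_mul, map_one] at h
      change (x : K) * complexConj K (x : K) = 1 at h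
      rwa [hcx, ← pow_two] at h
    have := Nat.le_of_dvd two_pos ((hζ.pow_eq_one_iff_dvd 2).mp h2)
    omega
  have hgen : Algebra.adjoin (maximalRealSubfield K) {algebraMap (𝓞 K) K x} = ⊤ := by
    have h := IsCyclotomicExtension.adjoin_primitive_root_eq_top (A := ℚ) (B := K) hζ
    refine top_unique fun y _ => ?_
    have hy : y ∈ Algebra.adjoin ℚ ({IsCyclotomicExtension.zeta n ℚ K} : Set K) := by rw [h]; trivial
    exact Algebra.adjoin_induction (fun z hz => Algebra.subset_adjoin hz)
      (fun r => by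
        rw [IsScalarTower.algebraMap_apply ℚ (maximalRealSubfield K) K]
        exact Subalgebra.algebraMap_mem _ _)
      (fun _ _ _ _ => Subalgebra.add_mem _) (fun _ _ _ _ => Subalgebra.mul_mem _) hy
  have hmem : x - cK x ∈ differentIdeal (𝓞 (maximalRealSubfield K)) (𝓞 K) := by
    have h := aeval_derivative_mem_differentIdeal (A := 𝓞 (maximalRealSubfield K)) (K := maximalRealSubfield K)
      (L := K) x hgen
    rw [hmin, hf] at h
    simp only [derivative_mul, derivative_C, derivative_X_pow, derivative_X,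
      map_add, map_sub, map_mul, aeval_C, aeval_X, map_pow, map_ofNat, map_one, zero_mul, zero_add,
      add_zero, mul_one, Nat.cast_ofNat, derivative_one, hs'] at h
    convert h using 1
    ring
  have hne : x - cK x ≠ 0 := fun e => by
    have h2 : (x : K) ^ 2 = 1 := by
      rw [sub_eq_zero] at e
      have h := congrArg (fun t : 𝓞 K => (t : K)) hxx
      rw [← e] at h
      simpa [pow_two] using h
    have := Nat.le_of_dvd two_pos ((hζ.pow_eq_one_iff_dvd 2).mp h2)
    omega
  have hnorm : (Algebra.norm ℤ (x - cK x)).natAbs ≤ 2 ^ n.totient := by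
    have h1 : (((Algebra.norm ℤ (x - cK x)).natAbs : ℕ) : ℝ) =
        ‖algebraMap ℚ ℂ (Algebra.norm ℚ (((x - cK x : 𝓞 K)) : K))‖ := by
      rw [← Algebra.coe_norm_int, eq_ratCast, Rat.cast_intCast, Complex.norm_intCast, Nat.cast_natAbs, Int.cast_abs]
    rw [Algebra.norm_eq_prod_embeddings, norm_prod] at h1
    have h2 : ∏ φ : K →ₐ[ℚ] ℂ, ‖φ (((x - cK x : 𝓞 K)) : K)‖ ≤ ∏ _φ : K →ₐ[ℚ] ℂ, (2 : ℝ) := by
      refine Finset.prod_le_prod (fun _ _ => norm_nonneg _) fun φ _ => ?_
      have hx1 : ‖φ (x : K)‖ = 1 := Complex.norm_eq_one_of_pow_eq_one (n := n) (by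
        rw [← map_pow]; exact (congrArg φ hζ.pow_eq_one).trans (map_one φ)) (NeZero.ne n)
      show ‖φ ((x : K) - complexConj K (x : K))‖ ≤ 2
      rw [map_sub]
      refine (norm_sub_le _ _).trans ?_
      show ‖φ (x : K)‖ + ‖φ.toRingHom (complexConj K (x : K))‖ ≤ 2
      rw [complexEmbedding_complexConj, Complex.norm_conj]
      show ‖φ (x : K)‖ + ‖φ (x : K)‖ ≤ 2
      linarith
    rw [Finset.prod_const, Finset.card_univ, AlgHom.card, IsCyclotomicExtension.Rat.finrank n K] at h2
    exact_mod_cast h1 ▸ h2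
  have h := natAbs_discr_eq_absNorm_differentIdeal_mul_natAbs_discr_pow (maximalRealSubfield K)
    (𝓞 (maximalRealSubfield K)) K (𝓞 K)
  rw [Algebra.IsQuadraticExtension.finrank_eq_two (maximalRealSubfield K) K] at h
  rw [h]
  refine Nat.mul_le_mul_right _ (le_trans ?_ hnorm)
  rw [← Ideal.absNorm_span_singleton]
  refine Nat.le_of_dvd (Nat.pos_of_ne_zero fun e => hne ?_) (Ideal.absNorm_dvd_absNorm_of_le
    ((Ideal.span_singleton_le_iff_mem _).mpr hmem))
  rwa [Ideal.absNorm_eq_zero_iff, Ideal.span_singleton_eq_bot] at e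

end FA.CycloGrowth
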