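import Fermat.Agent.CycloGrowth.LogValueBounds
import Fermat.Agent.CycloGrowth.LogDiscrBounds
import Fermat.Agent.CycloGrowth.AnyConductorFormula

/-!
# Logarithms of the analytic class number formulas of `ℚ(ζ_n)` and of its real subfield

`log h - log h⁺` and `log (h⁺ R⁺)` are `φ(n)/4 · log n`, `log (h R)` is `φ(n)/2 · log n`, each up to
`φ(n) (C(ε) + ε log n) + 2 log n`.
-/

set_option autoImplicit false

noncomputable section

open NumberField
open scoped Classical Real

namespace FA.CycloGrowth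

/-- The characters other than `1`. -/
theorem card_ne_one_le (n : ℕ) [NeZero n] :
    ((Finset.univ : Finset (DirichletCharacter ℂ n)).erase 1).card ≤ n.totient :=
  (Finset.card_erase_le).trans (le_of_eq (by rw [Finset.card_univ, ← Nat.card_eq_fintype_card,
    DirichletCharacter.card_eq_totient_of_hasEnoughRootsOfUnity ℂ n]))

/-- A logarithm of a product of primitive values. -/
theorem abs_log_prod_le {n : ℕ} [NeZero n] {b : ℝ} (s : Finset (DirichletCharacter ℂ n))
    (hb : ∀ χ ∈ s, |Real.log ‖DirichletCharacter.LFunction χ.primitiveCharacter 1‖| ≤ b)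
    (hne : ∀ χ ∈ s, ‖DirichletCharacter.LFunction χ.primitiveCharacter 1‖ ≠ 0) :
    |Real.log (∏ χ ∈ s, ‖DirichletCharacter.LFunction χ.primitiveCharacter 1‖)| ≤ s.card * b := by
  rw [Real.log_prod hne]
  refine (Finset.abs_sum_le_sum_abs _ _).trans ((Finset.sum_le_sum hb).trans (le_of_eq ?_))
  rw [Finset.sum_const, nsmul_eq_mul]

/-- The value is not zero. -/
theorem norm_LFunction_primitive_ne_zero {n : ℕ} [NeZero n] {χ : DirichletCharacter ℂ n} (hχ : χ ≠ 1) :
    ‖DirichletCharacter.LFunction χ.primitiveCharacter 1‖ ≠ 0 := by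
  have : NeZero χ.conductor := ⟨DirichletCharacter.conductor_ne_zero χ⟩
  exact norm_ne_zero_iff.mpr (DirichletCharacter.LFunction_apply_one_ne_zero
    (FA.AbelianZeta.primitive_ne_one hχ))

/-- **The three logarithms.** -/
theorem exists_abs_log_classNumber_le {ε : ℝ} (hε : 0 < ε) : ∃ C : ℝ, 0 ≤ C ∧
    ∀ (n : ℕ) [NeZero n] (K : Type*) [Field K] [NumberField K] [IsCyclotomicExtension {n} ℚ K] [IsCMField K],
      2 < n →
      |Real.log (classNumber K / classNumber (maximalRealSubfield K) : ℝ) - n.totient / 4 * Real.log n| ≤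
        n.totient * (C + ε * Real.log n) + 2 * Real.log n ∧
      |Real.log (classNumber K * Units.regulator K : ℝ) - n.totient / 2 * Real.log n| ≤
        n.totient * (C + ε * Real.log n) + 2 * Real.log n ∧
      |Real.log (classNumber (maximalRealSubfield K) * Units.regulator (maximalRealSubfield K) : ℝ) -
        n.totient / 4 * Real.log n| ≤ n.totient * (C + ε * Real.log n) + 2 * Real.log n ∧
      |Real.log (Real.sqrt ((discr K).natAbs : ℝ)) - n.totient / 2 * Real.log n| ≤
        n.totient * (C + ε * Real.log n) + 2 * Real.log n ∧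
      |Real.log (Real.sqrt ((discr (maximalRealSubfield K)).natAbs : ℝ)) - n.totient / 4 * Real.log n| ≤
        n.totient * (C + ε * Real.log n) + 2 * Real.log n := by
  obtain ⟨CL, hCL, hL⟩ := exists_abs_log_norm_primitive_le (show 0 < ε / 4 by positivity)
  obtain ⟨CD, hCD, hD⟩ := exists_abs_log_discr_le (show 0 < ε / 4 by positivity)
  refine ⟨2 * CL + CD + 2 * Real.log (2 * π) + 2, by
    have : 0 ≤ Real.log (2 * π) := Real.log_nonneg (by nlinarith [Real.pi_gt_three])
    positivity, fun n _ K _ _ _ _ hn => ?_⟩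
  obtain ⟨k, hk⟩ : ∃ k, n.totient = 2 * k := (Nat.totient_even hn).two_dvd
  obtain ⟨j, rfl⟩ : ∃ j, k = j + 1 := ⟨k - 1, by have := Nat.totient_pos.mpr (NeZero.pos n); omega⟩
  have hcard : (oddChars n).card = j + 1 := by have := two_mul_card_oddChars n hn; omega
  -- the data of the two class number formulas
  have hcplx : InfinitePlace.nrComplexPlaces K = j + 1 := by
    rw [IsCyclotomicExtension.Rat.nrComplexPlaces_eq_totient_div_two (n := n) K, hk]
    omega
  have hreal : InfinitePlace.nrRealPlaces K = 0 := IsCyclotomicExtension.Rat.nrRealPlaces_eq_zero (n := n) K hn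
  have hrank : Units.rank K = j := by
    rw [Units.rank, InfinitePlace.card_eq_nrRealPlaces_add_nrComplexPlaces, hreal, hcplx]
    omega
  have hreg := IsCMField.regulator_div_regulator_eq_two_pow_mul_indexRealUnits_inv K
  rw [div_eq_iff (Units.regulator_ne_zero _), hrank] at hreg
  have hrel := classNumber_real_mul_eq n K hn hk
  have hfull : (∏ χ ∈ (Finset.univ : Finset (DirichletCharacter ℂ n)).erase 1,
      ‖DirichletCharacter.LFunction χ.primitiveCharacter 1‖) * (Units.torsionOrder K *
        Real.sqrt ((discr K).natAbs : ℝ)) = (2 * π) ^ (j + 1) * (classNumber K * Units.regulator K) := by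
    have h := congrArg (fun z : ℂ => ‖z‖) (FA.Summary.classNumberFormula_cyclotomic n K)
    simp only [norm_prod, Complex.norm_real, Real.norm_eq_abs, dedekindZeta_residue_def, hreal, hcplx, pow_zero,
      one_mul] at h
    rw [show |((discr K : ℤ) : ℝ)| = ((discr K).natAbs : ℝ) by rw [Nat.cast_natAbs, Int.cast_abs],
      abs_of_nonneg (div_nonneg (mul_nonneg (mul_nonneg (pow_nonneg (by positivity) _) (Units.regulator_pos K).le)
        (Nat.cast_nonneg _)) (by positivity))] at h
    rw [h, div_mul_cancel₀ _ (mul_pos (by exact_mod_cast Units.torsionOrder_pos K)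
      (Real.sqrt_pos.mpr (by exact_mod_cast Int.natAbs_pos.mpr (discr_ne_zero K)))).ne']
    ring
  have hlogodd := abs_log_prod_le (oddChars n) (fun χ hχ => hL n χ (ne_one_of_mem_oddChars n hχ))
    fun χ hχ => norm_LFunction_primitive_ne_zero (ne_one_of_mem_oddChars n hχ)
  have hlogall := abs_log_prod_le ((Finset.univ : Finset (DirichletCharacter ℂ n)).erase 1)
    (fun χ hχ => hL n χ (Finset.mem_erase.mp hχ).1)
    fun χ hχ => norm_LFunction_primitive_ne_zero (Finset.mem_erase.mp hχ).1
  have hP1 : 0 < ∏ χ ∈ oddChars n, ‖DirichletCharacter.LFunction χ.primitiveCharacter 1‖ :=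
    Finset.prod_pos fun χ hχ => lt_of_le_of_ne (norm_nonneg _)
      (norm_LFunction_primitive_ne_zero (ne_one_of_mem_oddChars n hχ)).symm
  have hP2 : 0 < ∏ χ ∈ (Finset.univ : Finset (DirichletCharacter ℂ n)).erase 1,
      ‖DirichletCharacter.LFunction χ.primitiveCharacter 1‖ :=
    Finset.prod_pos fun χ hχ => lt_of_le_of_ne (norm_nonneg _)
      (norm_LFunction_primitive_ne_zero (Finset.mem_erase.mp hχ).1).symm
  rw [hcard, Nat.cast_add, Nat.cast_one] at hlogodd
  replace hlogall := hlogall.trans (mul_le_mul_of_nonneg_right (Nat.cast_le.mpr (card_ne_one_le n))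
    (add_nonneg hCL (mul_nonneg (by positivity) (Real.log_nonneg (by exact_mod_cast NeZero.one_le)))))
  have hdK := hD n K
  -- the two discriminants
  have hd : (0 : ℝ) < ((discr K).natAbs : ℝ) := by exact_mod_cast Int.natAbs_pos.mpr (discr_ne_zero K)
  have hd' : (0 : ℝ) < ((discr (maximalRealSubfield K)).natAbs : ℝ) := by
    exact_mod_cast Int.natAbs_pos.mpr (discr_ne_zero _)
  have hd1 : 2 * Real.log ((discr (maximalRealSubfield K)).natAbs : ℝ) ≤ Real.log ((discr K).natAbs : ℝ) := by
    have h := Real.log_le_log (pow_pos hd' 2) (show ((discr (maximalRealSubfield K)).natAbs : ℝ) ^ 2 ≤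
        ((discr K).natAbs : ℝ) by exact_mod_cast natAbs_discr_plus_sq_le K)
    rwa [Real.log_pow, Nat.cast_ofNat] at h
  have hd2 : Real.log ((discr K).natAbs : ℝ) ≤
      n.totient * Real.log 2 + 2 * Real.log ((discr (maximalRealSubfield K)).natAbs : ℝ) := by
    have h := Real.log_le_log hd (show ((discr K).natAbs : ℝ) ≤
        2 ^ n.totient * ((discr (maximalRealSubfield K)).natAbs : ℝ) ^ 2 by
      exact_mod_cast natAbs_discr_le_two_pow_mul n K hn)
    rwa [Real.log_mul (pow_ne_zero _ two_ne_zero) (pow_pos hd' 2).ne', Real.log_pow, Real.log_pow,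
      Nat.cast_ofNat] at h
  have hw : Real.log (Units.torsionOrder K : ℝ) ∈ Set.Icc 0 (Real.log 2 + Real.log n) := by
    refine ⟨Real.log_nonneg (by exact_mod_cast Units.torsionOrder_pos K), ?_⟩
    rw [← Real.log_mul two_ne_zero (by exact_mod_cast NeZero.ne n)]
    refine Real.log_le_log (by exact_mod_cast Units.torsionOrder_pos K) ?_
    rw [IsCyclotomicExtension.Rat.torsionOrder_eq (n := n) (K := K)]
    split_ifs
    · linarith [Nat.cast_nonneg (α := ℝ) n]
    · push_cast
      exact le_rfl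
  have hQ : Real.log (IsCMField.indexRealUnits K : ℝ) ∈ Set.Icc 0 (Real.log 2) := by
    rcases IsCMField.indexRealUnits_eq_one_or_two K with e | e <;> rw [e] <;>
      simp [Real.log_nonneg (show (1 : ℝ) ≤ 2 by norm_num)]
  have hQpos : (0 : ℝ) < IsCMField.indexRealUnits K := by
    rcases IsCMField.indexRealUnits_eq_one_or_two K with e | e <;> rw [e] <;> norm_num
  have hwpos : (0 : ℝ) < Units.torsionOrder K := by exact_mod_cast Units.torsionOrder_pos K
  have hh : (0 : ℝ) < classNumber K := by exact_mod_cast classNumber_pos _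
  have hh' : (0 : ℝ) < classNumber (maximalRealSubfield K) := by exact_mod_cast classNumber_pos _
  have hR : 0 < Units.regulator K := Units.regulator_pos K
  have hR' : 0 < Units.regulator (maximalRealSubfield K) := Units.regulator_pos _
  -- take logarithms
  have e1 := congrArg Real.log hrel
  rw [Real.log_mul (mul_pos (mul_pos hP1 hh') (Real.sqrt_pos.mpr hd)).ne' (mul_pos hwpos hQpos).ne',
    Real.log_mul (mul_pos hP1 hh').ne' (Real.sqrt_pos.mpr hd).ne', Real.log_mul hP1.ne' hh'.ne',
    Real.log_mul hwpos.ne' hQpos.ne', Real.log_mul (mul_pos (pow_pos Real.two_pi_pos _) hh).ne'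
    (Real.sqrt_pos.mpr hd').ne', Real.log_mul (pow_pos Real.two_pi_pos _).ne' hh.ne', Real.log_pow,
    Real.log_sqrt hd.le, Real.log_sqrt hd'.le] at e1
  have e2 := congrArg Real.log hfull
  rw [Real.log_mul hP2.ne' (mul_pos hwpos (Real.sqrt_pos.mpr hd)).ne',
    Real.log_mul hwpos.ne' (Real.sqrt_pos.mpr hd).ne', Real.log_mul (pow_pos Real.two_pi_pos _).ne'
    (mul_pos hh hR).ne', Real.log_pow, Real.log_sqrt hd.le] at e2
  have e3 := congrArg Real.log hreg
  rw [Real.log_mul (mul_pos (pow_pos two_pos _) (inv_pos.mpr hQpos)).ne' hR'.ne',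
    Real.log_mul (pow_pos two_pos _).ne' (inv_pos.mpr hQpos).ne', Real.log_pow, Real.log_inv] at e3
  rw [Real.log_div hh.ne' hh'.ne', Real.log_mul hh.ne' hR.ne', Real.log_mul hh'.ne' hR'.ne',
    Real.log_sqrt hd.le, Real.log_sqrt hd'.le]
  rw [Real.log_mul hh.ne' hR.ne'] at e2
  -- bookkeeping
  have hkR : (n.totient : ℝ) = 2 * ((j : ℝ) + 1) := by exact_mod_cast hk
  have hlog2 : 0 ≤ Real.log 2 ∧ Real.log 2 ≤ Real.log (2 * π) :=
    ⟨Real.log_nonneg (by norm_num), Real.log_le_log two_pos (by nlinarith [Real.pi_gt_three])⟩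
  have hlog1 : Real.log 2 ≤ 1 := (Real.log_le_sub_one_of_pos two_pos).trans (by norm_num)
  have hlogn : 0 ≤ Real.log n := Real.log_nonneg (by exact_mod_cast NeZero.one_le)
  have hj : (0 : ℝ) ≤ j := Nat.cast_nonneg j
  have hX : 0 ≤ ε * Real.log n := mul_nonneg hε.le hlogn
  simp only [Set.mem_Icc] at hw hQ
  push_cast at e1 e2 e3 hlogodd hlogall hdK hd2 ⊢
  rw [hkR] at hlogall hdK hd2 ⊢
  rw [abs_le] at hlogodd hlogall hdK
  simp only [abs_le]
  refine ⟨⟨?_, ?_⟩, ⟨?_, ?_⟩, ⟨?_, ?_⟩, ⟨?_, ?_⟩, ⟨?_, ?_⟩⟩ <;>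
    linarith [mul_nonneg hj hCL, mul_nonneg hj hCD, mul_nonneg hj hX, mul_nonneg hj hlog2.1,
      mul_le_mul_of_nonneg_left hlog2.2 hj, mul_le_mul_of_nonneg_left hlog1 hj]

end FA.CycloGrowth
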