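import Fermat.Agent.CycloGrowth.Certificate

/-!
# `h/h⁺ ≠ 1` for `23 ≤ p < 200`, `p ≠ 37`

Generated certificates: for each prime a factor `q` of the relative class number and a kernel vector modulo `q`.
-/

set_option autoImplicit false

noncomputable section

namespace FA.CycloGrowth

theorem kernelCheck_23 : ∃ v y q, kernelCheck 23 11 v y q = true :=
  ⟨[1, 12, 8, 6, 14, 4, 10, 3, 18, 7, 21],
    [2, 2, 2, 2, 1, 2, 1, 2, 2, 1, 1],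
    3,
    by decide +kernel⟩

theorem kernelCheck_29 : ∃ v y q, kernelCheck 29 14 v y q = true :=
  ⟨[1, 15, 10, 22, 6, 5, 25, 11, 13, 3, 8, 17, 9, 27],
    [1, 1, 0, 0, 1, 1, 0, 1, 1, 0, 0, 1, 0, 0],
    2,
    by decide +kernel⟩

theorem kernelCheck_31 : ∃ v y q, kernelCheck 31 15 v y q = true :=
  ⟨[1, 16, 21, 8, 25, 26, 9, 4, 7, 28, 17, 13, 12, 20, 29],
    [2, 2, 1, 2, 2, 1, 2, 2, 2, 2, 1, 1, 1, 2, 1],
    3,
    by decide +kernel⟩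

theorem kernelCheck_41 : ∃ v y q, kernelCheck 41 20 v y q = true :=
  ⟨[1, 21, 14, 31, 33, 7, 6, 36, 32, 37, 15, 24, 19, 3, 11, 18, 29, 16, 13, 39],
    [4, 7, 10, 10, 5, 5, 8, 9, 1, 4, 9, 5, 7, 4, 2, 5, 3, 3, 1, 0],
    11,
    by decide +kernel⟩

theorem kernelCheck_43 : ∃ v y q, kernelCheck 43 21 v y q = true :=
  ⟨[1, 22, 29, 11, 26, 36, 37, 27, 24, 13, 4, 18, 10, 40, 23, 35, 38, 12, 34, 28, 41],
    [12, 183, 103, 147, 62, 145, 80, 125, 77, 202, 23, 30, 187, 2, 116, 135, 85, 176, 52, 100, 1],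
    211,
    by decide +kernel⟩

theorem kernelCheck_47 : ∃ v y q, kernelCheck 47 23 v y q = true :=
  ⟨[1, 24, 16, 12, 19, 8, 27, 6, 21, 33, 30, 4, 29, 37, 22, 3, 36, 34, 5, 40, 9, 15, 45],
    [4, 4, 4, 4, 1, 4, 4, 4, 4, 1, 1, 4, 1, 4, 1, 4, 4, 4, 1, 1, 4, 1, 1],
    5,
    by decide +kernel⟩

theorem kernelCheck_53 : ∃ v y q, kernelCheck 53 26 v y q = true :=
  ⟨[1, 27, 18, 40, 32, 9, 38, 20, 6, 16, 29, 31, 49, 19, 46, 10, 25, 3, 14, 8, 48, 41, 30, 42, 17, 51],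
    [1619, 2041, 2887, 1615, 3750, 3336, 3674, 2066, 340, 3329, 4378, 3423, 4444, 701, 3710, 4538, 3419, 4552, 2713,
      2409, 558, 4202, 370, 2057, 2521, 1],
    4889,
    by decide +kernel⟩

theorem kernelCheck_59 : ∃ v y q, kernelCheck 59 29 v y q = true :=
  ⟨[1, 30, 20, 15, 12, 10, 17, 37, 46, 6, 43, 5, 50, 38, 4, 48, 7, 23, 28, 3, 45, 51, 18, 32, 26, 25, 35, 19, 57],
    [1, 2, 1, 1, 1, 2, 1, 2, 1, 2, 2, 1, 2, 2, 1, 1, 1, 2, 1, 1, 1, 1, 2, 2, 1, 1, 1, 1, 1],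
    3,
    by decide +kernel⟩

theorem kernelCheck_61 : ∃ v y q, kernelCheck 61 30 v y q = true :=
  ⟨[1, 31, 41, 46, 49, 51, 35, 23, 34, 55, 50, 56, 47, 48, 57, 42, 18, 17, 45, 58, 32, 25, 8, 28, 22, 54, 52, 24,
      40, 59],
    [30, 18, 39, 8, 8, 31, 37, 40, 33, 40, 25, 32, 20, 21, 32, 36, 31, 1, 39, 36, 25, 2, 10, 37, 36, 18, 9, 23, 25,
      1],
    41,
    by decide +kernel⟩

theorem kernelCheck_67 : ∃ v y q, kernelCheck 67 33 v y q = true :=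
  ⟨[1, 34, 45, 17, 27, 56, 48, 42, 15, 47, 61, 28, 31, 24, 9, 21, 4, 41, 60, 57, 16, 64, 35, 14, 59, 49, 5, 12, 37,
      38, 13, 44, 65],
    [1199, 9648, 2143, 3186, 3755, 6483, 10849, 8705, 7758, 9392, 5703, 596, 8362, 10166, 6924, 9458, 12110, 613,
      7675, 3862, 3317, 8229, 6005, 10369, 8958, 2999, 9800, 5401, 4144, 1621, 11372, 4882, 1],
    12739,
    by decide +kernel⟩

theorem kernelCheck_71 : ∃ v y q, kernelCheck 71 35 v y q = true :=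
  ⟨[1, 36, 24, 18, 57, 12, 61, 9, 8, 64, 13, 6, 11, 66, 19, 40, 46, 4, 15, 32, 44, 42, 34, 3, 54, 41, 50, 33, 49,
      45, 55, 20, 28, 23, 69],
    [6, 6, 6, 6, 6, 6, 1, 6, 6, 6, 1, 6, 1, 1, 6, 6, 1, 6, 6, 6, 1, 1, 1, 6, 6, 1, 6, 1, 6, 6, 1, 6, 1, 1, 1],
    7,
    by decide +kernel⟩

theorem kernelCheck_73 : ∃ v y q, kernelCheck 73 36 v y q = true :=
  ⟨[1, 37, 49, 55, 44, 61, 21, 64, 65, 22, 20, 67, 45, 47, 39, 32, 43, 69, 50, 11, 7, 10, 54, 70, 38, 59, 46, 60,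
      68, 56, 33, 16, 31, 58, 48, 71],
    [86, 28, 62, 28, 20, 62, 20, 28, 61, 20, 57, 62, 32, 20, 57, 28, 69, 61, 62, 20, 57, 57, 62, 62, 27, 32, 27, 20,
      32, 57, 32, 28, 69, 69, 27, 1],
    89,
    by decide +kernel⟩

theorem kernelCheck_79 : ∃ v y q, kernelCheck 79 39 v y q = true :=
  ⟨[1, 40, 53, 20, 16, 66, 34, 10, 44, 8, 36, 33, 73, 17, 58, 5, 14, 22, 25, 4, 64, 18, 55, 56, 19, 76, 41, 48, 30,
      29, 51, 42, 12, 7, 70, 11, 47, 52, 77],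
    [4, 4, 1, 4, 4, 1, 1, 4, 4, 4, 4, 1, 4, 1, 1, 4, 1, 4, 4, 4, 4, 4, 4, 1, 4, 4, 1, 1, 1, 1, 4, 4, 1, 1, 1, 4, 1,
      4, 1],
    5,
    by decide +kernel⟩

theorem kernelCheck_83 : ∃ v y q, kernelCheck 83 41 v y q = true :=
  ⟨[1, 42, 28, 21, 50, 14, 12, 52, 37, 25, 68, 7, 32, 6, 72, 26, 44, 60, 35, 54, 4, 34, 65, 45, 10, 16, 40, 3, 63,
      36, 75, 13, 78, 22, 19, 30, 9, 59, 66, 27, 81],
    [1, 2, 1, 1, 2, 2, 1, 2, 1, 1, 1, 1, 2, 2, 2, 1, 1, 2, 2, 2, 1, 2, 1, 2, 1, 1, 1, 1, 1, 1, 1, 2, 1, 2, 2, 1, 1,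
      1, 2, 1, 1],
    3,
    by decide +kernel⟩

theorem kernelCheck_89 : ∃ v y q, kernelCheck 89 44 v y q = true :=
  ⟨[1, 45, 30, 67, 18, 15, 51, 78, 10, 9, 81, 52, 48, 70, 6, 39, 21, 5, 75, 49, 17, 85, 31, 26, 57, 24, 33, 35, 43,
      3, 23, 64, 27, 55, 28, 47, 77, 82, 16, 69, 76, 53, 29, 87],
    [68, 22, 57, 22, 104, 57, 57, 22, 9, 104, 91, 57, 64, 57, 64, 22, 104, 9, 49, 104, 9, 91, 57, 57, 91, 64, 49,
      57, 49, 64, 64, 22, 56, 104, 64, 9, 49, 49, 22, 104, 56, 9, 56, 1],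
    113,
    by decide +kernel⟩

theorem kernelCheck_97 : ∃ v y q, kernelCheck 97 48 v y q = true :=
  ⟨[1, 49, 65, 73, 39, 81, 14, 85, 54, 68, 53, 89, 15, 7, 13, 91, 40, 27, 46, 34, 37, 75, 38, 93, 66, 56, 18, 52,
      87, 55, 72, 94, 50, 20, 61, 62, 21, 23, 5, 17, 71, 67, 88, 86, 69, 19, 64, 95],
    [151, 135, 252, 179, 416, 488, 79, 310, 257, 137, 562, 194, 402, 327, 525, 5, 230, 516, 166, 421, 495, 493, 340,
      394, 482, 174, 40, 331, 519, 55, 278, 28, 74, 134, 405, 120, 269, 468, 94, 165, 339, 464, 353, 222, 295, 173,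
      532, 1],
    577,
    by decide +kernel⟩

theorem kernelCheck_101 : ∃ v y q, kernelCheck 101 50 v y q = true :=
  ⟨[1, 51, 34, 76, 81, 17, 29, 38, 45, 91, 46, 59, 70, 65, 27, 19, 6, 73, 16, 96, 77, 23, 22, 80, 97, 35, 15, 83,
      7, 64, 88, 60, 49, 3, 26, 87, 71, 8, 57, 48, 69, 89, 47, 62, 9, 11, 43, 40, 33, 99],
    [2, 1, 4, 4, 2, 0, 4, 2, 1, 0, 3, 4, 2, 0, 3, 2, 0, 1, 3, 2, 1, 3, 2, 1, 4, 3, 3, 4, 4, 3, 2, 0, 4, 4, 3, 0, 3,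
      2, 0, 3, 0, 1, 4, 0, 4, 3, 1, 3, 1, 0],
    5,
    by decide +kernel⟩

theorem kernelCheck_103 : ∃ v y q, kernelCheck 103 51 v y q = true :=
  ⟨[1, 52, 69, 26, 62, 86, 59, 13, 23, 31, 75, 43, 8, 81, 55, 58, 97, 63, 38, 67, 54, 89, 9, 73, 33, 4, 42, 92, 32,
      79, 10, 29, 25, 100, 53, 83, 39, 19, 37, 85, 98, 27, 12, 96, 87, 56, 57, 88, 82, 68, 101],
    [4, 4, 1, 4, 1, 1, 4, 4, 4, 1, 1, 1, 4, 4, 4, 4, 4, 4, 4, 1, 1, 1, 4, 1, 4, 4, 1, 4, 4, 4, 1, 4, 4, 4, 1, 4, 1,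
      4, 1, 1, 4, 1, 1, 1, 1, 4, 1, 1, 4, 4, 1],
    5,
    by decide +kernel⟩

theorem kernelCheck_107 : ∃ v y q, kernelCheck 107 53 v y q = true :=
  ⟨[1, 54, 36, 27, 43, 18, 46, 67, 12, 75, 39, 9, 33, 23, 50, 87, 63, 6, 62, 91, 51, 73, 14, 58, 30, 70, 4, 65, 48,
      25, 38, 97, 13, 85, 52, 3, 81, 31, 11, 99, 47, 79, 5, 90, 88, 7, 41, 29, 83, 15, 21, 35, 105],
    [1, 2, 1, 1, 2, 2, 2, 2, 1, 1, 1, 1, 1, 1, 2, 1, 2, 2, 1, 2, 2, 2, 1, 2, 1, 2, 1, 2, 1, 1, 2, 2, 1, 1, 1, 1, 1,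
      2, 1, 1, 1, 1, 2, 1, 2, 2, 1, 1, 1, 2, 2, 1, 1],
    3,
    by decide +kernel⟩

theorem kernelCheck_109 : ∃ v y q, kernelCheck 109 54 v y q = true :=
  ⟨[1, 55, 73, 82, 22, 91, 78, 41, 97, 11, 10, 100, 42, 39, 80, 75, 77, 103, 23, 60, 26, 5, 19, 50, 48, 21, 105,
      74, 94, 40, 102, 92, 76, 93, 81, 106, 56, 66, 14, 30, 8, 13, 71, 57, 63, 64, 58, 25, 89, 24, 62, 65, 72, 107],
    [12, 5, 3, 14, 3, 5, 3, 12, 3, 5, 12, 14, 12, 5, 3, 3, 5, 5, 12, 14, 3, 3, 5, 12, 3, 3, 3, 14, 14, 5, 14, 5, 12,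
      14, 3, 14, 5, 3, 12, 12, 5, 5, 14, 5, 3, 14, 5, 3, 3, 5, 5, 5, 5, 1],
    17,
    by decide +kernel⟩

theorem kernelCheck_113 : ∃ v y q, kernelCheck 113 56 v y q = true :=
  ⟨[1, 57, 38, 85, 68, 19, 97, 99, 88, 34, 72, 66, 87, 105, 98, 106, 20, 44, 6, 17, 70, 36, 59, 33, 104, 100, 67,
      109, 39, 49, 62, 53, 24, 10, 42, 22, 55, 3, 29, 65, 102, 35, 92, 18, 108, 86, 101, 73, 30, 52, 82, 50, 32, 90,
      37, 111],
    [1, 1, 0, 0, 1, 1, 0, 0, 1, 0, 0, 0, 0, 1, 1, 1, 1, 1, 0, 1, 1, 1, 1, 1, 1, 1, 0, 0, 1, 1, 0, 0, 1, 0, 1, 1, 0,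
      1, 1, 1, 0, 1, 1, 1, 0, 0, 0, 1, 1, 0, 1, 0, 0, 0, 0, 0],
    2,
    by decide +kernel⟩

theorem kernelCheck_127 : ∃ v y q, kernelCheck 127 63 v y q = true :=
  ⟨[1, 64, 85, 32, 51, 106, 109, 16, 113, 89, 104, 53, 88, 118, 17, 8, 15, 120, 107, 108, 121, 52, 116, 90, 61, 44,
      80, 59, 92, 72, 41, 4, 77, 71, 98, 60, 103, 117, 114, 54, 31, 124, 65, 26, 48, 58, 100, 45, 70, 94, 5, 22, 12,
      40, 97, 93, 78, 46, 28, 36, 25, 84, 125],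
    [4, 4, 1, 4, 1, 1, 1, 4, 4, 1, 4, 1, 4, 1, 4, 4, 4, 4, 4, 1, 4, 4, 1, 1, 4, 4, 1, 1, 1, 4, 4, 4, 1, 4, 4, 4, 4,
      4, 1, 1, 4, 4, 1, 4, 1, 1, 4, 1, 4, 4, 1, 4, 1, 1, 1, 1, 1, 1, 1, 4, 4, 4, 1],
    5,
    by decide +kernel⟩

theorem kernelCheck_131 : ∃ v y q, kernelCheck 131 65 v y q = true :=
  ⟨[1, 66, 44, 33, 105, 22, 75, 82, 102, 118, 12, 11, 121, 103, 35, 41, 54, 51, 69, 59, 25, 6, 57, 71, 21, 126, 34,
      117, 122, 83, 93, 86, 4, 27, 15, 91, 85, 100, 84, 95, 16, 78, 64, 3, 99, 94, 92, 101, 123, 76, 18, 63, 89, 17,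
      81, 124, 23, 61, 20, 107, 58, 112, 52, 43, 129],
    [2, 1, 0, 2, 0, 1, 2, 1, 2, 1, 0, 1, 2, 0, 2, 0, 0, 1, 2, 1, 1, 1, 1, 1, 2, 0, 2, 0, 2, 1, 1, 1, 0, 2, 1, 2, 1,
      2, 1, 1, 1, 2, 0, 0, 2, 0, 1, 0, 2, 1, 0, 0, 1, 2, 0, 1, 1, 1, 0, 2, 1, 0, 0, 0, 0],
    3,
    by decide +kernel⟩

theorem kernelCheck_137 : ∃ v y q, kernelCheck 137 68 v y q = true :=
  ⟨[1, 69, 46, 103, 55, 23, 98, 120, 61, 96, 25, 80, 116, 49, 64, 60, 129, 99, 101, 48, 124, 81, 6, 40, 11, 58, 66,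
      93, 52, 32, 84, 30, 54, 133, 47, 118, 100, 119, 130, 24, 127, 62, 51, 109, 67, 3, 35, 20, 14, 74, 43, 29, 106,
      33, 5, 115, 125, 26, 72, 16, 9, 42, 87, 15, 78, 27, 45, 135],
    [11, 13, 9, 16, 15, 15, 13, 4, 13, 8, 13, 8, 9, 16, 16, 1, 4, 16, 4, 2, 15, 16, 8, 2, 4, 15, 15, 4, 15, 4, 9,
      13, 15, 1, 8, 4, 4, 1, 13, 9, 2, 8, 9, 4, 8, 2, 15, 9, 16, 1, 2, 8, 15, 8, 8, 1, 2, 8, 1, 1, 4, 15, 16, 16,
      16, 8, 15, 1],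
    17,
    by decide +kernel⟩

theorem kernelCheck_139 : ∃ v y q, kernelCheck 139 69 v y q = true :=
  ⟨[1, 70, 93, 35, 28, 116, 20, 87, 31, 14, 38, 58, 107, 10, 102, 113, 90, 85, 22, 7, 53, 19, 133, 29, 89, 123,
      103, 5, 24, 51, 9, 126, 59, 45, 4, 112, 124, 11, 82, 73, 78, 96, 97, 79, 34, 136, 71, 84, 122, 114, 30, 131,
      21, 121, 91, 72, 100, 12, 33, 95, 98, 74, 64, 63, 77, 99, 83, 92, 137],
    [1, 2, 2, 1, 1, 1, 1, 2, 1, 2, 1, 2, 1, 2, 2, 1, 2, 2, 2, 1, 2, 2, 2, 1, 1, 2, 2, 1, 1, 1, 1, 2, 2, 1, 1, 1, 1,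
      1, 2, 2, 1, 1, 2, 1, 1, 1, 1, 2, 1, 2, 1, 1, 2, 1, 1, 2, 1, 2, 2, 2, 2, 2, 1, 1, 1, 1, 1, 2, 1],
    3,
    by decide +kernel⟩

theorem kernelCheck_149 : ∃ v y q, kernelCheck 149 74 v y q = true :=
  ⟨[1, 75, 50, 112, 30, 25, 64, 56, 116, 15, 122, 87, 23, 32, 10, 28, 114, 58, 102, 82, 71, 61, 13, 118, 6, 86,
      138, 16, 36, 5, 125, 14, 140, 57, 132, 29, 145, 51, 107, 41, 40, 110, 52, 105, 53, 81, 130, 59, 73, 3, 38, 43,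
      45, 69, 84, 8, 34, 18, 48, 77, 22, 137, 123, 7, 94, 70, 129, 103, 54, 66, 21, 89, 49, 147],
    [1, 0, 0, 2, 1, 1, 2, 0, 2, 0, 0, 0, 0, 0, 0, 1, 1, 0, 1, 2, 0, 2, 0, 2, 1, 2, 0, 1, 1, 1, 1, 0, 1, 0, 2, 1, 1,
      0, 1, 0, 0, 2, 0, 0, 2, 1, 2, 0, 1, 0, 0, 0, 2, 2, 0, 0, 0, 0, 0, 0, 2, 0, 1, 2, 0, 0, 1, 2, 2, 0, 0, 0, 1, 0],
    3,
    by decide +kernel⟩

theorem kernelCheck_151 : ∃ v y q, kernelCheck 151 75 v y q = true :=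
  ⟨[1, 76, 101, 38, 121, 126, 108, 19, 84, 136, 55, 63, 93, 54, 141, 85, 80, 42, 8, 68, 36, 103, 46, 107, 145, 122,
      28, 27, 125, 146, 39, 118, 119, 40, 82, 21, 49, 4, 31, 34, 70, 18, 144, 127, 47, 23, 45, 129, 37, 148, 77, 61,
      57, 14, 11, 89, 53, 138, 64, 73, 52, 95, 12, 59, 79, 135, 142, 20, 116, 41, 134, 86, 60, 100, 149],
    [6, 6, 1, 6, 6, 1, 1, 6, 6, 6, 6, 1, 1, 1, 1, 6, 6, 6, 6, 6, 6, 6, 1, 1, 6, 1, 1, 1, 6, 1, 6, 6, 1, 6, 1, 6, 6,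
      6, 6, 6, 1, 6, 6, 6, 6, 1, 6, 1, 6, 6, 1, 1, 1, 1, 6, 1, 1, 6, 6, 1, 1, 6, 1, 6, 1, 1, 1, 6, 6, 1, 1, 6, 1, 6,
      1],
    7,
    by decide +kernel⟩

theorem kernelCheck_157 : ∃ v y q, kernelCheck 157 78 v y q = true :=
  ⟨[1, 79, 105, 118, 63, 131, 45, 59, 35, 110, 100, 144, 145, 101, 21, 108, 37, 96, 124, 55, 15, 50, 41, 72, 44,
      151, 64, 129, 65, 89, 76, 54, 138, 97, 9, 48, 17, 62, 153, 106, 23, 86, 84, 25, 7, 99, 147, 36, 141, 22, 117,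
      154, 80, 32, 20, 143, 146, 111, 8, 123, 139, 38, 5, 27, 29, 69, 75, 127, 66, 83, 115, 24, 114, 87, 67, 31,
      104, 155],
    [1, 4, 3, 3, 4, 1, 1, 1, 2, 3, 2, 2, 3, 2, 1, 2, 2, 4, 2, 1, 4, 4, 1, 4, 3, 1, 3, 4, 4, 2, 3, 4, 3, 4, 2, 3, 2,
      4, 2, 2, 4, 3, 4, 3, 4, 2, 2, 3, 3, 1, 3, 2, 1, 1, 4, 3, 3, 3, 4, 4, 4, 1, 1, 3, 1, 1, 2, 3, 4, 4, 2, 1, 4, 4,
      2, 3, 1, 1],
    5,
    by decide +kernel⟩

theorem kernelCheck_163 : ∃ v y q, kernelCheck 163 81 v y q = true :=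
  ⟨[1, 82, 109, 41, 98, 136, 70, 102, 145, 49, 89, 68, 138, 35, 87, 51, 48, 154, 103, 106, 132, 126, 78, 34, 150,
      69, 157, 99, 45, 125, 142, 107, 84, 24, 14, 77, 141, 133, 46, 53, 4, 66, 91, 63, 29, 39, 111, 17, 10, 75, 16,
      116, 40, 160, 83, 131, 143, 104, 105, 144, 155, 71, 44, 135, 158, 42, 73, 12, 26, 7, 62, 120, 67, 152, 50,
      148, 36, 23, 130, 108, 161],
    [1, 1, 0, 0, 1, 1, 1, 1, 1, 1, 0, 1, 1, 0, 0, 1, 1, 0, 0, 0, 1, 1, 1, 0, 1, 1, 1, 1, 0, 1, 1, 0, 1, 1, 1, 1, 1,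
      1, 0, 1, 1, 1, 0, 1, 1, 1, 1, 1, 0, 1, 0, 0, 1, 1, 0, 1, 1, 1, 1, 1, 1, 1, 0, 1, 1, 0, 1, 0, 0, 0, 0, 1, 0, 1,
      0, 1, 1, 1, 0, 1, 0],
    2,
    by decide +kernel⟩

theorem kernelCheck_167 : ∃ v y q, kernelCheck 167 83 v y q = true :=
  ⟨[1, 84, 56, 42, 67, 28, 24, 21, 130, 117, 76, 14, 90, 12, 78, 94, 59, 65, 44, 142, 8, 38, 138, 7, 147, 45, 99,
      6, 144, 39, 97, 47, 81, 113, 105, 116, 158, 22, 30, 71, 110, 4, 101, 19, 26, 69, 32, 87, 75, 157, 131, 106,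
      104, 133, 82, 3, 126, 72, 17, 103, 115, 132, 114, 107, 18, 124, 5, 140, 46, 136, 40, 58, 151, 79, 49, 11, 154,
      15, 74, 119, 33, 55, 165],
    [10, 10, 10, 10, 1, 10, 10, 10, 10, 1, 10, 10, 1, 10, 1, 10, 1, 10, 10, 1, 10, 10, 1, 10, 10, 1, 10, 10, 10, 1,
      10, 10, 10, 1, 1, 10, 1, 10, 1, 1, 1, 10, 1, 10, 1, 1, 10, 10, 10, 10, 1, 1, 1, 10, 1, 10, 10, 10, 1, 1, 10,
      10, 10, 10, 10, 10, 1, 1, 1, 1, 1, 10, 1, 1, 10, 10, 10, 1, 1, 1, 10, 1, 1],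
    11,
    by decide +kernel⟩

theorem kernelCheck_173 : ∃ v y q, kernelCheck 173 86 v y q = true :=
  ⟨[1, 87, 58, 130, 104, 29, 99, 65, 77, 52, 63, 101, 40, 136, 150, 119, 112, 125, 82, 26, 33, 118, 158, 137, 90,
      20, 141, 68, 6, 75, 67, 146, 21, 56, 89, 149, 159, 41, 71, 13, 38, 103, 169, 59, 50, 79, 81, 155, 113, 45, 95,
      10, 111, 157, 151, 34, 85, 3, 44, 124, 156, 120, 11, 73, 8, 97, 31, 28, 168, 131, 39, 161, 64, 166, 30, 107,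
      9, 122, 46, 93, 47, 19, 148, 138, 57, 171],
    [2, 1, 4, 3, 4, 2, 4, 4, 3, 2, 4, 1, 3, 2, 3, 2, 1, 4, 1, 1, 3, 2, 2, 3, 3, 4, 1, 1, 2, 4, 3, 1, 3, 3, 3, 2, 3,
      3, 1, 3, 3, 4, 2, 1, 1, 1, 2, 4, 3, 4, 2, 2, 4, 3, 3, 3, 2, 1, 4, 2, 1, 4, 1, 3, 1, 4, 3, 4, 4, 4, 4, 1, 3, 4,
      1, 4, 3, 3, 4, 4, 2, 4, 2, 2, 2, 1],
    5,
    by decide +kernel⟩

theorem kernelCheck_179 : ∃ v y q, kernelCheck 179 89 v y q = true :=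
  ⟨[1, 90, 60, 45, 36, 30, 128, 112, 20, 18, 114, 15, 124, 64, 12, 56, 158, 10, 66, 9, 162, 57, 109, 97, 43, 62,
      126, 32, 142, 6, 52, 28, 38, 79, 133, 5, 150, 33, 101, 94, 131, 81, 25, 118, 4, 144, 80, 138, 95, 111, 172,
      31, 152, 63, 166, 16, 22, 71, 88, 3, 135, 26, 54, 14, 168, 19, 171, 129, 96, 156, 58, 92, 103, 75, 74, 106,
      93, 140, 34, 47, 42, 155, 110, 130, 139, 102, 107, 59, 177],
    [1, 4, 1, 1, 1, 4, 4, 4, 1, 4, 4, 1, 1, 1, 1, 1, 1, 4, 1, 1, 4, 1, 4, 4, 1, 4, 1, 4, 1, 4, 1, 4, 4, 4, 4, 1, 4,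
      4, 1, 4, 4, 1, 1, 4, 1, 1, 1, 1, 1, 4, 1, 1, 4, 4, 4, 1, 1, 4, 1, 1, 1, 4, 4, 1, 1, 1, 1, 1, 4, 1, 4, 4, 4, 1,
      1, 1, 1, 4, 4, 1, 1, 1, 1, 4, 1, 4, 1, 1, 1],
    5,
    by decide +kernel⟩

theorem kernelCheck_181 : ∃ v y q, kernelCheck 181 90 v y q = true :=
  ⟨[1, 91, 121, 136, 145, 151, 26, 68, 161, 163, 33, 166, 14, 13, 169, 34, 32, 171, 162, 172, 69, 107, 63, 83, 29,
      7, 114, 97, 25, 175, 146, 17, 11, 16, 150, 176, 137, 81, 65, 86, 53, 125, 80, 144, 177, 122, 104, 132, 133,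
      105, 71, 94, 41, 57, 79, 139, 54, 103, 135, 178, 92, 73, 23, 99, 39, 96, 154, 8, 21, 75, 51, 88, 62, 159, 70,
      131, 134, 123, 55, 43, 38, 117, 24, 153, 115, 40, 129, 72, 120, 179],
    [0, 3, 4, 1, 4, 3, 2, 2, 4, 3, 1, 1, 4, 4, 4, 4, 2, 3, 2, 1, 2, 2, 3, 2, 4, 3, 4, 3, 4, 3, 2, 3, 1, 4, 2, 1, 1,
      4, 4, 2, 2, 4, 4, 4, 4, 1, 3, 4, 1, 3, 2, 1, 3, 3, 1, 1, 2, 3, 4, 1, 3, 4, 2, 1, 4, 2, 1, 3, 3, 4, 3, 2, 4, 2,
      4, 3, 3, 3, 1, 4, 4, 4, 3, 3, 2, 3, 4, 3, 3, 1],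
    5,
    by decide +kernel⟩

theorem kernelCheck_191 : ∃ v y q, kernelCheck 191 95 v y q = true :=
  ⟨[1, 96, 64, 48, 153, 32, 82, 24, 85, 172, 139, 16, 147, 41, 51, 12, 45, 138, 181, 86, 91, 165, 108, 8, 107, 169,
      92, 116, 112, 121, 37, 6, 110, 118, 131, 69, 31, 186, 49, 43, 14, 141, 40, 178, 17, 54, 126, 4, 39, 149, 15,
      180, 173, 46, 66, 58, 124, 56, 68, 156, 119, 114, 94, 3, 144, 55, 134, 59, 36, 161, 113, 130, 157, 111, 163,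
      93, 129, 120, 162, 117, 158, 7, 168, 166, 9, 20, 101, 89, 88, 104, 21, 27, 76, 63, 189],
    [0, 2, 7, 8, 6, 6, 4, 10, 10, 2, 5, 2, 10, 5, 7, 7, 8, 7, 4, 8, 1, 9, 2, 8, 6, 7, 8, 9, 3, 6, 5, 6, 4, 10, 4, 6,
      5, 5, 8, 10, 5, 4, 8, 3, 10, 8, 3, 10, 10, 2, 2, 6, 9, 10, 5, 3, 1, 1, 2, 2, 4, 9, 3, 2, 10, 5, 8, 7, 6, 5, 3,
      2, 3, 9, 7, 9, 7, 10, 10, 7, 2, 9, 4, 5, 8, 10, 9, 1, 3, 7, 3, 10, 4, 1, 1],
    11,
    by decide +kernel⟩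

theorem kernelCheck_193 : ∃ v y q, kernelCheck 193 96 v y q = true :=
  ⟨[1, 97, 129, 145, 116, 161, 138, 169, 43, 58, 158, 177, 104, 69, 103, 181, 159, 118, 61, 29, 46, 79, 42, 185,
      139, 52, 143, 131, 20, 148, 137, 187, 117, 176, 182, 59, 120, 127, 99, 111, 113, 23, 9, 136, 163, 21, 115,
      189, 130, 166, 53, 26, 51, 168, 186, 162, 149, 10, 36, 74, 19, 165, 144, 190, 98, 155, 121, 88, 14, 91, 87,
      126, 156, 60, 175, 160, 188, 146, 22, 152, 112, 153, 100, 108, 109, 101, 71, 68, 180, 178, 70, 107, 110, 154,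
      128, 191],
    [2508, 4025, 1633, 3888, 367, 197, 3875, 2724, 6497, 640, 4727, 3866, 1826, 3662, 1752, 3843, 5941, 300, 633,
      529, 68, 5468, 4517, 1298, 2013, 836, 5718, 6475, 6152, 3162, 4479, 3962, 2890, 2248, 2806, 452, 5108, 3043,
      2615, 4018, 1360, 2627, 4396, 4234, 3596, 2540, 1066, 5786, 3120, 6428, 5501, 1956, 2093, 258, 1733, 5403,
      5637, 1086, 6160, 1369, 15, 1264, 5804, 398, 2099, 3919, 5445, 5041, 5321, 1442, 2589, 5556, 3857, 1080, 5518,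
      4933, 2020, 5681, 1431, 6402, 4134, 308, 4005, 2304, 4051, 1226, 851, 4377, 2015, 2197, 156, 5568, 4766, 1432,
      3134, 1],
    6529,
    by decide +kernel⟩

theorem kernelCheck_197 : ∃ v y q, kernelCheck 197 98 v y q = true :=
  ⟨[1, 99, 66, 148, 79, 33, 169, 74, 22, 138, 18, 115, 91, 183, 92, 37, 58, 11, 83, 69, 122, 9, 60, 156, 134, 144,
      73, 190, 34, 46, 89, 117, 6, 29, 152, 104, 16, 140, 96, 133, 173, 61, 55, 103, 162, 30, 109, 78, 193, 67, 85,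
      72, 171, 135, 43, 95, 159, 17, 187, 23, 42, 143, 172, 157, 97, 3, 50, 113, 20, 76, 111, 52, 27, 8, 176, 70,
      87, 48, 5, 165, 90, 185, 19, 129, 51, 126, 77, 150, 31, 81, 13, 15, 161, 153, 56, 39, 65, 195],
    [1, 1, 1, 0, 0, 1, 1, 1, 0, 1, 1, 1, 0, 1, 0, 0, 0, 1, 1, 1, 0, 0, 1, 0, 1, 0, 0, 1, 1, 0, 1, 0, 1, 1, 0, 1, 1,
      1, 1, 1, 0, 1, 1, 1, 1, 0, 1, 1, 0, 0, 0, 1, 0, 0, 1, 0, 1, 0, 1, 1, 1, 0, 0, 1, 0, 1, 1, 1, 1, 0, 0, 1, 1, 0,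
      0, 0, 1, 0, 0, 0, 1, 1, 1, 1, 1, 0, 1, 0, 1, 0, 1, 1, 1, 0, 0, 0, 0, 0],
    2,
    by decide +kernel⟩

theorem kernelCheck_199 : ∃ v y q, kernelCheck 199 99 v y q = true :=
  ⟨[1, 100, 133, 50, 40, 166, 57, 25, 177, 20, 181, 83, 46, 128, 146, 112, 82, 188, 21, 10, 19, 190, 26, 141, 8,
      23, 59, 64, 151, 73, 122, 56, 193, 41, 91, 94, 156, 110, 148, 5, 34, 109, 162, 95, 115, 13, 72, 170, 65, 4,
      160, 111, 184, 129, 76, 32, 7, 175, 27, 136, 62, 61, 139, 28, 49, 196, 101, 120, 75, 145, 185, 47, 30, 78, 69,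
      55, 168, 74, 131, 102, 86, 17, 12, 154, 96, 81, 183, 147, 161, 157, 35, 106, 107, 36, 44, 85, 119, 132, 197],
    [2, 2, 1, 2, 2, 1, 2, 2, 2, 2, 1, 1, 2, 2, 1, 2, 1, 2, 1, 2, 1, 1, 2, 1, 2, 2, 1, 2, 2, 1, 2, 2, 2, 1, 2, 2, 1,
      1, 1, 2, 1, 1, 2, 1, 2, 2, 2, 1, 2, 2, 2, 2, 2, 1, 1, 2, 2, 2, 1, 1, 2, 2, 2, 2, 2, 2, 1, 1, 1, 2, 1, 2, 1, 1,
      1, 1, 1, 1, 2, 2, 2, 1, 1, 1, 1, 2, 1, 1, 2, 2, 2, 2, 1, 2, 1, 1, 1, 2, 1],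
    3,
    by decide +kernel⟩

theorem prime_mem_range : ∀ n, n < 200 → n.Prime → 23 ≤ n → n = 37 ∨ n ∈
    [23, 29, 31, 41, 43, 47, 53, 59, 61, 67, 71, 73, 79, 83, 89, 97, 101, 103, 107, 109, 113, 127, 131, 137, 139,
      149, 151, 157, 163, 167, 173, 179, 181, 191, 193, 197, 199] := by
  decide +kernel

/-- **No `h/h⁺ = 1` in the range**. -/
theorem not_dvd_pow_lt_two_hundred {p m : ℕ} [Fact p.Prime] (hm : p = 2 * m + 1) (h23 : 23 ≤ p) (h200 : p < 200)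
    (h37 : p ≠ 37)
    (e : ℕ) : ¬ (FA.CycloIndex.mailletMatrix p m).det.natAbs ∣ p ^ e := by
  have hmem := (prime_mem_range p h200 Fact.out h23).resolve_left h37
  simp only [List.mem_cons, List.not_mem_nil, or_false] at hmem
  rcases hmem with
    rfl | rfl | rfl | rfl | rfl | rfl | rfl | rfl | rfl | rfl | rfl | rfl | rfl | rfl | rfl | rfl |
    rfl | rfl | rfl | rfl | rfl | rfl | rfl | rfl | rfl | rfl | rfl | rfl | rfl | rfl | rfl | rfl |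
    rfl | rfl | rfl | rfl | rfl
  · obtain rfl : m = 11 := by omega
    obtain ⟨v, y, q, h⟩ := kernelCheck_23
    exact not_dvd_pow_of_check hm h e
  · obtain rfl : m = 14 := by omega
    obtain ⟨v, y, q, h⟩ := kernelCheck_29
    exact not_dvd_pow_of_check hm h e
  · obtain rfl : m = 15 := by omega
    obtain ⟨v, y, q, h⟩ := kernelCheck_31
    exact not_dvd_pow_of_check hm h e
  · obtain rfl : m = 20 := by omega
    obtain ⟨v, y, q, h⟩ := kernelCheck_41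
    exact not_dvd_pow_of_check hm h e
  · obtain rfl : m = 21 := by omega
    obtain ⟨v, y, q, h⟩ := kernelCheck_43
    exact not_dvd_pow_of_check hm h e
  · obtain rfl : m = 23 := by omega
    obtain ⟨v, y, q, h⟩ := kernelCheck_47
    exact not_dvd_pow_of_check hm h e
  · obtain rfl : m = 26 := by omega
    obtain ⟨v, y, q, h⟩ := kernelCheck_53
    exact not_dvd_pow_of_check hm h e
  · obtain rfl : m = 29 := by omega
    obtain ⟨v, y, q, h⟩ := kernelCheck_59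
    exact not_dvd_pow_of_check hm h e
  · obtain rfl : m = 30 := by omega
    obtain ⟨v, y, q, h⟩ := kernelCheck_61
    exact not_dvd_pow_of_check hm h e
  · obtain rfl : m = 33 := by omega
    obtain ⟨v, y, q, h⟩ := kernelCheck_67
    exact not_dvd_pow_of_check hm h e
  · obtain rfl : m = 35 := by omega
    obtain ⟨v, y, q, h⟩ := kernelCheck_71
    exact not_dvd_pow_of_check hm h e
  · obtain rfl : m = 36 := by omega
    obtain ⟨v, y, q, h⟩ := kernelCheck_73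
    exact not_dvd_pow_of_check hm h e
  · obtain rfl : m = 39 := by omega
    obtain ⟨v, y, q, h⟩ := kernelCheck_79
    exact not_dvd_pow_of_check hm h e
  · obtain rfl : m = 41 := by omega
    obtain ⟨v, y, q, h⟩ := kernelCheck_83
    exact not_dvd_pow_of_check hm h e
  · obtain rfl : m = 44 := by omega
    obtain ⟨v, y, q, h⟩ := kernelCheck_89
    exact not_dvd_pow_of_check hm h e
  · obtain rfl : m = 48 := by omega
    obtain ⟨v, y, q, h⟩ := kernelCheck_97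
    exact not_dvd_pow_of_check hm h e
  · obtain rfl : m = 50 := by omega
    obtain ⟨v, y, q, h⟩ := kernelCheck_101
    exact not_dvd_pow_of_check hm h e
  · obtain rfl : m = 51 := by omega
    obtain ⟨v, y, q, h⟩ := kernelCheck_103
    exact not_dvd_pow_of_check hm h e
  · obtain rfl : m = 53 := by omega
    obtain ⟨v, y, q, h⟩ := kernelCheck_107
    exact not_dvd_pow_of_check hm h e
  · obtain rfl : m = 54 := by omega
    obtain ⟨v, y, q, h⟩ := kernelCheck_109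
    exact not_dvd_pow_of_check hm h e
  · obtain rfl : m = 56 := by omega
    obtain ⟨v, y, q, h⟩ := kernelCheck_113
    exact not_dvd_pow_of_check hm h e
  · obtain rfl : m = 63 := by omega
    obtain ⟨v, y, q, h⟩ := kernelCheck_127
    exact not_dvd_pow_of_check hm h e
  · obtain rfl : m = 65 := by omega
    obtain ⟨v, y, q, h⟩ := kernelCheck_131
    exact not_dvd_pow_of_check hm h e
  · obtain rfl : m = 68 := by omega
    obtain ⟨v, y, q, h⟩ := kernelCheck_137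
    exact not_dvd_pow_of_check hm h e
  · obtain rfl : m = 69 := by omega
    obtain ⟨v, y, q, h⟩ := kernelCheck_139
    exact not_dvd_pow_of_check hm h e
  · obtain rfl : m = 74 := by omega
    obtain ⟨v, y, q, h⟩ := kernelCheck_149
    exact not_dvd_pow_of_check hm h e
  · obtain rfl : m = 75 := by omega
    obtain ⟨v, y, q, h⟩ := kernelCheck_151
    exact not_dvd_pow_of_check hm h e
  · obtain rfl : m = 78 := by omega
    obtain ⟨v, y, q, h⟩ := kernelCheck_157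
    exact not_dvd_pow_of_check hm h e
  · obtain rfl : m = 81 := by omega
    obtain ⟨v, y, q, h⟩ := kernelCheck_163
    exact not_dvd_pow_of_check hm h e
  · obtain rfl : m = 83 := by omega
    obtain ⟨v, y, q, h⟩ := kernelCheck_167
    exact not_dvd_pow_of_check hm h e
  · obtain rfl : m = 86 := by omega
    obtain ⟨v, y, q, h⟩ := kernelCheck_173
    exact not_dvd_pow_of_check hm h e
  · obtain rfl : m = 89 := by omega
    obtain ⟨v, y, q, h⟩ := kernelCheck_179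
    exact not_dvd_pow_of_check hm h e
  · obtain rfl : m = 90 := by omega
    obtain ⟨v, y, q, h⟩ := kernelCheck_181
    exact not_dvd_pow_of_check hm h e
  · obtain rfl : m = 95 := by omega
    obtain ⟨v, y, q, h⟩ := kernelCheck_191
    exact not_dvd_pow_of_check hm h e
  · obtain rfl : m = 96 := by omega
    obtain ⟨v, y, q, h⟩ := kernelCheck_193
    exact not_dvd_pow_of_check hm h e
  · obtain rfl : m = 98 := by omega
    obtain ⟨v, y, q, h⟩ := kernelCheck_197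
    exact not_dvd_pow_of_check hm h e
  · obtain rfl : m = 99 := by omega
    obtain ⟨v, y, q, h⟩ := kernelCheck_199
    exact not_dvd_pow_of_check hm h e

end FA.CycloGrowth
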