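import Fermat.Agent.CycloGrowth.Residue
import Fermat.Agent.CycloGrowth.EvenBound

/-!
# Maillet's determinant exceeds `p^((p-3)/2)` from `p = 197` on

`∏ odd |L(1, χ)|² ≥ (18 p^4)^(-2) 3.1^(-m)` and `4 π² · 3.1 < 123`, while `p ≥ 197 > 123 · 8/5`.
-/

set_option autoImplicit false

noncomputable section

open Finset DirichletCharacter
open scoped Classical Real

namespace FA.CycloGrowth

variable {p : ℕ} [Fact p.Prime] {m : ℕ}

/-- **The explicit lower bound**. -/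
theorem mailletDet_gt (hm : p = 2 * m + 1) (h197 : 197 ≤ p) :
    p ^ (m - 1) < (FA.CycloIndex.mailletMatrix p m).det.natAbs := by
  have hp : p.Prime := Fact.out
  have : NeZero p := ⟨hp.ne_zero⟩
  by_contra! hle
  have hp197 : (197 : ℝ) ≤ p := by exact_mod_cast h197
  set D : ℝ := ((FA.CycloIndex.mailletMatrix p m).det.natAbs : ℝ) with hD
  have hDle : D ≤ (p : ℝ) ^ (m - 1) := by rw [hD]; exact_mod_cast hle
  set P : ℝ := ∏ t : FA.CycloIndex.OddChar p, ‖residueSum t.1‖ ^ 2 with hP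
  set O : ℝ := ∏ t : FA.CycloIndex.OddChar p, ‖LFunction t.1 1‖ ^ 2 with hO
  set E : ℝ := ∏ χ ∈ evenSet p, ‖LFunction χ 1‖ ^ 2 with hE
  have h1 : D ^ 2 * 4 ^ m = 4 * P := by
    have h := FA.CycloIndex.abs_det_oddMatrix (p := p) hm
    have h' := FA.CycloIndex.abs_det_mailletMatrix (p := p) hm (by omega)
    rw [hP, prod_pow, hD, h', show (4 : ℝ) ^ m = (2 ^ m) ^ 2 by rw [← pow_mul, mul_comm, pow_mul]; norm_num]
    have e : ∏ t : FA.CycloIndex.OddChar p, ‖residueSum t.1‖ = |(FA.CycloIndex.oddMatrix p m).det| * 2 ^ m := h.symm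
    rw [e]
    ring
  have h2 : (π ^ 2) ^ m * P = ((p : ℝ) ^ 3) ^ m * O := by
    have hcard : Fintype.card (FA.CycloIndex.OddChar p) = m := by
      have := FA.CycloIndex.two_mul_card_oddChar p (show p ≠ 2 by omega)
      omega
    have hinv : O = ∏ t : FA.CycloIndex.OddChar p, ‖LFunction t.1⁻¹ 1‖ ^ 2 := by
      let inv' : FA.CycloIndex.OddChar p → FA.CycloIndex.OddChar p := fun t => ⟨t.1⁻¹, inv_odd t.2⟩
      have hb : Function.Involutive inv' := fun t => Subtype.ext (inv_inv t.1)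
      rw [hO]
      exact (Fintype.prod_bijective inv' hb.bijective _ _ fun t => rfl).symm
    rw [hinv, hP, ← hcard, ← card_univ, ← prod_const, ← prod_const, ← prod_mul_distrib, ← prod_mul_distrib]
    exact prod_congr rfl fun t _ => norm_sq_residueSum t.2
  have h3 : 1 ≤ O * E * (324 * (p : ℝ) ^ 8) := by
    have h := inv_le_prod_LFunction_one p (by omega)
    have hsplit : ∏ χ ∈ (univ : Finset (DirichletCharacter ℂ p)).erase 1, ‖LFunction χ 1‖ ^ 2 = O * E := by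
      rw [← prod_filter_mul_prod_filter_not _ (fun χ : DirichletCharacter ℂ p => χ.Odd), hO, hE]
      congr 1
      · rw [← Finset.prod_subtype _ (p := fun χ : DirichletCharacter ℂ p => χ.Odd) (fun χ => ?_)
          (fun χ => ‖LFunction χ 1‖ ^ 2)]
        simp only [mem_filter, mem_erase, mem_univ, and_true]
        exact ⟨fun h => h.2, fun h => ⟨ne_one_of_odd h, h⟩⟩
      · refine prod_congr ?_ fun _ _ => rfl
        ext χ
        simp only [evenSet, mem_filter, mem_erase, mem_univ, and_true, true_and]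
        refine ⟨fun h => ⟨(DirichletCharacter.even_or_odd χ).resolve_right h.2, h.1⟩, fun h => ⟨h.2, fun ho => ?_⟩⟩
        have a1 : χ (-1) = 1 := h.1
        have a2 : χ (-1) = -1 := ho
        rw [a1] at a2
        norm_num at a2
    rw [← hsplit, prod_pow]
    rw [div_le_iff₀ (by positivity)] at h
    nlinarith [one_le_pow₀ (n := 2) h]
  have h4 : E ≤ (31 / 10 : ℝ) ^ m :=
    (prod_even_sq_le hm (by omega)).trans (pow_le_pow_right₀ (by norm_num) (Nat.sub_le m 1))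
  -- the chain
  have hO0 : 0 ≤ O := prod_nonneg fun t _ => sq_nonneg _
  have hpi : (π ^ 2) ^ m * 4 ^ m * (31 / 10 : ℝ) ^ m ≤ (123 : ℝ) ^ m := by
    rw [← mul_pow, ← mul_pow]
    refine pow_le_pow_left₀ (by positivity) ?_ m
    nlinarith [Real.pi_lt_d4, Real.pi_pos]
  have hD2 : D ^ 2 ≤ ((p : ℝ) ^ (m - 1)) ^ 2 := pow_le_pow_left₀ (by rw [hD]; positivity) hDle 2
  have hmain : ((p : ℝ) ^ 3) ^ m ≤ 81 * (123 : ℝ) ^ m * (p : ℝ) ^ 8 * ((p : ℝ) ^ (m - 1)) ^ 2 := by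
    calc ((p : ℝ) ^ 3) ^ m ≤ ((p : ℝ) ^ 3) ^ m * (O * E * (324 * (p : ℝ) ^ 8)) :=
          le_mul_of_one_le_right (by positivity) h3
      _ ≤ ((p : ℝ) ^ 3) ^ m * (O * (31 / 10 : ℝ) ^ m * (324 * (p : ℝ) ^ 8)) := by gcongr
      _ = (π ^ 2) ^ m * (4 * P) * ((31 / 10 : ℝ) ^ m * (81 * (p : ℝ) ^ 8)) := by
          linear_combination (-324 * (31 / 10 : ℝ) ^ m * (p : ℝ) ^ 8) * h2
      _ = (π ^ 2) ^ m * 4 ^ m * (31 / 10 : ℝ) ^ m * (81 * (p : ℝ) ^ 8) * D ^ 2 := by rw [← h1]; ring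
      _ ≤ (123 : ℝ) ^ m * (81 * (p : ℝ) ^ 8) * ((p : ℝ) ^ (m - 1)) ^ 2 := by gcongr
      _ = _ := by ring
  obtain ⟨k, hk⟩ : ∃ k, m = k + 98 := ⟨m - 98, by omega⟩
  have hp0 : (0 : ℝ) < p := by linarith
  have hfin : (p : ℝ) ^ (k + 92) ≤ 81 * (123 : ℝ) ^ (k + 98) := by
    refine le_of_mul_le_mul_left ?_ (pow_pos hp0 (2 * k + 202))
    subst hk
    rw [show k + 98 - 1 = k + 97 by omega] at hmain
    rw [← pow_mul, ← pow_mul] at hmain
    calc (p : ℝ) ^ (2 * k + 202) * (p : ℝ) ^ (k + 92) = (p : ℝ) ^ (3 * (k + 98)) := by rw [← pow_add]; congr 1; omega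
      _ ≤ 81 * 123 ^ (k + 98) * (p : ℝ) ^ 8 * (p : ℝ) ^ ((k + 97) * 2) := hmain
      _ = (p : ℝ) ^ (2 * k + 202) * (81 * 123 ^ (k + 98)) := by
          rw [mul_assoc (81 * (123 : ℝ) ^ (k + 98)), ← pow_add, mul_comm]; congr 2; omega
  have hbig : (123 : ℝ) ^ (k + 92) * (8 / 5) ^ (k + 92) ≤ (p : ℝ) ^ (k + 92) := by
    rw [← mul_pow]
    exact pow_le_pow_left₀ (by norm_num) (by linarith) _
  have hnum : 81 * (123 : ℝ) ^ 6 < (8 / 5) ^ (k + 92) :=
    lt_of_lt_of_le (by norm_num) (pow_le_pow_right₀ (by norm_num) (Nat.le_add_left 92 k))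
  have h123 : (123 : ℝ) ^ (k + 98) = (123 : ℝ) ^ (k + 92) * 123 ^ 6 := by rw [← pow_add]
  rw [h123] at hfin
  have := mul_lt_mul_of_pos_left hnum (pow_pos (by norm_num : (0 : ℝ) < 123) (k + 92))
  linarith

end FA.CycloGrowth
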