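import Fermat.Agent.Tau.SiegelBound
import Mathlib.NumberTheory.Harmonic.ZetaAsymp

/-!
# `(s - 1) ζ(s)` in the half plane `re s > 0`

`(s - 1) ζ(s) = s - (s - 1) s ∫_{t > 1} {t} t^(-s-1)`, so it is at most `22` on `|s - 2| = 3/2` and positive on
`(0, 1]`.
-/

set_option autoImplicit false

noncomputable section

namespace FA.CycloGrowth

open MeasureTheory Filter Topology Asymptotics Complex

/-- The fractional part beyond `1`. -/
def fracPart : ℝ → ℂ := (Set.Ioi 1).indicator fun t => ((t - (⌊t⌋₊ : ℝ) : ℝ) : ℂ)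

/-- The integral of the representation. -/
def fracInt (s : ℂ) : ℂ := ∫ t in Set.Ioi (1 : ℝ), ((t - (⌊t⌋₊ : ℝ) : ℝ) : ℂ) * (t : ℂ) ^ (-(s + 1))

theorem measurable_frac : Measurable fun t : ℝ => ((t - (⌊t⌋₊ : ℝ) : ℝ) : ℂ) :=
  Complex.measurable_ofReal.comp (measurable_id.sub
    ((measurable_of_countable fun n : ℕ => (n : ℝ)).comp Nat.measurable_floor))

theorem norm_frac_le {t : ℝ} (ht : 0 ≤ t) : ‖((t - (⌊t⌋₊ : ℝ) : ℝ) : ℂ)‖ ≤ 1 := by
  rw [Complex.norm_real, Real.norm_eq_abs, abs_le]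
  constructor <;> linarith [Nat.floor_le ht, Nat.lt_floor_add_one t]

theorem norm_fracPart_le (t : ℝ) : ‖fracPart t‖ ≤ 1 := by
  unfold fracPart
  by_cases h : t ∈ Set.Ioi (1 : ℝ)
  · rw [Set.indicator_of_mem h]; exact norm_frac_le (zero_le_one.trans (le_of_lt (Set.mem_Ioi.1 h)))
  · rw [Set.indicator_of_notMem h, norm_zero]; exact zero_le_one

theorem norm_fracIntegrand_le {s : ℂ} {t : ℝ} (ht : 1 < t) :
    ‖((t - (⌊t⌋₊ : ℝ) : ℝ) : ℂ) * (t : ℂ) ^ (-(s + 1))‖ ≤ t ^ (-(s.re + 1)) := by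
  rw [norm_mul, Complex.norm_cpow_eq_rpow_re_of_pos (by linarith)]
  simpa using mul_le_mul_of_nonneg_right (norm_frac_le (by linarith : (0 : ℝ) ≤ t))
    (Real.rpow_nonneg (by linarith : (0 : ℝ) ≤ t) (-(s.re + 1)))

theorem norm_fracInt_le {s : ℂ} (hs : 0 < s.re) : ‖fracInt s‖ ≤ 1 / s.re := by
  refine (norm_integral_le_of_norm_le (integrableOn_Ioi_rpow_of_lt (a := -(s.re + 1)) (by linarith) one_pos)
    ?_).trans (le_of_eq ?_)
  · filter_upwards [ae_restrict_mem measurableSet_Ioi] with t ht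
    exact norm_fracIntegrand_le ht
  · rw [integral_Ioi_rpow_of_lt (by linarith) one_pos, Real.one_rpow, show -(s.re + 1) + 1 = -s.re by ring,
      neg_div_neg_eq]

theorem fracInt_eq_mellin (z : ℂ) : mellin fracPart (-z) = fracInt z := by
  rw [fracInt, mellin]
  refine ((setIntegral_congr_fun measurableSet_Ioi fun t ht => ?_).trans
    (setIntegral_indicator measurableSet_Ioi)).trans
    (by rw [Set.inter_eq_right.2 (Set.Ioi_subset_Ioi zero_le_one)])
  show (t : ℂ) ^ (-z - 1) • fracPart t =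
    (Set.Ioi 1).indicator (fun t : ℝ => ((t - (⌊t⌋₊ : ℝ) : ℝ) : ℂ) * (t : ℂ) ^ (-(z + 1))) t
  unfold fracPart
  by_cases h : t ∈ Set.Ioi (1 : ℝ)
  · rw [Set.indicator_of_mem h, Set.indicator_of_mem h, smul_eq_mul, mul_comm, neg_add']
  · rw [Set.indicator_of_notMem h, Set.indicator_of_notMem h, smul_zero]

theorem differentiableAt_fracInt {z : ℂ} (hz : 0 < z.re) : DifferentiableAt ℂ fracInt z := by
  have hloc : LocallyIntegrableOn fracPart (Set.Ioi 0) := by
    refine ((locallyIntegrable_const (1 : ℝ)).mono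
      (measurable_frac.indicator measurableSet_Ioi).aestronglyMeasurable
      (Eventually.of_forall fun t => ?_)).locallyIntegrableOn _
    rw [norm_one]
    exact norm_fracPart_le t
  have h := mellin_differentiableAt_of_isBigO_rpow (f := fracPart) (a := 0) (b := -z.re - 1) (s := -z)
    hloc ?_ (by simpa using hz) ?_ (by simp)
  · exact (h.comp z differentiableAt_fun_id.neg).congr_of_eventuallyEq
      (Eventually.of_forall fun w => (fracInt_eq_mellin w).symm)
  · refine IsBigO.of_bound 1 (Eventually.of_forall fun t => ?_)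
    simp only [neg_zero, Real.rpow_zero, norm_one, mul_one]
    exact norm_fracPart_le t
  · refine (isBigO_zero _ _).congr' ?_ EventuallyEq.rfl
    filter_upwards [nhdsWithin_le_nhds (Iio_mem_nhds one_pos)] with t ht
    exact (Set.indicator_of_notMem (fun h => lt_asymm (Set.mem_Ioi.1 h) ht) _).symm

/-- The formula in the half plane of convergence. -/
theorem riemannZeta₁_eq_of_one_lt {z : ℂ} (hz : 1 < z.re) :
    riemannZeta₁ z = z - (z - 1) * z * fracInt z := by
  have hne : z ≠ 1 := fun h => by simp [h] at hz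
  have hz0 : z ≠ 0 := fun h => by simp [h] at hz; linarith
  have hS : ∀ n : ℕ, ∑ k ∈ Finset.Icc 1 n, (1 : ℕ → ℂ) k = (n : ℂ) := fun n => by simp
  have hL := LSeries_eq_mul_integral (1 : ℕ → ℂ) zero_le_one hz (LSeriesSummable_one_iff.2 hz)
    (IsBigO.of_bound 1 (Eventually.of_forall fun n => by rw [hS]; simp))
  rw [LSeries_one_eq_riemannZeta hz] at hL
  have hi1 : IntegrableOn (fun t : ℝ => (t : ℂ) ^ (-z)) (Set.Ioi 1) :=
    integrableOn_Ioi_cpow_of_lt (by simpa using hz) one_pos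
  have hi2 : IntegrableOn (fun t : ℝ => ((t - (⌊t⌋₊ : ℝ) : ℝ) : ℂ) * (t : ℂ) ^ (-(z + 1))) (Set.Ioi 1) := by
    refine (integrableOn_Ioi_rpow_of_lt (a := -(z.re + 1)) (by linarith) one_pos).mono'
      ((measurable_frac.mul (Complex.measurable_ofReal.pow_const _)).aestronglyMeasurable) ?_
    filter_upwards [ae_restrict_mem measurableSet_Ioi] with t ht
    exact norm_fracIntegrand_le ht
  have hsplit : ∫ t in Set.Ioi (1 : ℝ), (∑ k ∈ Finset.Icc 1 ⌊t⌋₊, (1 : ℕ → ℂ) k) * (t : ℂ) ^ (-(z + 1)) =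
      (∫ t in Set.Ioi (1 : ℝ), (t : ℂ) ^ (-z)) - fracInt z := by
    rw [fracInt, ← integral_sub hi1 hi2]
    refine setIntegral_congr_fun measurableSet_Ioi fun t ht => ?_
    have ht0 : (t : ℂ) ≠ 0 := Complex.ofReal_ne_zero.2 (ne_of_gt (zero_lt_one.trans (Set.mem_Ioi.1 ht)))
    rw [hS, show (t : ℂ) ^ (-z) = (t : ℂ) * (t : ℂ) ^ (-(z + 1)) by
      conv_rhs => arg 1; rw [← Complex.cpow_one (t : ℂ)]
      rw [← Complex.cpow_add _ _ ht0]; congr 1; ring]
    push_cast
    ring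
  rw [hsplit, integral_Ioi_cpow_of_lt (by simpa using hz) one_pos, riemannZeta_eq_inv_sub_mul hne,
    Complex.ofReal_one, Complex.one_cpow] at hL
  have h1 : z - 1 ≠ 0 := sub_ne_zero.2 hne
  have h2 : -z + 1 ≠ 0 := fun h => h1 (by linear_combination -h)
  field_simp at hL
  grind

/-- **The formula for `re s > 0`**. -/
theorem riemannZeta₁_eq {z : ℂ} (hz : 0 < z.re) : riemannZeta₁ z = z - (z - 1) * z * fracInt z := by
  have hU : IsOpen {w : ℂ | 0 < w.re} := isOpen_lt continuous_const Complex.continuous_re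
  have hd : ∀ w : ℂ, 0 < w.re → DifferentiableAt ℂ (fun w => w - (w - 1) * w * fracInt w) w := fun w hw =>
    differentiableAt_fun_id.sub (((differentiableAt_fun_id.sub_const 1).mul differentiableAt_fun_id).mul
      (differentiableAt_fracInt hw))
  refine AnalyticOnNhd.eqOn_of_preconnected_of_eventuallyEq
    (differentiable_riemannZeta₁.differentiableOn.analyticOnNhd hU)
    (DifferentiableOn.analyticOnNhd (fun w hw => (hd w hw).differentiableWithinAt) hU)
    (convex_halfSpace_re_gt 0).isPreconnected (z₀ := 2) (by simp) ?_ hz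
  filter_upwards [(isOpen_lt continuous_const Complex.continuous_re).mem_nhds
    (show (1 : ℝ) < (2 : ℂ).re by norm_num)] with w hw
  exact riemannZeta₁_eq_of_one_lt hw

/-- **The bound on the circle**. -/
theorem norm_riemannZeta₁_sphere {z : ℂ} (hz : z ∈ Metric.sphere (2 : ℂ) (3 / 2)) : ‖riemannZeta₁ z‖ ≤ 22 := by
  have hz' : ‖z - 2‖ = 3 / 2 := mem_sphere_iff_norm.1 hz
  have hre : 1 / 2 ≤ z.re := by
    have := Complex.abs_re_le_norm (z - 2)
    rw [hz', Complex.sub_re, abs_le] at this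
    norm_num at this
    linarith [this.1]
  have h1 : ‖z‖ ≤ 7 / 2 := by
    have := norm_add_le (z - 2) 2
    rw [sub_add_cancel, hz'] at this
    norm_num at this
    linarith
  have h2 : ‖z - 1‖ ≤ 5 / 2 := by
    have := norm_add_le (z - 2) 1
    rw [show z - 2 + 1 = z - 1 by ring, hz', norm_one] at this
    linarith
  have h3 : ‖fracInt z‖ ≤ 2 := (norm_fracInt_le (by linarith)).trans (by
    rw [div_le_iff₀ (by linarith)]; linarith)
  rw [riemannZeta₁_eq (by linarith)]
  refine (norm_sub_le _ _).trans ?_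
  rw [norm_mul, norm_mul]
  have := mul_le_mul (mul_le_mul h2 h1 (norm_nonneg _) (by norm_num)) h3 (norm_nonneg _) (by norm_num)
  linarith

/-- **Positivity on `(0, 1]`**. -/
theorem riemannZeta₁_ofReal {x : ℝ} (hx : 0 < x) (hx1 : x ≤ 1) :
    ∃ r : ℝ, 0 ≤ r ∧ riemannZeta₁ x = (r : ℂ) := by
  have h : fracInt x = ((∫ t in Set.Ioi (1 : ℝ), (t - (⌊t⌋₊ : ℝ)) * t ^ (-(x + 1)) : ℝ) : ℂ) := by
    rw [fracInt, ← integral_complex_ofReal]
    refine setIntegral_congr_fun measurableSet_Ioi fun t ht => ?_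
    rw [Complex.ofReal_mul, Complex.ofReal_cpow (zero_le_one.trans ht.out.le)]
    push_cast
    ring
  have h0 : 0 ≤ ∫ t in Set.Ioi (1 : ℝ), (t - (⌊t⌋₊ : ℝ)) * t ^ (-(x + 1)) :=
    setIntegral_nonneg measurableSet_Ioi fun t ht => by
      have h1 : (1 : ℝ) < t := ht
      exact mul_nonneg (sub_nonneg.2 (Nat.floor_le (by linarith))) (Real.rpow_nonneg (by linarith) _)
  refine ⟨x + (1 - x) * x * ∫ t in Set.Ioi (1 : ℝ), (t - (⌊t⌋₊ : ℝ)) * t ^ (-(x + 1)), ?_, ?_⟩
  · exact add_nonneg hx.le (mul_nonneg (mul_nonneg (by linarith) hx.le) h0)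
  · rw [riemannZeta₁_eq (by simpa using hx), h]
    push_cast
    ring

end FA.CycloGrowth
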